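import Fermat.Agent.ReducedGroups.Exponent
import Fermat.Agent.OpenImageAll.FrobeniusField

/-!
# Exponents on exceptional curves

If `a_q = 0` at the inert good primes of `ℚ(√D)` then `a_q² - 4 q = D b²` at the others. With all
`d ²` points of order dividing `d` this forces `d ∣ b` as well as `d ∣ a_q - 2`, so that `q` is one
of `O(X / d²)` values: a cofactor above `(log q)²` is rare (Duke).
-/

set_option autoImplicit false
set_option linter.style.haveILetI false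
set_option linter.unusedSectionVars false

noncomputable section

open WeierstrassCurve FA.Frob FA.EC FA.PointDiv
open scoped WeierstrassCurve.Affine Classical

namespace FA.ReducedGroups

/-- A square dividing a square times a squarefree number divides as its root. -/
theorem dvd_of_sq_dvd_squarefree_mul {D : ℤ} (hD : Squarefree D) {d : ℕ} (hd : 0 < d) {b : ℤ}
    (h : (d : ℤ) ^ 2 ∣ D * b ^ 2) : (d : ℤ) ∣ b := by
  obtain ⟨g, d', b', hg, hco, hd', hb'⟩ := Int.exists_gcd_one'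
    (Int.gcd_pos_of_ne_zero_left b (Int.natCast_ne_zero.mpr hd.ne'))
  have h2 : d' ^ 2 ∣ D * b' ^ 2 := by
    rw [hd', hb', mul_pow, mul_pow, ← mul_assoc] at h
    exact (mul_dvd_mul_iff_right (pow_ne_zero 2 (Int.natCast_ne_zero.mpr hg.ne'))).mp h
  have hu : IsUnit d' := hD d' (by
    rw [← sq]
    exact (Int.isCoprime_iff_gcd_eq_one.mpr hco).pow.dvd_of_dvd_mul_right h2)
  rw [hd', hb']
  exact mul_dvd_mul_right hu.dvd _

/-- The values `((2 + h d)² + |D| (j d)²) / 4` which occur among the exceptions. -/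
def candidatesCM (D : ℤ) (k : ℕ) : Finset ℕ :=
  (Finset.Icc ⌈(k : ℝ) ^ 2 / 16⌉₊ ⌊3 * Real.sqrt (2 ^ k)⌋₊).biUnion (fun d =>
    (Finset.Icc (-⌊6 * Real.sqrt (2 ^ k) / d⌋) ⌊6 * Real.sqrt (2 ^ k) / d⌋ ×ˢ
        Finset.Icc (-⌊6 * Real.sqrt (2 ^ k) / d⌋) ⌊6 * Real.sqrt (2 ^ k) / d⌋).image
      fun p => (((2 + p.1 * d) ^ 2 + |D| * (p.2 * d) ^ 2) / 4).toNat) ∪
    if k ≤ 5 then Finset.Ico (2 ^ k) (2 ^ (k + 1)) else ∅

theorem card_candidatesCM_le (D : ℤ) {k : ℕ} (hk : 1 ≤ k) :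
    ((candidatesCM D k).card : ℝ) ≤ 7300 * 2 ^ k / (k : ℝ) ^ 2 := by
  set R := Real.sqrt (2 ^ k)
  have hk0 : (0 : ℝ) < k := by exact_mod_cast hk
  have hD0 : 0 < (k : ℝ) ^ 2 / 16 := by positivity
  have hR : R * R = 2 ^ k := Real.mul_self_sqrt (by positivity)
  have hR0 : 0 < R := Real.sqrt_pos.mpr (by positivity)
  have hterm : ∀ d ∈ Finset.Icc ⌈(k : ℝ) ^ 2 / 16⌉₊ ⌊3 * R⌋₊,
      (((Finset.Icc (-⌊6 * R / d⌋) ⌊6 * R / d⌋ ×ˢ Finset.Icc (-⌊6 * R / d⌋) ⌊6 * R / d⌋).image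
        fun p => (((2 + p.1 * d) ^ 2 + |D| * (p.2 * d) ^ 2) / 4).toNat).card : ℝ) ≤
        225 * 2 ^ k * ((d : ℝ) ^ 2)⁻¹ := by
    intro d hd
    rw [Finset.mem_Icc] at hd
    have hd0 : (0 : ℝ) < d := lt_of_lt_of_le hD0 ((Nat.le_ceil _).trans (by exact_mod_cast hd.1))
    have hdR : (d : ℝ) ≤ 3 * R := le_trans (by exact_mod_cast hd.2) (Nat.floor_le (by positivity))
    refine le_trans (Nat.cast_le.mpr Finset.card_image_le) ?_
    rw [Finset.card_product, Int.card_Icc, Nat.cast_mul]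
    have h0 : 0 ≤ ⌊6 * R / d⌋ := Int.floor_nonneg.mpr (by positivity)
    have e : (((⌊6 * R / d⌋ + 1 - -⌊6 * R / d⌋).toNat : ℕ) : ℝ) ≤ 15 * R / d := by
      rw [← Int.cast_natCast, Int.toNat_of_nonneg (by omega)]
      push_cast
      have := Int.floor_le (6 * R / d)
      rw [le_div_iff₀ hd0] at this ⊢
      linarith
    refine (mul_le_mul e e (Nat.cast_nonneg _) (by positivity)).trans (le_of_eq ?_)
    rw [← hR]; ring
  refine le_trans (Nat.cast_le.mpr (Finset.card_union_le _ _)) ?_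
  rw [Nat.cast_add]
  have h1 : ((if k ≤ 5 then Finset.Ico (2 ^ k) (2 ^ (k + 1)) else (∅ : Finset ℕ)).card : ℝ) ≤
      25 * 2 ^ k / (k : ℝ) ^ 2 := by
    split_ifs with h5
    · rw [Nat.card_Ico, pow_succ, mul_two, Nat.add_sub_cancel, le_div_iff₀ (by positivity)]
      push_cast
      have : (k : ℝ) ^ 2 ≤ 25 := by exact_mod_cast Nat.pow_le_pow_left h5 2
      nlinarith [pow_pos (two_pos : (0 : ℝ) < 2) k]
    · rw [Finset.card_empty, Nat.cast_zero]; positivity
  refine le_trans (add_le_add (le_trans (Nat.cast_le.mpr Finset.card_biUnion_le) ?_) h1) (le_of_eq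
    (show 7275 * 2 ^ k / (k : ℝ) ^ 2 + 25 * 2 ^ k / (k : ℝ) ^ 2 = _ by ring))
  rw [Nat.cast_sum]
  refine (Finset.sum_le_sum hterm).trans ?_
  rw [← Finset.mul_sum]
  refine (mul_le_mul_of_nonneg_left (sum_Icc_inv_sq_le hD0 _) (by positivity)).trans ?_
  rw [le_div_iff₀ (by positivity), div_div_eq_mul_div, ← mul_div_assoc, div_mul_cancel₀ _
    (by positivity)]
  nlinarith [pow_pos (two_pos : (0 : ℝ) < 2) k]

variable {W : WeierstrassCurve ℤ} [(ratCurve W).IsElliptic]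

/-- **An exception of an exceptional curve is a candidate.** -/
theorem mem_candidatesCM {D : ℤ} (hD : Squarefree D) (hD1 : D ≠ 1)
    (h0 : ∀ l : ℕ, l.Prime → W.IsGoodPrimeFor l → ¬ IsSquare (D : ZMod l) → W.apOfModel l = 0)
    {q : ℕ} [hq : Fact q.Prime] (h4 : 4 ≤ q) (hgood : W.IsGoodPrimeFor q)
    (he : (exponentAt W q : ℝ) < (q : ℝ) / Real.log q ^ 2) :
    q ∈ candidatesCM D (Nat.log 2 q) := by
  obtain ⟨d, hd0, hde, ⟨c, hc⟩, -, hq1d, ⟨h, hh⟩⟩ := exists_structure (by omega) hgood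
  have hH : W.apOfModel q ^ 2 ≤ 4 * (q : ℤ) := by
    haveI : (W.reductionMod q).IsElliptic := reductionMod_isElliptic W hgood
    exact FA.HasseBound.traceOfFrobenius_sq_le (W.reductionMod q)
  set k := Nat.log 2 q
  set a := W.apOfModel q
  have hq1 : 2 ^ k ≤ q := Nat.pow_log_le_self 2 (by omega)
  have hq2 : q < 2 ^ (k + 1) := Nat.lt_pow_succ_log_self one_lt_two q
  have hq2' : (q : ℝ) ≤ 2 * 2 ^ k := by
    rw [pow_succ, mul_comm] at hq2
    exact_mod_cast hq2.le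
  have hq4 : (4 : ℝ) ≤ q := by exact_mod_cast h4
  set s := Real.sqrt q
  set R := Real.sqrt (2 ^ k)
  have hs : s ^ 2 = q := Real.sq_sqrt (by positivity)
  have hs2 : 2 ≤ s := Real.le_sqrt_of_sq_le (by linarith)
  have hR : R ^ 2 = (2 : ℝ) ^ k := Real.sq_sqrt (by positivity)
  have hR0 : 0 ≤ R := Real.sqrt_nonneg _
  have hsR : 2 * s ≤ 3 * R := by nlinarith
  have ha : |(a : ℝ)| ≤ 2 * s := by
    refine abs_le_of_sq_le_sq ?_ (by positivity)
    rw [mul_pow, hs]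
    exact_mod_cast (show a ^ 2 ≤ (2 : ℤ) ^ 2 * q by linarith)
  rw [abs_le] at ha
  have hdpos : (0 : ℝ) < d := by exact_mod_cast hd0
  have hN : (d : ℝ) * exponentAt W q = (q : ℝ) + 1 - a := by exact_mod_cast hde
  -- the cofactor is large
  have hl : (k : ℝ) / 2 ≤ Real.log q := by
    refine le_trans ?_ (Real.log_le_log (by positivity)
      (show (2 : ℝ) ^ k ≤ q by exact_mod_cast hq1))
    rw [Real.log_pow, div_eq_mul_inv]
    exact mul_le_mul_of_nonneg_left (by linarith [Real.log_two_gt_d9]) (Nat.cast_nonneg _)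
  have hL : 0 < Real.log q := Real.log_pos (by linarith)
  have hdk : (k : ℝ) ^ 2 / 16 ≤ d := by
    rw [lt_div_iff₀ (by positivity)] at he
    have h1 : (q : ℝ) / 4 ≤ d * exponentAt W q := by nlinarith
    have h2 : (q : ℝ) / 4 * Real.log q ^ 2 ≤ d * q := by
      calc (q : ℝ) / 4 * Real.log q ^ 2 ≤ d * exponentAt W q * Real.log q ^ 2 :=
            mul_le_mul_of_nonneg_right h1 (by positivity)
        _ = d * (exponentAt W q * Real.log q ^ 2) := by ring
        _ ≤ d * q := mul_le_mul_of_nonneg_left he.le hdpos.le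
    have h3 : Real.log q ^ 2 / 4 ≤ d :=
      le_of_mul_le_mul_right (show _ * (q : ℝ) ≤ _ * q by linarith) (by linarith)
    nlinarith [pow_le_pow_left₀ (by positivity) hl 2]
  by_cases hk5 : k ≤ 5
  · refine Finset.mem_union_right _ ?_
    rw [if_pos hk5]
    exact Finset.mem_Ico.mpr ⟨hq1, hq2⟩
  refine Finset.mem_union_left _ ?_
  have hd3 : 3 ≤ d := by
    have h6 : (6 : ℝ) ≤ k := by exact_mod_cast (show 6 ≤ k by omega)
    have : (2 : ℝ) < d := lt_of_lt_of_le (by nlinarith) hdk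
    exact_mod_cast this
  have ha0 : a ≠ 0 := fun e => by
    rw [e] at hh
    have : d ∣ 2 := Int.natCast_dvd_natCast.mp ⟨-h, by linear_combination -hh⟩
    have := Nat.le_of_dvd two_pos this
    omega
  obtain ⟨b, hb⟩ := FA.Exceptional.exists_disc_eq hD hD1 h0 hq.out hgood ha0
  have hDneg : D < 0 := by
    by_contra hn
    have h1 : (a : ℤ) ^ 2 - 4 * q < 0 := FA.Exceptional.disc_neg hq.out hgood
    nlinarith [mul_nonneg (not_lt.mp hn) (sq_nonneg b)]
  have hdb : (d : ℤ) ∣ b := by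
    refine dvd_of_sq_dvd_squarefree_mul hD hd0 ?_
    rw [hc] at hde
    push_cast at hde
    exact ⟨h ^ 2 - 4 * c, by rw [← hb]; linear_combination (a - 2 + d * h) * hh + 4 * hde⟩
  obtain ⟨j, rfl⟩ := hdb
  have hval : (2 + h * (d : ℤ)) ^ 2 + |D| * (j * d) ^ 2 = 4 * q := by
    rw [abs_of_neg hDneg, show 2 + h * (d : ℤ) = a by linear_combination -hh]
    linear_combination hb
  have hjd : |(j : ℝ)| * d ≤ 6 * R := by
    have h2 : ((j : ℝ) * d) ^ 2 ≤ (6 * R) ^ 2 := by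
      have h3 : (j * (d : ℤ)) ^ 2 ≤ 4 * q := by
        have h4 : 1 * (j * (d : ℤ)) ^ 2 ≤ |D| * (j * d) ^ 2 :=
          mul_le_mul_of_nonneg_right (Int.one_le_abs hDneg.ne) (sq_nonneg _)
        nlinarith [sq_nonneg (2 + h * (d : ℤ))]
      rw [mul_pow (6 : ℝ), hR]
      have h4 : ((j : ℝ) * d) ^ 2 ≤ 4 * q := by exact_mod_cast h3
      linarith
    have := abs_le_of_sq_le_sq h2 (by positivity)
    rwa [abs_mul, abs_of_pos hdpos] at this
  have hhd : |(h : ℝ)| * d ≤ 6 * R := by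
    have e : (a : ℝ) - 2 = d * h := by exact_mod_cast hh
    rw [← abs_of_pos hdpos, ← abs_mul, mul_comm, ← e, abs_le]
    constructor <;> linarith
  have hd3' : (d : ℝ) ≤ 3 * R := by
    have hcd : (d : ℝ) * d * c = (q : ℝ) + 1 - a := by rw [← hN, hc]; push_cast; ring
    have hc1 : (1 : ℝ) ≤ c := by
      exact_mod_cast Nat.one_le_iff_ne_zero.mpr fun e => by
        rw [e, Nat.cast_zero, mul_zero] at hcd; nlinarith
    nlinarith
  simp only [Finset.mem_biUnion, Finset.mem_image, Finset.mem_product, Finset.mem_Icc]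
  have hI : ∀ z : ℤ, |(z : ℝ)| * d ≤ 6 * R →
      -⌊6 * R / d⌋ ≤ z ∧ z ≤ ⌊6 * R / d⌋ := fun z hz => by
    refine abs_le.mp (Int.le_floor.mpr ((le_div_iff₀ hdpos).mpr ?_))
    rwa [Int.cast_abs]
  refine ⟨d, ⟨Nat.ceil_le.mpr hdk, Nat.le_floor hd3'⟩, (h, j), ⟨hI h hhd, hI j hjd⟩, ?_⟩
  rw [hval, Int.mul_ediv_cancel_left _ (by norm_num : (4 : ℤ) ≠ 0), Int.toNat_natCast]

end FA.ReducedGroups

end
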