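import Fermat.Agent.ReducedGroups.PointOrder
import Fermat.Agent.MordellWeil.Height

/-!
# Few primes at which a subgroup reduces to a small group

If the reductions of `r` independent points generate fewer than `(N + 1) ^ r` elements, a nonzero
combination with coefficients at most `N` reduces to zero, so `q` divides the denominator of its
abscissa. Its height is `O(N ^ 2)`, so the denominators of all `(2 N + 1) ^ r` combinations have
product at most `exp (O(N ^ (r + 2)))`.
-/

set_option autoImplicit false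
set_option linter.style.haveILetI false
set_option linter.unusedSectionVars false

noncomputable section

open WeierstrassCurve FA.Frob FA.EC FA.PointDiv FA.MordellWeil Height
open scoped WeierstrassCurve.Affine Classical

local notation "Qb" => AlgebraicClosure ℚ

namespace FA.ReducedGroups

section height

variable {E : WeierstrassCurve ℚ}

theorem hgt_zero : MordellWeil.hgt (0 : E.toAffine.Point) = 0 := by
  unfold MordellWeil.hgt
  rw [Affine.Point.xRep_zero]
  have h := logHeight₁_eq_logHeight (0 : ℚ)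
  rw [logHeight₁_zero] at h
  rw [← logHeight_comp_equiv (Equiv.swap (0 : Fin 2) 1)]
  have e : ![(1 : ℚ), 0] ∘ Equiv.swap (0 : Fin 2) 1 = ![0, 1] := by
    funext i; fin_cases i <;> simp
  rw [e]
  exact h.symm

theorem hgt_neg (P : E.toAffine.Point) : MordellWeil.hgt (-P) = MordellWeil.hgt P := by
  unfold MordellWeil.hgt
  rw [Affine.Point.xRep_neg]

/-- The denominator of the abscissa is at most the exponential of the height. -/
theorem log_den_le_hgt (P : E.toAffine.Point) : Real.log (xc P).den ≤ MordellWeil.hgt P := by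
  rcases P with _ | ⟨x, y, h⟩
  · refine le_trans (le_of_eq ?_) (hgt_nonneg _)
    rw [show xc (.zero : E.toAffine.Point) = 0 from rfl]
    simp
  · unfold MordellWeil.hgt
    rw [xc_some, Affine.Point.xRep_some, ← logHeight₁_eq_logHeight, Rat.logHeight₁_eq_log_max]
    exact Real.log_le_log (by exact_mod_cast x.den_pos) (by exact_mod_cast le_max_right _ _)

variable [E.IsElliptic]

/-- The height of a multiple is at most quadratic. -/
theorem exists_hgt_bound : ∃ C : ℝ, 0 ≤ C ∧
    (∀ P Q : E.toAffine.Point, MordellWeil.hgt (P + Q) ≤ 2 * MordellWeil.hgt P + 2 * MordellWeil.hgt Q + C) ∧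
    ∀ (n : ℤ) (P : E.toAffine.Point), MordellWeil.hgt (n • P) ≤ (n : ℝ) ^ 2 * (MordellWeil.hgt P + C) := by
  obtain ⟨C₀, hC₀⟩ := exists_parallelogram (E := E)
  set C := |C₀|
  have hpar : ∀ P Q : E.toAffine.Point,
      MordellWeil.hgt (P + Q) + MordellWeil.hgt (P - Q) ≤ 2 * MordellWeil.hgt P + 2 * MordellWeil.hgt Q + C := fun P Q => by
    have := (abs_le.mp (hC₀ P Q)).2
    linarith [le_abs_self C₀]
  have hnat : ∀ n : ℕ, 1 ≤ n → ∀ P : E.toAffine.Point,
      MordellWeil.hgt (n • P) ≤ (n : ℝ) ^ 2 * MordellWeil.hgt P + ((n : ℝ) ^ 2 - 1) * C / 2 := by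
    intro n
    induction n using Nat.strong_induction_on with
    | _ n ih =>
    intro hn P
    rcases eq_or_lt_of_le hn with h1 | h2
    · subst h1; simp
    obtain ⟨m, rfl | rfl⟩ : ∃ m, n = 2 * m ∨ n = 2 * m + 1 := ⟨n / 2, by omega⟩
    · have h := hpar (m • P) (m • P)
      rw [sub_self, hgt_zero, ← two_nsmul, ← mul_nsmul'] at h
      have hi := ih m (by omega) (by omega) P
      have : 0 ≤ C := abs_nonneg _
      push_cast
      nlinarith
    · have h := hpar ((m + 1) • P) (m • P)
      rw [← add_nsmul, show m + 1 + m = 2 * m + 1 by omega,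
        show (m + 1) • P - m • P = P by rw [succ_nsmul]; abel] at h
      have hi := ih m (by omega) (by omega) P
      have hi' := ih (m + 1) (by omega) (by omega) P
      push_cast at hi' ⊢
      nlinarith
  refine ⟨C, abs_nonneg _, fun P Q => ?_, fun n P => ?_⟩
  · linarith [hpar P Q, hgt_nonneg (P - Q)]
  have hkey : ∀ m : ℕ, MordellWeil.hgt (m • P) ≤ (m : ℝ) ^ 2 * (MordellWeil.hgt P + C) := fun m => by
    rcases Nat.eq_zero_or_pos m with rfl | hm
    · simp [hgt_zero]
    · have := hnat m hm P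
      have h1 : (1 : ℝ) ≤ (m : ℝ) ^ 2 := one_le_pow₀ (by exact_mod_cast hm)
      nlinarith [abs_nonneg C₀]
  obtain ⟨m, rfl | rfl⟩ := n.eq_nat_or_neg
  · rw [natCast_zsmul, Int.cast_natCast]; exact hkey m
  · rw [neg_zsmul, hgt_neg, natCast_zsmul, Int.cast_neg, Int.cast_natCast, neg_sq]; exact hkey m

/-- **The height of a combination** with coefficients at most `N` is `O(N ^ 2)`. -/
theorem exists_hgt_sum_bound {r : ℕ} (P : Fin r → E.toAffine.Point) :
    ∃ K : ℝ, 0 ≤ K ∧ ∀ (N : ℕ) (n : Fin r → ℤ), 1 ≤ N → (∀ i, |n i| ≤ N) →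
      MordellWeil.hgt (∑ i, n i • P i) ≤ K * (N : ℝ) ^ 2 := by
  obtain ⟨C, hC, hadd, hmul⟩ := exists_hgt_bound (E := E)
  have hA : ∀ i, 0 ≤ MordellWeil.hgt (P i) + C := fun i => add_nonneg (hgt_nonneg _) hC
  refine ⟨3 ^ r * ((∑ i, (MordellWeil.hgt (P i) + C)) + C),
    mul_nonneg (by positivity) (add_nonneg (Finset.sum_nonneg fun i _ => hA i) hC),
    fun N n hN hn => ?_⟩
  have hsum : ∀ s : Finset (Fin r), MordellWeil.hgt (∑ i ∈ s, n i • P i) ≤
      3 ^ s.card * ((∑ i ∈ s, MordellWeil.hgt (n i • P i)) + C) := fun s => by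
    induction s using Finset.induction with
    | empty => simpa [hgt_zero] using hC
    | @insert a s ha ih =>
      rw [Finset.sum_insert ha, Finset.sum_insert ha, Finset.card_insert_of_notMem ha, pow_succ]
      refine (hadd _ _).trans ?_
      have h3 : (1 : ℝ) ≤ 3 ^ s.card := one_le_pow₀ (by norm_num)
      have hs : 0 ≤ ∑ i ∈ s, MordellWeil.hgt (n i • P i) := Finset.sum_nonneg fun i _ => hgt_nonneg _
      nlinarith [hgt_nonneg (n a • P a)]
  refine (hsum Finset.univ).trans ?_
  rw [Finset.card_univ, Fintype.card_fin, mul_assoc]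
  refine mul_le_mul_of_nonneg_left ?_ (by positivity)
  have hN1 : (1 : ℝ) ≤ (N : ℝ) ^ 2 := one_le_pow₀ (by exact_mod_cast hN)
  rw [add_mul, Finset.sum_mul]
  refine add_le_add (Finset.sum_le_sum fun i _ => (hmul (n i) (P i)).trans ?_) (le_mul_of_one_le_right hC hN1)
  rw [mul_comm]
  refine mul_le_mul_of_nonneg_left (sq_le_sq.mpr ?_) (hA i)
  rw [Nat.abs_cast, ← Int.cast_abs]
  exact_mod_cast hn i

end height

variable {W : WeierstrassCurve ℤ} [(ratCurve W).IsElliptic] {r : ℕ} {x y : Fin r → ℚ}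
  {q : ℕ} [hq : Fact q.Prime]

/-- The subgroup generated by the points modulo `q`. -/
def modSubgroup (W : WeierstrassCurve ℤ) (q : ℕ) [Fact q.Prime] (x y : Fin r → ℚ)
    (h : ∀ i, (W.map (Int.castRingHom (ZMod q))).toAffine.Nonsingular (x i : ZMod q) (y i)) :
    AddSubgroup (W.map (Int.castRingHom (ZMod q))).toAffine.Point :=
  AddSubgroup.closure (Set.range fun i => Affine.Point.some _ _ (h i))

/-- **A small subgroup gives a small combination reducing to zero.** -/
theorem exists_small_combination (hgood : W.IsGoodPrimeFor q)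
    (hns : ∀ i, (ratCurve W).toAffine.Nonsingular (x i) (y i))
    (hP : ∀ n : Fin r → ℤ, ∑ i, n i • Affine.Point.some (x i) (y i) (hns i) = 0 → n = 0)
    (hden : ∀ i, ¬ q ∣ (x i).den ∧ ¬ q ∣ (y i).den)
    (h : ∀ i, (W.map (Int.castRingHom (ZMod q))).toAffine.Nonsingular (x i : ZMod q) (y i))
    {N : ℕ} (hN : Nat.card (modSubgroup W q x y h) < (N + 1) ^ r) :
    ∃ n : Fin r → ℤ, n ≠ 0 ∧ (∀ i, |n i| ≤ N) ∧
      q ∣ (xc (∑ i, n i • Affine.Point.some (x i) (y i) (hns i))).den := by
  obtain ⟨A, hA⟩ := FA.Deform.exists_liesOverPrime hq.out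
  haveI : CharP (Res A) q := residueField_charP A hq.out hA
  haveI := redCurve_isElliptic (intCoeff_ratCurve W A) (valuation_Δ_ratCurve W hq.out hA hgood)
  set g := (redHom (intCoeff_ratCurve W A) (valuation_Δ_ratCurve W hq.out hA hgood)).comp (up W)
    with hg
  set m := mapHom (ZMod.castHom (dvd_refl q) (Res A)) (map_castHom W (A := A)) with hm
  have hgi : ∀ i, g (Affine.Point.some (x i) (y i) (hns i)) =
      m (Affine.Point.some _ _ (h i)) := fun i => by
    obtain ⟨h', e⟩ := redHom_up W hA hgood (hns i) (hden i).1 (hden i).2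
    exact e
  haveI : Fintype (modSubgroup W q x y h) := Fintype.ofFinite _
  let F : (Fin r → Fin (N + 1)) → modSubgroup W q x y h := fun k =>
    ∑ i, ((k i : ℕ) : ℤ) • (⟨_, AddSubgroup.subset_closure ⟨i, rfl⟩⟩ : modSubgroup W q x y h)
  obtain ⟨k, k', hne, hkk⟩ := Fintype.exists_ne_map_eq_of_card_lt F (by
    rw [← Nat.card_eq_fintype_card]
    simpa using hN)
  set n : Fin r → ℤ := fun i => ((k i : ℕ) : ℤ) - ((k' i : ℕ) : ℤ)
  have hn : n ≠ 0 := fun e => hne (funext fun i => Fin.ext (by
    have := congrFun e i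
    simp only [n, Pi.zero_apply] at this
    omega))
  refine ⟨n, hn, fun i => abs_le.mpr ⟨?_, ?_⟩, ?_⟩
  · have := (k' i).is_lt; simp only [n]; omega
  · have := (k i).is_lt; simp only [n]; omega
  set D := ∑ i, n i • Affine.Point.some (x i) (y i) (hns i) with hD
  have hgD : g D = 0 := by
    have e := congrArg (fun S : modSubgroup W q x y h => m S.1) hkk
    simp only [F, AddSubgroup.val_finsetSum, AddSubgroup.coe_zsmul, map_sum, map_zsmul, ← hgi] at e
    simp only [hD, n, sub_zsmul, ← sub_eq_add_neg, map_sum, map_zsmul, map_sub,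
      Finset.sum_sub_distrib]
    rw [e, sub_self]
  have hD0 : D ≠ 0 := fun e => hn (hP n e)
  clear_value D
  rcases D with _ | ⟨a, b, hab⟩
  · exact absurd rfl hD0
  rw [xc_some]
  by_contra hq'
  obtain ⟨ha, -⟩ := ratCast_mem_and_resOf hA hq'
  obtain ⟨k₁, e₁⟩ := redFun_of_mem (intCoeff_ratCurve W A)
    (nonsingular_mapHom (algebraMap ℚ Qb) rfl hab : ((ratCurve W).toAffine⁄Qb).Nonsingular _ _) ha
  rw [hg, AddMonoidHom.comp_apply, up, mapHom_some, redHom_apply] at hgD
  exact Affine.Point.some_ne_zero _ (e₁.symm.trans hgD)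

/-- **The primes with a small subgroup** lie in sets with `O(2 ^ k / k ^ 2)` members in each dyadic
interval. -/
theorem exists_candidates_subgroup (W : WeierstrassCurve ℤ) [(ratCurve W).IsElliptic] (hr : 1 ≤ r)
    (hns : ∀ i, (ratCurve W).toAffine.Nonsingular (x i) (y i))
    (hP : ∀ n : Fin r → ℤ, ∑ i, n i • Affine.Point.some (x i) (y i) (hns i) = 0 → n = 0) :
    ∃ (c : ℕ → Finset ℕ) (K : ℝ), 0 ≤ K ∧
      (∀ k : ℕ, 1 ≤ k → ((c k).card : ℝ) ≤ K * 2 ^ k / (k : ℝ) ^ 2) ∧
      ∀ (q : ℕ) [Fact q.Prime], 4 ≤ q → W.IsGoodPrimeFor q →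
        (∀ i, ¬ q ∣ (x i).den ∧ ¬ q ∣ (y i).den) →
        ∀ h : ∀ i, (W.map (Int.castRingHom (ZMod q))).toAffine.Nonsingular (x i : ZMod q) (y i),
          (Nat.card (modSubgroup W q x y h) : ℝ) <
              (q : ℝ) ^ ((r : ℝ) / (r + 2)) / Real.log q →
            q ∈ c (Nat.log 2 q) := by
  set P : Fin r → (ratCurve W).toAffine.Point := fun i => Affine.Point.some (x i) (y i) (hns i)
  obtain ⟨K₀, hK₀, hH⟩ := exists_hgt_sum_bound P
  set p : ℝ := 1 / ((r : ℝ) + 2)
  set N : ℕ → ℕ := fun k => ⌈4 * ((2 : ℝ) ^ k / k) ^ p⌉₊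
  set box : ℕ → Finset (Fin r → ℤ) := fun k =>
    (Fintype.piFinset fun _ => Finset.Icc (-(N k : ℤ)) (N k)).erase 0
  set M : ℕ → ℕ := fun k => ∏ n ∈ box k, (xc (∑ i, n i • P i)).den
  have hM0 : ∀ k, M k ≠ 0 := fun k => Finset.prod_ne_zero_iff.mpr fun n _ => Rat.den_nz _
  refine ⟨fun k => (M k).primeFactors.filter fun q => 2 ^ k ≤ q,
    3 ^ r * K₀ * 5 ^ (r + 2) / Real.log 2, by positivity, fun k hk => ?_,
    fun q _ h4 hgood hden h hlt => ?_⟩
  · have hk0 : (0 : ℝ) < k := by exact_mod_cast hk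
    set a := ((2 : ℝ) ^ k / k) ^ p
    have hb : (1 : ℝ) ≤ 2 ^ k / k := by
      rw [one_le_div hk0]
      exact_mod_cast (Nat.lt_two_pow_self).le
    have ha : 1 ≤ a := Real.one_le_rpow hb (by positivity)
    have hN : (N k : ℝ) ≤ 5 * a := by
      have := Nat.ceil_lt_add_one (show 0 ≤ 4 * a by positivity)
      linarith
    have hN1 : 1 ≤ N k := Nat.one_le_iff_ne_zero.mpr (Nat.ceil_pos.mpr (by positivity)).ne'
    have hlogM : Real.log (M k : ℝ) ≤ 3 ^ r * K₀ * 5 ^ (r + 2) * (2 ^ k / k) := by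
      rw [Nat.cast_prod, Real.log_prod fun n _ => Nat.cast_ne_zero.mpr (Rat.den_nz _)]
      refine (Finset.sum_le_sum fun n hn => (log_den_le_hgt _).trans (hH (N k) n hN1 fun i => ?_)).trans ?_
      · have := Finset.mem_Icc.mp (Fintype.mem_piFinset.mp (Finset.mem_of_mem_erase hn) i)
        exact abs_le.mpr this
      rw [Finset.sum_const, nsmul_eq_mul]
      have hcard : ((box k).card : ℝ) ≤ (3 * (N k : ℝ)) ^ r := by
        have e : (box k).card ≤ (2 * N k + 1) ^ r := by
          refine (Finset.card_erase_le).trans (le_of_eq ?_)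
          rw [Fintype.card_piFinset, Finset.prod_const, Int.card_Icc, Finset.card_univ,
            Fintype.card_fin]
          congr 1
          omega
        calc ((box k).card : ℝ) ≤ (((2 * N k + 1) ^ r : ℕ) : ℝ) := by exact_mod_cast e
          _ ≤ _ := by
            push_cast
            refine pow_le_pow_left₀ (by positivity) ?_ r
            have : (1 : ℝ) ≤ N k := by exact_mod_cast hN1
            linarith
      calc ((box k).card : ℝ) * (K₀ * (N k : ℝ) ^ 2) ≤ (3 * (N k : ℝ)) ^ r * (K₀ * (N k : ℝ) ^ 2) :=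
            mul_le_mul_of_nonneg_right hcard (by positivity)
        _ = 3 ^ r * K₀ * (N k : ℝ) ^ (r + 2) := by rw [mul_pow, pow_add]; ring
        _ ≤ 3 ^ r * K₀ * (5 * a) ^ (r + 2) := mul_le_mul_of_nonneg_left
            (pow_le_pow_left₀ (Nat.cast_nonneg _) hN _) (by positivity)
        _ = _ := by
          rw [mul_pow, ← Real.rpow_natCast a (r + 2), ← Real.rpow_mul (by positivity)]
          push_cast
          rw [show p * ((r : ℝ) + 2) = 1 from one_div_mul_cancel (by positivity), Real.rpow_one]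
          ring
    set j := ((M k).primeFactors.filter fun q => 2 ^ k ≤ q).card
    have h1 : ((2 : ℝ) ^ k) ^ j ≤ (M k : ℝ) := by exact_mod_cast card_primeFactors_large (hM0 k)
    have h2 := (Real.log_le_log (by positivity) h1).trans hlogM
    rw [← pow_mul, Real.log_pow] at h2
    push_cast at h2
    have hl2 : (0 : ℝ) < Real.log 2 := Real.log_pos one_lt_two
    rw [div_mul_eq_mul_div, div_div, le_div_iff₀ (by positivity)]
    rw [mul_div_assoc', le_div_iff₀ hk0] at h2
    linarith
  · set k := Nat.log 2 q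
    have hk : 1 ≤ k := Nat.le_log_of_pow_le one_lt_two (by omega)
    have hq1 : 2 ^ k ≤ q := Nat.pow_log_le_self 2 (by omega)
    have hk0 : (0 : ℝ) < k := by exact_mod_cast hk
    have hq2 : (q : ℝ) ≤ 2 * 2 ^ k := by
      have := Nat.lt_pow_succ_log_self one_lt_two q
      rw [pow_succ, mul_comm] at this
      exact_mod_cast this.le
    have hl : (k : ℝ) / 2 ≤ Real.log q := by
      refine le_trans ?_ (Real.log_le_log (by positivity)
        (show (2 : ℝ) ^ k ≤ q by exact_mod_cast hq1))
      rw [Real.log_pow, div_eq_mul_inv]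
      exact mul_le_mul_of_nonneg_left (by linarith [Real.log_two_gt_d9]) (Nat.cast_nonneg _)
    have hcard : (Nat.card (modSubgroup W q x y h) : ℝ) < ((N k + 1) ^ r : ℕ) := by
      refine hlt.trans_le ?_
      set s := (r : ℝ) / (r + 2)
      have hs : 0 ≤ s := by positivity
      have hs1 : s ≤ 1 := (div_le_one (by positivity)).mpr (by linarith)
      have ht : (q : ℝ) ^ s ≤ 2 * ((2 : ℝ) ^ k) ^ s := by
        refine (Real.rpow_le_rpow (Nat.cast_nonneg _) hq2 hs).trans ?_
        rw [Real.mul_rpow two_pos.le (by positivity)]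
        exact mul_le_mul_of_nonneg_right (by
          conv_rhs => rw [← Real.rpow_one 2]
          exact Real.rpow_le_rpow_of_exponent_le one_le_two hs1) (by positivity)
      refine (div_le_div₀ (by positivity) ht (by positivity) hl).trans ?_
      have hks : (k : ℝ) ^ s ≤ k := by
        conv_rhs => rw [← Real.rpow_one (k : ℝ)]
        exact Real.rpow_le_rpow_of_exponent_le (by exact_mod_cast hk) hs1
      calc 2 * ((2 : ℝ) ^ k) ^ s / ((k : ℝ) / 2) = 4 * (((2 : ℝ) ^ k) ^ s / k) := by ring
        _ ≤ 4 ^ r * (((2 : ℝ) ^ k) ^ s / (k : ℝ) ^ s) := by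
          refine mul_le_mul (le_self_pow₀ (by norm_num) (by omega)) ?_ (by positivity)
            (by positivity)
          gcongr
        _ = (4 * ((2 : ℝ) ^ k / k) ^ p) ^ r := by
          rw [mul_pow, ← Real.rpow_natCast _ r, ← Real.rpow_natCast (((2 : ℝ) ^ k / k) ^ p) r,
            ← Real.rpow_mul (by positivity), Real.div_rpow (by positivity) (by positivity),
            show p * r = s by simp [p, s]; ring]
        _ ≤ ((N k : ℝ) + 1) ^ r := pow_le_pow_left₀ (by positivity)
            ((Nat.le_ceil _).trans (by linarith)) r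
        _ = _ := by push_cast; rfl
    obtain ⟨n, hn, hbox, hdvd⟩ := exists_small_combination hgood hns hP hden h
      (N := N k) (by exact_mod_cast hcard)
    refine Finset.mem_filter.mpr ⟨Nat.mem_primeFactors.mpr ⟨Fact.out, ?_, hM0 k⟩, hq1⟩
    exact hdvd.trans (Finset.dvd_prod_of_mem (fun n => (xc (∑ i, n i • P i)).den)
      (Finset.mem_erase.mpr ⟨hn, Fintype.mem_piFinset.mpr fun i =>
        Finset.mem_Icc.mpr (abs_le.mp (hbox i))⟩))

end FA.ReducedGroups

end
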