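import Fermat.Agent.ReducedGroups.Structure

/-!
# The levels with full torsion over `𝔽_q`, and trivial Frobenius
-/

set_option autoImplicit false
set_option linter.style.haveILetI false
set_option linter.unusedSectionVars false

noncomputable section

open WeierstrassCurve FA.Frob FA.EC FA.PointDiv
open FA.RT.Tate (Pts)
open scoped WeierstrassCurve.Affine Classical

local notation "Qb" => AlgebraicClosure ℚ
local notation "GQ" => AlgebraicClosure ℚ ≃ₐ[ℚ] AlgebraicClosure ℚ

namespace FA.ReducedGroups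

/-- In a cyclic group the elements killed by `n` number `gcd(#G, n)`. -/
theorem natCard_nsmul_eq_zero_cyclic (G : Type*) [AddCommGroup G] [IsAddCyclic G] [Finite G]
    (n : ℕ) : Nat.card {x : G // n • x = 0} = (Nat.card G).gcd n := by
  rw [← IsAddCyclic.card_nsmulAddMonoidHom_ker G n]
  rfl

/-- In `ℤ/d × ℤ/e`, `d ∣ e`, all `n ^ 2` elements killed by `n` occur exactly when `n ∣ d`. -/
theorem natCard_nsmul_eq_sq_iff {G : Type*} [AddCommGroup G] {d e n : ℕ} [NeZero d] [NeZero e]
    (φ : G ≃+ ZMod d × ZMod e) (hde : d ∣ e) (hn : 0 < n) :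
    Nat.card {x : G // n • x = 0} = n ^ 2 ↔ n ∣ d := by
  have h : Nat.card {x : G // n • x = 0} =
      Nat.card ({x : ZMod d // n • x = 0} × {y : ZMod e // n • y = 0}) :=
    Nat.card_congr ((φ.toEquiv.subtypeEquiv (q := fun z => n • z = 0) fun x => by
      rw [AddEquiv.toEquiv_eq_coe, EquivLike.coe_coe, ← map_nsmul, φ.map_eq_zero_iff]).trans
      { toFun := fun z => (⟨z.1.1, congrArg Prod.fst z.2⟩, ⟨z.1.2, congrArg Prod.snd z.2⟩)
        invFun := fun z => ⟨(z.1.1, z.2.1), Prod.ext z.1.2 z.2.2⟩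
        left_inv := fun z => rfl
        right_inv := fun z => rfl })
  rw [h, Nat.card_prod, natCard_nsmul_eq_zero_cyclic, natCard_nsmul_eq_zero_cyclic, Nat.card_zmod,
    Nat.card_zmod]
  have h1 : d.gcd n ≤ n := Nat.gcd_le_right _ hn
  have h2 : e.gcd n ≤ n := Nat.gcd_le_right _ hn
  constructor
  · intro heq
    have h3 : d.gcd n = n := by
      by_contra hne
      have := Nat.mul_le_mul_left (d.gcd n) h2
      have hlt : d.gcd n * n < n * n := Nat.mul_lt_mul_of_pos_right (lt_of_le_of_ne h1 hne) hn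
      rw [sq] at heq
      omega
    exact h3 ▸ Nat.gcd_dvd_left d n
  · intro hnd
    rw [Nat.gcd_eq_right hnd, Nat.gcd_eq_right (hnd.trans hde), sq]

/-- **Frobenius is trivial on `E[n]` exactly when `n` divides `#E(𝔽_q) / exponent`.** -/
theorem frobenius_trivial_iff (W : WeierstrassCurve ℤ) [(ratCurve W).IsElliptic] {q : ℕ}
    [hq : Fact q.Prime] (h3 : 3 ≤ q) (hgood : W.IsGoodPrimeFor q) {n : ℕ} (hqn : ¬ q ∣ n)
    {A : ValuationSubring Qb} (hA : A.LiesOverPrime q) {σ : GQ} (hσ : A.IsFrobeniusAt σ q) :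
    (∀ x : Pts W, n • x = 0 → σ • x = x) ↔
      n ∣ Nat.card (W.map (Int.castRingHom (ZMod q))).toAffine.Point /
        AddMonoid.exponent (W.map (Int.castRingHom (ZMod q))).toAffine.Point := by
  have hn : 0 < n := Nat.pos_of_ne_zero fun e => hqn (e ▸ dvd_zero q)
  haveI : NeZero n := ⟨hn.ne'⟩
  haveI := reductionMod_isElliptic W hgood
  haveI : (W.map (Int.castRingHom (ZMod q))).IsElliptic := reductionMod_isElliptic W hgood
  obtain ⟨d, hde, hcard, -, -, ⟨φ⟩⟩ := exists_equiv_zmod h3 (W.map (Int.castRingHom (ZMod q)))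
  have he0 : 0 < AddMonoid.exponent (W.map (Int.castRingHom (ZMod q))).toAffine.Point :=
    Nat.pos_of_ne_zero AddMonoid.exponent_ne_zero_of_finite
  haveI : NeZero (AddMonoid.exponent (W.map (Int.castRingHom (ZMod q))).toAffine.Point) :=
    ⟨he0.ne'⟩
  haveI : NeZero d := ⟨fun e => by rw [e, zero_mul] at hcard; exact Nat.card_pos.ne hcard⟩
  rw [← hcard, Nat.mul_div_cancel _ he0, ← natCard_nsmul_eq_sq_iff φ hde hn,
    ← FA.TraceDist.repLevel_eq_one_iff (W := W) (N := n) σ]
  have hiff := fullAt_iff W (N := n) hq.out hgood hqn hA hσ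
  constructor
  · intro h
    obtain ⟨_, h'⟩ := hiff.mpr (Units.ext h)
    exact h'
  · intro h
    exact congrArg Units.val (hiff.mp ⟨hq, h⟩)

end FA.ReducedGroups

end
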