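import Fermat.Agent.Root.SummaryPointDivisibility
import Fermat.Agent.TraceDistribution.Basic
import Fermat.Agent.PrimeDivisors.Product

/-!
# The `N`-torsion of a reduced curve and Frobenius

At a good prime `q` not dividing `N` reduction is bijective on `N`-torsion, so the points of
`E(𝔽_q)` killed by `N` correspond to the fixed points of a Frobenius element: all `N ^ 2` occur
exactly when Frobenius is trivial on the torsion, and Chebotarev gives the densities.
-/

set_option autoImplicit false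
set_option linter.style.haveILetI false
set_option linter.unusedSectionVars false

noncomputable section

open WeierstrassCurve NumberField IsDedekindDomain FA.Frob FA.EC FA.PointDiv
open FA.RT.Tate (Pts)
open scoped WeierstrassCurve.Affine Classical Pointwise

local notation "Qb" => AlgebraicClosure ℚ
local notation "GQ" => AlgebraicClosure ℚ ≃ₐ[ℚ] AlgebraicClosure ℚ

namespace FA.ReducedGroups

variable (W : WeierstrassCurve ℤ)

/-- The equation modulo `q` has `N ^ 2` points killed by `N`. -/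
def FullAt (N q : ℕ) : Prop :=
  ∃ _ : Fact q.Prime,
    Nat.card {P : (W.map (Int.castRingHom (ZMod q))).toAffine.Point // N • P = 0} = N ^ 2

variable [(ratCurve W).IsElliptic]

/-- **The torsion of the reduced curve is what Frobenius fixes.** -/
theorem natCard_torsion_reduction {N q : ℕ} [hq : Fact q.Prime] (hgood : W.IsGoodPrimeFor q)
    (hqN : ¬ q ∣ N) {A : ValuationSubring Qb} (hA : A.LiesOverPrime q) {σ : GQ}
    (hσ : A.IsFrobeniusAt σ q) :
    Nat.card {R : (W.map (Int.castRingHom (ZMod q))).toAffine.Point // N • R = 0} =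
      Nat.card {Q : Pts W // N • Q = 0 ∧ σ • Q = Q} := by
  haveI : CharP (Res A) q := residueField_charP A hq.out hA
  haveI : IsAlgClosed (Res A) := residueField_isAlgClosed A
  haveI := reductionMod_isElliptic W hgood
  haveI := redCurve_isElliptic (intCoeff_ratCurve W A) (valuation_Δ_ratCurve W hq.out hA hgood)
  set r := redHom (intCoeff_ratCurve W A) (valuation_Δ_ratCurve W hq.out hA hgood) with hr
  set f : ZMod q →+* Res A := ZMod.castHom (dvd_refl q) (Res A)
  set m := mapHom f (map_castHom W (A := A)) with hm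
  have hN0 : N ≠ 0 := fun h => hqN (h ▸ dvd_zero q)
  have hinj : ∀ M : ℕ, ¬ q ∣ M → ∀ Q : Pts W, M • Q = 0 → r Q = 0 → Q = 0 := by
    intro M
    induction M using Nat.recOnMul with
    | zero => exact fun h => absurd (dvd_zero q) h
    | one => intro _ Q h _; rwa [one_nsmul] at h
    | prime p hp =>
      intro hqp Q h hrQ
      have hpv : A.valuation (p : Qb) = 1 := by
        have h1 : A.valuation ((p : ℤ) : Qb) = 1 := valuation_intCast_of_liesOverPrime hq.out hA
          fun e => hqp (Int.natCast_dvd_natCast.mp e)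
        rwa [Int.cast_natCast] at h1
      exact redHom_injOn (intCoeff_ratCurve W A) (valuation_Δ_ratCurve W hq.out hA hgood) hp hpv
        h hrQ
    | mul a b iha ihb =>
      intro hd Q h hrQ
      refine ihb (fun e => hd (e.mul_left a)) Q
        (iha (fun e => hd (e.mul_right b)) _ (by rw [← mul_nsmul', h]) ?_) hrQ
      rw [map_nsmul, hrQ, nsmul_zero]
  have hinjN : ∀ Q Q' : Pts W, N • Q = 0 → N • Q' = 0 → r Q = r Q' → Q = Q' :=
    fun Q Q' h h' e => sub_eq_zero.mp (hinj N hqN _ (by rw [nsmul_sub, h, h', sub_self])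
      (by rw [map_sub, e, sub_self]))
  have hNk : (N : Res A) ≠ 0 := fun e => hqN ((CharP.cast_eq_zero_iff (Res A) q N).mp e)
  -- reduction is onto the torsion
  let Tk := {S : (redCurve A ((ratCurve W)⁄Qb).toAffine
    (intCoeff_ratCurve W A)).toAffine.Point // N • S = 0}
  let rT : {Q : Pts W // N • Q = 0} → Tk := fun Q =>
    ⟨r Q.1, by rw [← map_nsmul, Q.2, map_zero]⟩
  haveI : Finite Tk := Nat.finite_of_card_ne_zero (by
    rw [natCard_nsmul_eq_zero _ hNk]; exact pow_ne_zero 2 hN0)
  have hsurj : Function.Surjective rT := ((Nat.bijective_iff_injective_and_card rT).mpr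
    ⟨fun Q Q' e => Subtype.ext (hinjN _ _ Q.2 Q'.2 (congrArg Subtype.val e)), by
      rw [natCard_nsmul_eq_zero _ (show (N : Qb) ≠ 0 from Nat.cast_ne_zero.mpr hN0),
        natCard_nsmul_eq_zero _ hNk]⟩).2
  have hmem : ∀ z, σ z ∈ A ↔ z ∈ A := fun z => by
    conv_lhs => rw [← show σ • A = A from hσ.mem_decompositionSubgroup]
    exact ValuationSubring.smul_mem_pointwise_smul_iff (g := σ) (S := A) (x := z)
  have hres : ∀ z, z ∈ A → resOf A (σ z) = resOf A z ^ q := by
    intro z hz
    have e := hσ.smul_residue_eq (IsLocalRing.residue A ⟨z, hz⟩)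
    rw [← IsLocalRing.ResidueField.residue_smul] at e
    rw [resOf, resOf, dif_pos hz, dif_pos ((hmem z).mpr hz), ← e]
    rfl
  have hrange : ∀ z : Res A, z ^ q = z → ∃ c, f c = z := fun z hz => by
    have hb : z ∈ (⊥ : Subfield (Res A)) := (Subfield.mem_bot_iff_pow_eq_self _ q).mpr hz
    rw [← ZMod.fieldRange_castHom_eq_bot q] at hb
    exact hb
  -- a torsion point is fixed exactly when its reduction is rational
  have hkey : ∀ Q : Pts W, N • Q = 0 → (σ • Q = Q ↔ ∃ R, m R = r Q) := by
    intro Q hQ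
    have hσQ : N • (σ • Q) = 0 := by
      rw [← smul_nat, hQ]
      exact FA.Local.gal_smul_zero (ratCurve W) σ
    constructor
    · intro hfix
      rcases Q with _ | ⟨a, b, hab⟩
      · exact ⟨0, by rw [map_zero]; exact (map_zero r).symm⟩
      by_cases ha : a ∈ A
      · obtain ⟨k', e'⟩ := FA.Local.smul_some (σ := σ) (ratCurve W) hab
        have hab' := e'.symm.trans hfix
        simp only [Affine.Point.some.injEq] at hab'
        have hb := y_mem (intCoeff_ratCurve W A) hab.1 ha
        obtain ⟨k₁, e₁⟩ := redFun_of_mem (intCoeff_ratCurve W A) hab ha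
        obtain ⟨c, hc⟩ := hrange (resOf A a)
          ((hres a ha).symm.trans (congrArg (resOf A) hab'.1))
        obtain ⟨d, hd⟩ := hrange (resOf A b)
          ((hres b hb).symm.trans (congrArg (resOf A) hab'.2))
        have hcd : (W.map (Int.castRingHom (ZMod q))).toAffine.Nonsingular c d := by
          refine ((W.map (Int.castRingHom (ZMod q))).toAffine.map_nonsingular f.injective _ _).mp ?_
          rw [hc, hd]
          exact (congrArg (fun V : WeierstrassCurve (Res A) => V.toAffine.Nonsingular _ _)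
            (map_castHom W (A := A))).mpr k₁
        refine ⟨.some c d hcd, ?_⟩
        rw [hm, mapHom_some, hr, redHom_apply]
        refine Eq.trans ?_ e₁.symm
        simp only [Affine.Point.some.injEq]
        exact ⟨hc, hd⟩
      · refine ⟨0, ?_⟩
        rw [map_zero, hr, redHom_apply, redFun, dif_neg ha]
    · rintro ⟨R, hR⟩
      refine hinjN _ _ hσQ hQ ?_
      rcases Q with _ | ⟨a, b, hab⟩
      · exact congrArg r (FA.Local.gal_smul_zero (ratCurve W) σ)
      obtain ⟨k', e'⟩ := FA.Local.smul_some (σ := σ) (ratCurve W) hab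
      rw [e']
      rw [hr, redHom_apply] at hR ⊢
      rw [redHom_apply]
      by_cases ha : a ∈ A
      · have hb := y_mem (intCoeff_ratCurve W A) hab.1 ha
        obtain ⟨k₁, e₁⟩ := redFun_of_mem (intCoeff_ratCurve W A) hab ha
        obtain ⟨k₂, e₂⟩ := redFun_of_mem (intCoeff_ratCurve W A) k' ((hmem a).mpr ha)
        rw [e₁] at hR
        rw [e₁, e₂]
        rcases R with _ | ⟨c, d, hcd⟩
        · exact absurd hR.symm (Affine.Point.some_ne_zero _)
        rw [hm, mapHom_some] at hR
        simp only [Affine.Point.some.injEq] at hR ⊢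
        rw [hres a ha, hres b hb, ← hR.1, ← hR.2, ← map_pow, ← map_pow, ZMod.pow_card,
          ZMod.pow_card]
        exact ⟨rfl, rfl⟩
      · rw [redFun, redFun, dif_neg ha, dif_neg fun e => ha ((hmem a).mp e)]
  choose g hg using fun Q : {Q : Pts W // N • Q = 0 ∧ σ • Q = Q} => (hkey Q.1 Q.2.1).mp Q.2.2
  refine (Nat.card_eq_of_bijective (fun Q => ⟨g Q, mapHom_injective f (map_castHom W (A := A)) (by
    rw [map_nsmul, map_zero, ← hm, hg, ← map_nsmul, Q.2.1, map_zero])⟩) ⟨?_, ?_⟩).symm
  · intro Q Q' e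
    refine Subtype.ext (hinjN _ _ Q.2.1 Q'.2.1 ?_)
    rw [← hg Q, ← hg Q']
    exact congrArg m (congrArg Subtype.val e)
  · intro R
    obtain ⟨Q, hQ⟩ := hsurj ⟨m R.1, by rw [← map_nsmul, R.2, map_zero]⟩
    have hQ' : r Q.1 = m R.1 := congrArg Subtype.val hQ
    refine ⟨⟨Q.1, Q.2, (hkey Q.1 Q.2).mpr ⟨R.1, hQ'.symm⟩⟩, Subtype.ext ?_⟩
    exact mapHom_injective f (map_castHom W (A := A)) ((hg _).trans hQ')

/-- **Full torsion modulo `q` is Frobenius trivial on the torsion.** -/
theorem fullAt_iff {N q : ℕ} [NeZero N] (hq : q.Prime) (hgood : W.IsGoodPrimeFor q)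
    (hqN : ¬ q ∣ N) {A : ValuationSubring Qb} (hA : A.LiesOverPrime q) {σ : GQ}
    (hσ : A.IsFrobeniusAt σ q) :
    FullAt W N q ↔ FA.TraceDist.glLevel W N σ = 1 := by
  haveI := Fact.mk hq
  have hc : Nat.card {Q : Pts W // N • Q = 0} = N ^ 2 :=
    natCard_nsmul_eq_zero _ (Nat.cast_ne_zero.mpr (NeZero.ne N))
  haveI : Finite {Q : Pts W // N • Q = 0} :=
    Nat.finite_of_card_ne_zero (by rw [hc]; exact pow_ne_zero 2 (NeZero.ne N))
  rw [← Units.val_inj]
  show _ ↔ FA.TraceDist.repLevel W N σ = 1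
  rw [FA.TraceDist.repLevel_eq_one_iff]
  constructor
  · rintro ⟨_, h⟩ x hx
    rw [natCard_torsion_reduction W hgood hqN hA hσ, ← hc] at h
    obtain ⟨Q, hQ⟩ := ((Nat.bijective_iff_injective_and_card
      (fun Q : {Q : Pts W // N • Q = 0 ∧ σ • Q = Q} =>
        (⟨Q.1, Q.2.1⟩ : {Q : Pts W // N • Q = 0}))).mpr
      ⟨fun a b e => Subtype.ext (congrArg Subtype.val e :), h⟩).2 ⟨x, hx⟩
    obtain rfl : Q.1 = x := congrArg Subtype.val hQ
    exact Q.2.2
  · intro h
    refine ⟨Fact.mk hq, ?_⟩
    rw [natCard_torsion_reduction W hgood hqN hA hσ, ← hc]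
    exact Nat.card_congr (Equiv.subtypeEquivRight fun Q => ⟨fun hQ => hQ.1, fun hQ => ⟨hQ, h Q hQ⟩⟩)

/-- The action on the torsion of several levels at once. -/
def levelRep (L : Finset ℕ) [∀ n : L, NeZero (n : ℕ)] :
    GQ →* ∀ n : L, GL (Fin 2) (ZMod (n : ℕ)) :=
  MonoidHom.pi fun n => FA.TraceDist.glLevel W (n : ℕ)

theorem isOpen_ker_levelRep (L : Finset ℕ) [∀ n : L, NeZero (n : ℕ)] :
    IsOpen ((levelRep W L).ker : Set GQ) := by
  have e : ((levelRep W L).ker : Set GQ) =
      ⋂ n : L, ((FA.TraceDist.glLevel W (n : ℕ)).ker : Set GQ) := by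
    ext σ
    simp only [Set.mem_iInter, SetLike.mem_coe, MonoidHom.mem_ker, levelRep, funext_iff,
      MonoidHom.pi_apply, Pi.one_apply]
  rw [e]
  exact isOpen_iInter_of_finite fun _ => FA.TraceDist.isOpen_ker_glLevel

/-- **The density of the primes with full torsion at none of the levels.** -/
theorem density_not_fullAt (hΔ : W.Δ ≠ 0) (L : Finset ℕ) [∀ n : L, NeZero (n : ℕ)] :
    {v : HeightOneSpectrum (𝓞 ℚ) |
      ∀ n ∈ L, ¬ FullAt W n (Ideal.absNorm v.asIdeal)}.HasDirichletDensity
      ((Nat.card {g : (levelRep W L).range // ∀ n, g.1 n ≠ 1} : ℝ) /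
        Nat.card (levelRep W L).range) := by
  haveI := Fintype.ofFinite (levelRep W L).range
  set X : Set (levelRep W L).range := {g | ∀ n, g.1 n ≠ 1}
  have h := FA.Chebotarev.hasDirichletDensity_frobSet (levelRep W L).rangeRestrict
    (MonoidHom.rangeRestrict_surjective _)
    (by rw [MonoidHom.ker_rangeRestrict]; exact isOpen_ker_levelRep W L)
    (X := X) fun g hg x n e => hg n (conj_eq_one_iff.mp e)
  rw [← Nat.card_eq_fintype_card] at h
  refine FA.TraceDist.hasDirichletDensity_congr h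
    (FA.Supersingular.finite_absNorm_mem ((W.Δ.natAbs * ∏ n ∈ L, n).primeFactors)) fun v hv => ?_
  have hq := FA.Chebotarev.absNorm_prime v
  have hN : W.Δ.natAbs * ∏ n ∈ L, n ≠ 0 := mul_ne_zero (Int.natAbs_ne_zero.mpr hΔ)
    (Finset.prod_ne_zero_iff.mpr fun n hn => NeZero.ne (((⟨n, hn⟩ : L) : ℕ)))
  have hndvd : ¬ Ideal.absNorm v.asIdeal ∣ W.Δ.natAbs * ∏ n ∈ L, n := fun hd =>
    hv (Nat.mem_primeFactors.mpr ⟨hq, hd, hN⟩)
  have hgood : W.IsGoodPrimeFor (Ideal.absNorm v.asIdeal) := fun hd =>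
    hndvd ((Int.natCast_dvd.mp hd).mul_right _)
  have hqn : ∀ n : L, ¬ Ideal.absNorm v.asIdeal ∣ (n : ℕ) := fun n hd =>
    hndvd ((hd.trans (Finset.dvd_prod_of_mem id n.2)).mul_left _)
  constructor
  · intro hm n hn hfull
    obtain ⟨A, hA⟩ := FA.Deform.exists_liesOverPrime hq
    obtain ⟨σ, hσ⟩ := FA.Deform.exists_isFrobeniusAt hq hA
    exact hm A hA σ hσ ⟨n, hn⟩ ((fullAt_iff W hq hgood (hqn ⟨n, hn⟩) hA hσ).mp hfull)
  · intro hm A hA σ hσ n he
    exact hm n n.2 ((fullAt_iff W hq hgood (hqn n) hA hσ).mpr he)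

/-- **The density of the primes with full torsion.** -/
theorem density_fullAt (hΔ : W.Δ ≠ 0) (N : ℕ) [NeZero N] :
    {v : HeightOneSpectrum (𝓞 ℚ) | FullAt W N (Ideal.absNorm v.asIdeal)}.HasDirichletDensity
      (1 / Nat.card (FA.TraceDist.glLevel W N).range) := by
  haveI := Fintype.ofFinite (FA.TraceDist.glLevel W N).range
  have h := FA.Chebotarev.hasDirichletDensity_frobSet (FA.TraceDist.glLevel W N).rangeRestrict
    (MonoidHom.rangeRestrict_surjective _)
    (by rw [MonoidHom.ker_rangeRestrict]; exact FA.TraceDist.isOpen_ker_glLevel)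
    (X := {1}) fun g hg x => by
      rw [Set.mem_singleton_iff] at hg ⊢
      rw [hg, mul_one, mul_inv_cancel]
  rw [← Nat.card_eq_fintype_card, Nat.card_coe_set_eq, Set.ncard_singleton, Nat.cast_one] at h
  refine FA.TraceDist.hasDirichletDensity_congr h
    (FA.Supersingular.finite_absNorm_mem ((W.Δ.natAbs * N).primeFactors)) fun v hv => ?_
  have hq := FA.Chebotarev.absNorm_prime v
  have hndvd : ¬ Ideal.absNorm v.asIdeal ∣ W.Δ.natAbs * N := fun hd =>
    hv (Nat.mem_primeFactors.mpr ⟨hq, hd, mul_ne_zero (Int.natAbs_ne_zero.mpr hΔ) (NeZero.ne N)⟩)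
  have hgood : W.IsGoodPrimeFor (Ideal.absNorm v.asIdeal) := fun hd =>
    hndvd ((Int.natCast_dvd.mp hd).mul_right _)
  have hqN : ¬ Ideal.absNorm v.asIdeal ∣ N := fun hd => hndvd (hd.mul_left _)
  constructor
  · intro hm
    obtain ⟨A, hA⟩ := FA.Deform.exists_liesOverPrime hq
    obtain ⟨σ, hσ⟩ := FA.Deform.exists_isFrobeniusAt hq hA
    exact (fullAt_iff W hq hgood hqN hA hσ).mpr (congrArg Subtype.val (hm A hA σ hσ))
  · intro hm A hA σ hσ
    exact Set.mem_singleton_iff.mpr (Subtype.ext ((fullAt_iff W hq hgood hqN hA hσ).mp hm))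

/-- A cyclic group has no full torsion. -/
theorem not_fullAt_of_isAddCyclic {N q : ℕ} [Fact q.Prime] (hN : 2 ≤ N)
    (hcyc : IsAddCyclic (W.map (Int.castRingHom (ZMod q))).toAffine.Point) : ¬ FullAt W N q := by
  rintro ⟨_, h⟩
  haveI := Fintype.ofFinite (W.map (Int.castRingHom (ZMod q))).toAffine.Point
  rw [Nat.card_eq_fintype_card, Fintype.card_subtype] at h
  have hle := IsAddCyclic.card_nsmul_eq_zero_le
    (α := (W.map (Int.castRingHom (ZMod q))).toAffine.Point) (show 0 < N by omega)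
  nlinarith

end FA.ReducedGroups

end
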