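import Fermat.Agent.ReducedGroups.Basic
import Fermat.Agent.HasseBound.Main
import Mathlib.Analysis.PSeries

/-!
# The exponent of a reduced curve

With at most `n ^ 2` points killed by `n` for every `n`, the group `E(𝔽_q)` of exponent `e` and
order `d e` has `d ∣ e` and all `d ^ 2` points of order dividing `d`. So Frobenius is trivial on
`E[d]`, whence `d ∣ q - 1`, `d ∣ a_q - 2` and `q = c d² + h d + 1` with `c ≪ q / d²` and
`h ≪ √q / d`: a large `d` occurs at few primes (Duke).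
-/

set_option autoImplicit false
set_option linter.style.haveILetI false
set_option linter.unusedSectionVars false

noncomputable section

open WeierstrassCurve NumberField IsDedekindDomain FA.Frob FA.EC FA.PointDiv
open FA.RT.Tate (Pts)
open scoped WeierstrassCurve.Affine Classical

namespace FA.ReducedGroups

/-- An element of the quotient by one of maximal order lifts to one killed by the same number. -/
theorem exists_lift {G : Type*} [AddCommGroup G] [Finite G] {g : G}
    (hg : addOrderOf g = AddMonoid.exponent G) {n : ℕ} (hn : n ∣ AddMonoid.exponent G)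
    {x : G ⧸ AddSubgroup.zmultiples g} (hx : n • x = 0) :
    ∃ y : G, n • y = 0 ∧ (y : G ⧸ AddSubgroup.zmultiples g) = x := by
  obtain ⟨c, hc⟩ := hn
  have he : 0 < AddMonoid.exponent G := hg ▸ addOrderOf_pos g
  have hc0 : 0 < c := Nat.pos_of_ne_zero fun h => by rw [h, mul_zero] at hc; omega
  induction x using QuotientAddGroup.induction_on with
  | H x =>
    rw [← QuotientAddGroup.mk_nsmul, QuotientAddGroup.eq_zero_iff] at hx
    obtain ⟨a, ha : a • g = n • x⟩ := hx
    have h1 : ((c : ℤ) * a) • g = 0 := by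
      rw [mul_smul, ha, natCast_zsmul, ← mul_nsmul, ← hc, AddMonoid.exponent_nsmul_eq_zero]
    rw [← addOrderOf_dvd_iff_zsmul_eq_zero, hg, hc, mul_comm (c : ℤ) a, Nat.cast_mul] at h1
    obtain ⟨t, rfl⟩ := Int.dvd_of_mul_dvd_mul_right (by exact_mod_cast hc0.ne') h1
    refine ⟨x - t • g, ?_, ?_⟩
    · rw [nsmul_sub, ← ha, ← natCast_zsmul, ← mul_smul, sub_self]
    · rw [QuotientAddGroup.mk_sub, (QuotientAddGroup.eq_zero_iff (t • g)).mpr
        (zsmul_mem (AddSubgroup.mem_zmultiples g) t), sub_zero]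

/-- The elements killed by `n` in a group of exponent a multiple of `n` outnumber those of the
quotient by an element of maximal order `n` times. -/
theorem card_quotient_mul_le {G : Type*} [AddCommGroup G] [Finite G] {g : G}
    (hg : addOrderOf g = AddMonoid.exponent G) {n : ℕ} (hn : n ∣ AddMonoid.exponent G) :
    Nat.card {x : G ⧸ AddSubgroup.zmultiples g // n • x = 0} * n ≤
      Nat.card {x : G // n • x = 0} := by
  set K := AddSubgroup.zmultiples g
  obtain ⟨c, hc⟩ := hn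
  have he : 0 < AddMonoid.exponent G := hg ▸ addOrderOf_pos g
  have hn0 : 0 < n := Nat.pos_of_ne_zero fun h => by rw [h, zero_mul] at hc; omega
  have hc0 : 0 < c := Nat.pos_of_ne_zero fun h => by rw [h, mul_zero] at hc; omega
  choose y hy hyx using fun x : G ⧸ K => exists_lift hg ⟨c, hc⟩ (x := x)
  set u := c • g
  have hu : addOrderOf u = n := by
    rw [addOrderOf_nsmul_of_dvd hc0.ne' (by rw [hg, hc]; exact dvd_mul_left _ _), hg, hc,
      Nat.mul_div_cancel _ hc0]
  refine (le_of_eq ?_).trans (Nat.card_le_card_of_injective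
    (fun z : {x : G ⧸ K // n • x = 0} × AddSubgroup.zmultiples u =>
      (⟨y z.1.1 z.1.2 + z.2.1, ?_⟩ : {x : G // n • x = 0})) ?_)
  · rw [Nat.card_prod, Nat.card_zmultiples, hu]
  · obtain ⟨i, hi : i • u = z.2.1⟩ := z.2.2
    rw [nsmul_add, hy, ← hi, smul_comm, ← hu, addOrderOf_nsmul_eq_zero, smul_zero, add_zero]
  · intro z z' e
    have e' : y z.1.1 z.1.2 + z.2.1 = y z'.1.1 z'.1.2 + z'.2.1 := congrArg Subtype.val e
    have hK : ∀ w : AddSubgroup.zmultiples u, (w.1 : G ⧸ K) = 0 := fun w =>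
      (QuotientAddGroup.eq_zero_iff _).mpr
        (AddSubgroup.zmultiples_le_of_mem (nsmul_mem (AddSubgroup.mem_zmultiples g) c) w.2)
    have h1 : z.1 = z'.1 := by
      refine Subtype.ext ?_
      have h := congrArg (QuotientAddGroup.mk (s := K)) e'
      rwa [QuotientAddGroup.mk_add, QuotientAddGroup.mk_add, hK, hK, add_zero, add_zero, hyx,
        hyx] at h
    refine Prod.ext h1 (Subtype.ext ?_)
    rw [h1] at e'
    exact add_left_cancel e'

/-- The exponent kills the quotients. -/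
theorem exponent_nsmul_quotient_eq_zero {G : Type*} [AddCommGroup G] (g : G)
    (x : G ⧸ AddSubgroup.zmultiples g) : AddMonoid.exponent G • x = 0 := by
  induction x using QuotientAddGroup.induction_on with
  | H x => rw [← QuotientAddGroup.mk_nsmul, AddMonoid.exponent_nsmul_eq_zero,
      QuotientAddGroup.mk_zero]

/-- The quotient by an element of maximal order is cyclic. -/
theorem isAddCyclic_quotient {G : Type*} [AddCommGroup G] [Finite G]
    (h : ∀ n : ℕ, 0 < n → Nat.card {x : G // n • x = 0} ≤ n ^ 2) {g : G}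
    (hg : addOrderOf g = AddMonoid.exponent G) :
    IsAddCyclic (G ⧸ AddSubgroup.zmultiples g) := by
  set Q := G ⧸ AddSubgroup.zmultiples g
  haveI := Fintype.ofFinite Q
  have hkill : ∀ x : Q, AddMonoid.exponent G • x = 0 := exponent_nsmul_quotient_eq_zero g
  have hle : ∀ n, 0 < n → Nat.card {x : Q // n • x = 0} ≤ n := fun n hn => by
    set m := n.gcd (AddMonoid.exponent G)
    have hm : 0 < m := Nat.gcd_pos_of_pos_left _ hn
    have h1 := (card_quotient_mul_le hg (Nat.gcd_dvd_right n _)).trans (h m hm)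
    rw [sq] at h1
    refine ((le_of_eq (Nat.card_congr (Equiv.subtypeEquivRight fun x => ?_))).trans
      (Nat.le_of_mul_le_mul_right h1 hm)).trans (Nat.le_of_dvd hn (Nat.gcd_dvd_left _ _))
    rw [← addOrderOf_dvd_iff_nsmul_eq_zero, ← addOrderOf_dvd_iff_nsmul_eq_zero,
      Nat.dvd_gcd_iff]
    exact ⟨fun hx => ⟨hx, addOrderOf_dvd_of_nsmul_eq_zero (hkill x)⟩, fun hx => hx.1⟩
  exact isAddCyclic_of_card_nsmul_eq_zero_le fun n hn => by
    have := hle n hn
    rwa [Nat.card_eq_fintype_card, Fintype.card_subtype] at this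

/-- **A finite abelian group with at most `n ^ 2` elements killed by `n`** has order `d e`, `e` the
exponent, with `d ∣ e` and `d ^ 2` elements killed by `d`. -/
theorem exponent_structure {G : Type*} [AddCommGroup G] [Finite G]
    (h : ∀ n : ℕ, 0 < n → Nat.card {x : G // n • x = 0} ≤ n ^ 2) :
    ∃ d : ℕ, d * AddMonoid.exponent G = Nat.card G ∧ d ∣ AddMonoid.exponent G ∧
      Nat.card {x : G // d • x = 0} = d ^ 2 := by
  obtain ⟨g, hg⟩ := AddMonoid.exists_addOrderOf_eq_exponent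
    (AddMonoid.ExponentExists.of_finite (G := G))
  have he : 0 < AddMonoid.exponent G := hg ▸ addOrderOf_pos g
  set Q := G ⧸ AddSubgroup.zmultiples g
  have hkill : ∀ x : Q, AddMonoid.exponent G • x = 0 := exponent_nsmul_quotient_eq_zero g
  haveI : IsAddCyclic Q := isAddCyclic_quotient h hg
  obtain ⟨x, hx⟩ := IsAddCyclic.exists_ofOrder_eq_natCard (α := Q)
  have hd : Nat.card Q ∣ AddMonoid.exponent G := hx ▸ addOrderOf_dvd_of_nsmul_eq_zero (hkill x)
  refine ⟨Nat.card Q, ?_, hd, le_antisymm (h _ Nat.card_pos) ?_⟩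
  · rw [← hg, ← Nat.card_zmultiples, ← AddSubgroup.card_eq_card_quotient_mul_card_addSubgroup]
  · have := card_quotient_mul_le hg hd
    rwa [Nat.card_congr (Equiv.subtypeUnivEquiv fun x : Q => card_nsmul_eq_zero'), ← sq] at this

variable (W : WeierstrassCurve ℤ)

/-- The exponent of the group of the equation modulo `q`. -/
def exponentAt (q : ℕ) [Fact q.Prime] : ℕ :=
  AddMonoid.exponent (W.map (Int.castRingHom (ZMod q))).toAffine.Point

variable {W} [(ratCurve W).IsElliptic]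

/-- **The structure of the points modulo `q`.** -/
theorem exists_structure {q : ℕ} [hq : Fact q.Prime] (h3 : 3 ≤ q) (hgood : W.IsGoodPrimeFor q) :
    ∃ d : ℕ, 0 < d ∧ ((d : ℤ) * exponentAt W q = (q : ℤ) + 1 - W.apOfModel q) ∧
      d ∣ exponentAt W q ∧ FullAt W d q ∧ d ∣ q - 1 ∧ (d : ℤ) ∣ W.apOfModel q - 2 := by
  set G := (W.map (Int.castRingHom (ZMod q))).toAffine.Point
  haveI := reductionMod_isElliptic W hgood
  haveI : (W.reductionMod q).IsElliptic := reductionMod_isElliptic W hgood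
  have hcard : (Nat.card G : ℤ) = (q : ℤ) + 1 - W.apOfModel q := by
    show _ = (q : ℤ) + 1 - ((Nat.card (ZMod q) : ℤ) + 1 - (Nat.card G : ℤ))
    rw [Nat.card_zmod]; ring
  have hH : W.apOfModel q ^ 2 ≤ 4 * (q : ℤ) :=
    FA.HasseBound.traceOfFrobenius_sq_le (W.reductionMod q)
  have hlt : Nat.card G < q ^ 2 := by
    have h9 : (9 : ℤ) ≤ (q : ℤ) ^ 2 := by exact_mod_cast Nat.pow_le_pow_left h3 2
    zify
    nlinarith [sq_nonneg (W.apOfModel q + 2), sq_nonneg ((q : ℤ) - 3),
      show (3 : ℤ) ≤ q by exact_mod_cast h3]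
  obtain ⟨A, hA⟩ := FA.Deform.exists_liesOverPrime hq.out
  obtain ⟨σ, hσ⟩ := FA.Deform.exists_isFrobeniusAt hq.out hA
  obtain ⟨d, hd, hde, hfull⟩ := exponent_structure (G := G) fun n hn => by
    rcases le_or_gt q n with hqn | hqn
    · exact (Nat.card_le_card_of_injective _ Subtype.val_injective).trans
        (hlt.le.trans (Nat.pow_le_pow_left hqn 2))
    rw [natCard_torsion_reduction W hgood
      (fun e => (Nat.le_of_dvd hn e).not_gt hqn) hA hσ]
    have hc : Nat.card {Q : Pts W // n • Q = 0} = n ^ 2 :=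
      natCard_nsmul_eq_zero _ (Nat.cast_ne_zero.mpr hn.ne')
    haveI : Finite {Q : Pts W // n • Q = 0} :=
      Nat.finite_of_card_ne_zero (by rw [hc]; exact pow_ne_zero 2 hn.ne')
    exact hc ▸ Nat.card_le_card_of_injective (fun Q => ⟨Q.1, Q.2.1⟩)
      fun a b e => Subtype.ext (congrArg Subtype.val e :)
  have hd0 : 0 < d := Nat.pos_of_ne_zero fun e => by
    rw [e, zero_mul] at hd; exact absurd hd.symm Nat.card_pos.ne'
  have hdq : ¬ q ∣ d := fun e => hlt.not_ge <| (Nat.pow_le_pow_left (Nat.le_of_dvd hd0 e) 2).trans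
    (by rw [← hd, sq]; exact Nat.mul_le_mul_left _ (Nat.le_of_dvd
      (Nat.pos_of_ne_zero fun e => by rw [e, mul_zero] at hd; exact absurd hd.symm Nat.card_pos.ne')
      hde))
  have hfull' : FullAt W d q := ⟨hq, hfull⟩
  haveI : NeZero d := ⟨hd0.ne'⟩
  have h1 : FA.TraceDist.repLevel W d σ = 1 :=
    congrArg Units.val ((fullAt_iff W hq.out hgood hdq hA hσ).mp hfull')
  obtain ⟨ht, hdet⟩ := FA.TraceDist.repLevel_frobenius (N := d) hq.out hdq hgood hA hσ
  rw [h1, Matrix.det_one] at hdet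
  rw [h1, Matrix.trace_one, Fintype.card_fin] at ht
  refine ⟨d, hd0, by rw [← hcard, ← hd]; push_cast; rfl, hde, hfull', ?_, ?_⟩
  · rw [← ZMod.natCast_eq_zero_iff, Nat.cast_sub hq.out.one_le, ← hdet, Nat.cast_one, sub_self]
  · rw [← ZMod.intCast_zmod_eq_zero_iff_dvd, Int.cast_sub, ← ht, Int.cast_ofNat]
    push_cast
    ring

/-! ### Few primes with a small exponent -/

/-- The tail of `∑ 1 / d²` from `⌈D⌉` is at most `2 / D`. -/
theorem sum_Icc_inv_sq_le {D : ℝ} (hD : 0 < D) (b : ℕ) :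
    ∑ d ∈ Finset.Icc ⌈D⌉₊ b, ((d : ℝ) ^ 2)⁻¹ ≤ 2 / D := by
  set a := ⌈D⌉₊
  have ha : 1 ≤ a := Nat.one_le_iff_ne_zero.mpr (Nat.ceil_pos.mpr hD).ne'
  rcases le_or_gt a 1 with h1 | h1
  · have hD1 : D ≤ 1 := (Nat.le_ceil D).trans (by exact_mod_cast h1)
    refine le_trans ?_ (le_div_iff₀ hD |>.mpr (mul_le_of_le_one_right two_pos.le hD1))
    calc ∑ d ∈ Finset.Icc a b, ((d : ℝ) ^ 2)⁻¹
        ≤ ∑ d ∈ insert 1 (Finset.Ioc 1 b), ((d : ℝ) ^ 2)⁻¹ :=
          Finset.sum_le_sum_of_subset_of_nonneg (fun d hd => by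
            simp only [Finset.mem_insert, Finset.mem_Ioc, Finset.mem_Icc] at hd ⊢; omega)
            fun _ _ _ => by positivity
      _ ≤ 2 := by
          rw [Finset.sum_insert (by simp)]
          rcases lt_or_ge b 1 with hb | hb
          · rw [Finset.Ioc_eq_empty (by omega)]; norm_num
          · have := sum_Ioc_inv_sq_le_sub (α := ℝ) one_ne_zero hb
            have h2 : (0 : ℝ) ≤ (b : ℝ)⁻¹ := by positivity
            rw [Nat.cast_one, inv_one] at this
            rw [Nat.cast_one, one_pow, inv_one]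
            linarith
  · rcases lt_or_ge b a with hb | hb
    · rw [Finset.Icc_eq_empty (by omega), Finset.sum_empty]; positivity
    have := sum_Ioc_inv_sq_le_sub (α := ℝ) (show a - 1 ≠ 0 by omega) (show a - 1 ≤ b by omega)
    rw [show Finset.Icc a b = Finset.Ioc (a - 1) b from Finset.ext fun d => by
      simp only [Finset.mem_Icc, Finset.mem_Ioc]; omega]
    refine this.trans ((sub_le_self _ (by positivity)).trans ?_)
    have h2 : (2 : ℝ) ≤ a := by exact_mod_cast h1
    rw [Nat.cast_sub ha, Nat.cast_one, inv_eq_one_div, div_le_div_iff₀ (by linarith) hD]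
    linarith [Nat.le_ceil D]

/-- The values `c d² + h d + 1` which occur among the exceptions in `[2 ^ k, 2 ^ (k + 1))`. -/
def candidates (k : ℕ) : Finset ℕ :=
  (Finset.Icc ⌈(2 : ℝ) ^ ((k : ℝ) / 4) * k / 8⌉₊ ⌊3 * Real.sqrt (2 ^ k)⌋₊).biUnion fun d =>
    (Finset.Icc (-⌊6 * Real.sqrt (2 ^ k) / d⌋) ⌊6 * Real.sqrt (2 ^ k) / d⌋ ×ˢ
        Finset.Icc 1 ⌊8 * (2 : ℝ) ^ k / d ^ 2⌋₊).image
      fun p => ((p.2 : ℤ) * d ^ 2 + p.1 * d + 1).toNat

theorem card_candidates_le {k : ℕ} (hk : 1 ≤ k) :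
    ((candidates k).card : ℝ) ≤ 15360 * 2 ^ k / (k : ℝ) ^ 2 := by
  set X : ℝ := 2 ^ k
  set R := Real.sqrt X
  set D : ℝ := (2 : ℝ) ^ ((k : ℝ) / 4) * k / 8
  have hX : (0 : ℝ) < X := by positivity
  have hD : 0 < D := by positivity
  have hR : R ^ 2 = X := Real.sq_sqrt hX.le
  have hR0 : 0 ≤ R := Real.sqrt_nonneg _
  set a := ⌈D⌉₊
  set b := ⌊3 * R⌋₊
  have ha : 1 ≤ a := Nat.one_le_iff_ne_zero.mpr (Nat.ceil_pos.mpr hD).ne'
  have hterm : ∀ d ∈ Finset.Icc a b,
      (((Finset.Icc (-⌊6 * R / d⌋) ⌊6 * R / d⌋ ×ˢ Finset.Icc 1 ⌊8 * X / d ^ 2⌋₊).image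
        fun p => ((p.2 : ℤ) * d ^ 2 + p.1 * d + 1).toNat).card : ℝ) ≤
        120 * R * X / D * (((d : ℝ) ^ 2)⁻¹) := by
    intro d hd
    rw [Finset.mem_Icc] at hd
    have hd0 : (0 : ℝ) < d := by exact_mod_cast (show 0 < d by omega)
    have hdR : (d : ℝ) ≤ 3 * R := le_trans (by exact_mod_cast hd.2) (Nat.floor_le (by positivity))
    have hDd : D ≤ d := (Nat.le_ceil D).trans (by exact_mod_cast hd.1)
    refine le_trans (Nat.cast_le.mpr Finset.card_image_le) ?_
    rw [Finset.card_product, Int.card_Icc, Nat.card_Icc, Nat.cast_mul, Nat.add_sub_cancel]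
    have h0 : 0 ≤ ⌊6 * R / d⌋ := Int.floor_nonneg.mpr (by positivity)
    have e : (((⌊6 * R / d⌋ + 1 - -⌊6 * R / d⌋).toNat : ℕ) : ℝ) ≤ 15 * R / d := by
      rw [← Int.cast_natCast, Int.toNat_of_nonneg (by omega)]
      push_cast
      have := Int.floor_le (6 * R / d)
      rw [le_div_iff₀ hd0] at this ⊢
      linarith
    refine (mul_le_mul e (Nat.floor_le (by positivity)) (Nat.cast_nonneg _) (by positivity)).trans ?_
    calc 15 * R / d * (8 * X / d ^ 2) = 120 * R * X * ((d : ℝ) ^ 2)⁻¹ / d := by ring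
      _ ≤ 120 * R * X * ((d : ℝ) ^ 2)⁻¹ / D := by gcongr
      _ = _ := by ring
  have hsum : ∑ d ∈ Finset.Icc a b, ((d : ℝ) ^ 2)⁻¹ ≤ 2 / D := sum_Icc_inv_sq_le hD b
  have hD2 : D ^ 2 = R * (k : ℝ) ^ 2 / 64 := by
    have : ((2 : ℝ) ^ ((k : ℝ) / 4)) ^ 2 = R := by
      rw [show R = ((2 : ℝ) ^ k) ^ (1 / 2 : ℝ) from Real.sqrt_eq_rpow X, ← Real.rpow_natCast 2 k,
        ← Real.rpow_natCast _ 2, ← Real.rpow_mul two_pos.le, ← Real.rpow_mul two_pos.le]
      push_cast
      ring_nf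
    rw [← this]
    simp only [D]
    ring
  refine le_trans (Nat.cast_le.mpr Finset.card_biUnion_le) ?_
  rw [Nat.cast_sum]
  refine (Finset.sum_le_sum hterm).trans ?_
  rw [← Finset.mul_sum]
  refine (mul_le_mul_of_nonneg_left hsum (by positivity)).trans (le_of_eq ?_)
  rw [show 120 * R * X / D * (2 / D) = 240 * R * X / D ^ 2 by ring, hD2]
  have : R ≠ 0 := (Real.sqrt_pos.mpr hX).ne'
  field_simp
  ring

/-- **An exception is a candidate.** -/
theorem mem_candidates {q : ℕ} [hq : Fact q.Prime] (h4 : 4 ≤ q) (hgood : W.IsGoodPrimeFor q)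
    (he : (exponentAt W q : ℝ) < (q : ℝ) ^ (3 / 4 : ℝ) / Real.log q) :
    q ∈ candidates (Nat.log 2 q) := by
  obtain ⟨d, hd0, hde, ⟨c, hc⟩, -, -, ⟨h, hh⟩⟩ := exists_structure (by omega) hgood
  have hH : W.apOfModel q ^ 2 ≤ 4 * (q : ℤ) := by
    haveI : (W.reductionMod q).IsElliptic := reductionMod_isElliptic W hgood
    exact FA.HasseBound.traceOfFrobenius_sq_le (W.reductionMod q)
  set k := Nat.log 2 q
  set a := W.apOfModel q
  have hq1 : (2 : ℝ) ^ k ≤ q := by exact_mod_cast Nat.pow_log_le_self 2 (by omega)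
  have hq2 : (q : ℝ) ≤ 2 * 2 ^ k := by
    have := Nat.lt_pow_succ_log_self one_lt_two q
    rw [pow_succ, mul_comm] at this
    exact_mod_cast this.le
  have hq4 : (4 : ℝ) ≤ q := by exact_mod_cast h4
  have hqval : (q : ℤ) = (c : ℤ) * d ^ 2 + h * d + 1 := by
    rw [hc] at hde; push_cast at hde; linear_combination -hde + hh
  -- the real bounds
  set s := Real.sqrt q
  set R := Real.sqrt (2 ^ k)
  have hs : s ^ 2 = q := Real.sq_sqrt (by positivity)
  have hs2 : 2 ≤ s := Real.le_sqrt_of_sq_le (by linarith)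
  have hR : R ^ 2 = (2 : ℝ) ^ k := Real.sq_sqrt (by positivity)
  have hsR : 2 * s ≤ 3 * R := by nlinarith [Real.sqrt_nonneg ((2 : ℝ) ^ k)]
  have ha : |(a : ℝ)| ≤ 2 * s := by
    refine abs_le_of_sq_le_sq ?_ (by positivity)
    rw [mul_pow, hs]
    exact_mod_cast (show a ^ 2 ≤ (2 : ℤ) ^ 2 * q by linarith)
  rw [abs_le] at ha
  have hN : (d : ℝ) * exponentAt W q = (q : ℝ) + 1 - a := by exact_mod_cast hde
  have hcd : (d : ℝ) * d * c = (q : ℝ) + 1 - a := by rw [← hN, hc]; push_cast; ring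
  have hc1 : 1 ≤ c := Nat.one_le_iff_ne_zero.mpr fun e => by
    rw [e, Nat.cast_zero, mul_zero] at hcd; nlinarith
  have hc1' : (1 : ℝ) ≤ c := by exact_mod_cast hc1
  have hdpos : (0 : ℝ) < d := by exact_mod_cast hd0
  have hNle : (d : ℝ) * d * c ≤ 8 * 2 ^ k := by nlinarith
  have hd3 : (d : ℝ) ≤ 3 * R := by nlinarith [Real.sqrt_nonneg ((2 : ℝ) ^ k)]
  have hhd : |(h : ℝ)| * d ≤ 6 * R := by
    have e : (a : ℝ) - 2 = d * h := by exact_mod_cast hh
    rw [← abs_of_pos hdpos, ← abs_mul, mul_comm, ← e, abs_le]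
    constructor <;> linarith
  -- the lower bound for `d`
  have hDd : (2 : ℝ) ^ ((k : ℝ) / 4) * k / 8 ≤ d := by
    set t := (q : ℝ) ^ (1 / 4 : ℝ)
    have ht0 : 0 < t := by positivity
    have hQ : (q : ℝ) ^ (3 / 4 : ℝ) = q / t := by
      rw [eq_div_iff ht0.ne', ← Real.rpow_add (by positivity)]; norm_num
    have hlog : (k : ℝ) / 2 ≤ Real.log q := by
      refine le_trans ?_ (Real.log_le_log (by positivity) hq1)
      rw [Real.log_pow, div_eq_mul_inv]
      exact mul_le_mul_of_nonneg_left (by linarith [Real.log_two_gt_d9]) (Nat.cast_nonneg _)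
    have hL : 0 < Real.log q := Real.log_pos (by linarith)
    rw [hQ, lt_div_iff₀ hL, lt_div_iff₀ ht0] at he
    have h1 : (d : ℝ) * exponentAt W q * (Real.log q * t) ≤ d * q := by
      rw [mul_assoc]; exact mul_le_mul_of_nonneg_left (by linarith) hdpos.le
    have h2 : (q : ℝ) / 4 ≤ d * exponentAt W q := by nlinarith
    have h3 : Real.log q * t / 4 ≤ d := by
      rw [div_le_iff₀ (by norm_num)]
      nlinarith [mul_le_mul_of_nonneg_right h2 (mul_pos hL ht0).le]
    have h5 : (2 : ℝ) ^ ((k : ℝ) / 4) ≤ t := by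
      rw [show (k : ℝ) / 4 = k * (1 / 4) by ring, Real.rpow_mul two_pos.le, Real.rpow_natCast]
      exact Real.rpow_le_rpow (by positivity) hq1 (by norm_num)
    nlinarith [mul_le_mul h5 hlog (by positivity) ht0.le]
  simp only [candidates, Finset.mem_biUnion, Finset.mem_image, Finset.mem_product, Finset.mem_Icc]
  refine ⟨d, ⟨Nat.ceil_le.mpr hDd, Nat.le_floor hd3⟩, (h, c), ⟨⟨?_, ?_⟩, hc1, ?_⟩, ?_⟩
  · rw [neg_le]
    refine Int.le_floor.mpr ((le_div_iff₀ hdpos).mpr ?_)
    push_cast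
    exact (mul_le_mul_of_nonneg_right (neg_le_abs _) hdpos.le).trans hhd
  · exact Int.le_floor.mpr ((le_div_iff₀ hdpos).mpr
      ((mul_le_mul_of_nonneg_right (le_abs_self _) hdpos.le).trans hhd))
  · refine Nat.le_floor ((le_div_iff₀ (by positivity)).mpr ?_)
    rw [sq]; linarith
  · rw [← hqval, Int.toNat_natCast]

/-- **Sets with few members in each dyadic interval have convergent sum of reciprocals.** -/
theorem summable_of_dyadic {P : Set ℕ} {c : ℕ → Finset ℕ} {K : ℝ} (hK : 0 ≤ K)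
    (hc : ∀ k : ℕ, 1 ≤ k → ((c k).card : ℝ) ≤ K * 2 ^ k / (k : ℝ) ^ 2)
    (hP : ∀ n ∈ P, 4 ≤ n → n ∈ c (Nat.log 2 n)) :
    Summable (P.indicator fun n : ℕ => (1 : ℝ) / n) := by
  have hS : Summable fun k : ℕ => K / (k : ℝ) ^ 2 := by
    simp_rw [div_eq_mul_inv]
    exact (Real.summable_nat_pow_inv.mpr one_lt_two).mul_left _
  set f := P.indicator fun n : ℕ => (1 : ℝ) / n
  have hf : ∀ n, 0 ≤ f n := fun n => Set.indicator_nonneg (fun _ _ => by positivity) n
  refine summable_of_sum_le hf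
    (c := ∑ n ∈ Finset.range 4, f n + ∑' k : ℕ, K / (k : ℝ) ^ 2) fun u => ?_
  rw [← Finset.sum_filter_add_sum_filter_not u (· < 4) f]
  refine add_le_add (Finset.sum_le_sum_of_subset_of_nonneg
    (fun n hn => Finset.mem_range.mpr (Finset.mem_filter.mp hn).2) fun n _ _ => hf n) ?_
  set v := u.filter fun n => ¬ n < 4
  rw [← Finset.sum_fiberwise_of_maps_to (t := v.image (Nat.log 2))
    (fun n hn => Finset.mem_image_of_mem _ hn) f]
  refine le_trans (Finset.sum_le_sum fun k hk => ?_) (hS.sum_le_tsum _ fun _ _ => by positivity)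
  obtain ⟨m, hm, rfl⟩ := Finset.mem_image.mp hk
  have hm4 : 4 ≤ m := not_lt.mp (Finset.mem_filter.mp hm).2
  set k := Nat.log 2 m
  have hk1 : 1 ≤ k := Nat.le_log_of_pow_le one_lt_two (by omega)
  have hle : ∀ n ∈ v.filter (fun n => Nat.log 2 n = k),
      f n ≤ (c k : Set ℕ).indicator (fun _ => ((2 : ℝ) ^ k)⁻¹) n := fun n hn => by
    obtain ⟨hnv, hnk⟩ := Finset.mem_filter.mp hn
    have hn4 : 4 ≤ n := not_lt.mp (Finset.mem_filter.mp hnv).2
    by_cases hnP : n ∈ P
    · rw [show f n = 1 / (n : ℝ) from Set.indicator_of_mem hnP _,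
        Set.indicator_of_mem (Finset.mem_coe.mpr (hnk ▸ hP n hnP hn4)), one_div, ← hnk]
      exact inv_anti₀ (by positivity) (by exact_mod_cast Nat.pow_log_le_self 2 (by omega))
    · rw [show f n = 0 from Set.indicator_of_notMem hnP _]
      exact Set.indicator_nonneg (fun _ _ => by positivity) n
  refine (Finset.sum_le_sum hle).trans ?_
  have hcard := hc k hk1
  rw [Finset.sum_indicator_eq_sum_filter, Finset.sum_const, nsmul_eq_mul, ← div_eq_mul_inv,
    div_le_iff₀ (by positivity), div_mul_eq_mul_div]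
  exact le_trans (Nat.cast_le.mpr (Finset.card_le_card fun n hn =>
    Finset.mem_coe.mp (Finset.mem_filter.mp hn).2)) hcard

/-- **Sets inside the candidates have convergent sum of reciprocals.** -/
theorem summable_of_candidates {P : Set ℕ}
    (hP : ∀ n ∈ P, 4 ≤ n → n ∈ candidates (Nat.log 2 n)) :
    Summable (P.indicator fun n : ℕ => (1 : ℝ) / n) :=
  summable_of_dyadic (by norm_num) (fun _ hk => card_candidates_le hk) hP

end FA.ReducedGroups

end
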