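import Fermat.Agent.ReducedGroups.Mestre
import Fermat.Agent.Torsion.Groups

/-!
# The structure theorem for the points of a curve over a prime field
-/

set_option autoImplicit false
set_option linter.style.haveILetI false
set_option linter.unusedSectionVars false

noncomputable section

open WeierstrassCurve FA.Frob FA.EC FA.PointDiv
open FA.RT.Tate (Pts)
open scoped WeierstrassCurve.Affine Classical

namespace FA.ReducedGroups

/-- **A group with at most `n ^ 2` elements killed by each `n`** is `ℤ/d × ℤ/e` with `d ∣ e`, `e` the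
exponent. -/
theorem exists_equiv {G : Type*} [AddCommGroup G] [Finite G]
    (h : ∀ n : ℕ, 0 < n → Nat.card {x : G // n • x = 0} ≤ n ^ 2) :
    ∃ d : ℕ, d ∣ AddMonoid.exponent G ∧ d * AddMonoid.exponent G = Nat.card G ∧
      Nonempty (G ≃+ ZMod d × ZMod (AddMonoid.exponent G)) := by
  obtain ⟨g, hg⟩ := AddMonoid.exists_addOrderOf_eq_exponent
    (AddMonoid.ExponentExists.of_finite (G := G))
  haveI := isAddCyclic_quotient h hg
  obtain ⟨x, hx⟩ := IsAddCyclic.exists_ofOrder_eq_natCard (α := G ⧸ AddSubgroup.zmultiples g)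
  set d := Nat.card (G ⧸ AddSubgroup.zmultiples g)
  have hd : d ∣ AddMonoid.exponent G :=
    hx ▸ addOrderOf_dvd_of_nsmul_eq_zero (exponent_nsmul_quotient_eq_zero g x)
  have hcard : d * AddMonoid.exponent G = Nat.card G := by
    rw [← hg, ← Nat.card_zmultiples, ← AddSubgroup.card_eq_card_quotient_mul_card_addSubgroup]
  obtain ⟨v, hv, hvx⟩ := exists_lift hg hd (x := x) (hx ▸ addOrderOf_nsmul_eq_zero x)
  refine ⟨d, hd, hcard, ⟨(AddEquiv.ofBijective
    (FA.Torsion.pairHom v g hv (AddMonoid.exponent_nsmul_eq_zero g)) ?_).symm⟩⟩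
  refine (Nat.bijective_iff_injective_and_card _).mpr ⟨FA.Torsion.pairHom_injective _ _ hg fun i hi => ?_,
    by rw [Nat.card_prod, Nat.card_zmod, Nat.card_zmod, hcard]⟩
  rw [← hx, addOrderOf_dvd_iff_zsmul_eq_zero, ← hvx, ← QuotientAddGroup.mk_zsmul,
    QuotientAddGroup.eq_zero_iff]
  exact hi

/-- At most `n ^ 2` points are killed by `n`. -/
theorem natCard_nsmul_eq_zero_le {q : ℕ} [hq : Fact q.Prime] (V : WeierstrassCurve (ZMod q))
    [V.IsElliptic] {n : ℕ} (hn : 0 < n) (h3 : 3 ≤ q) :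
    Nat.card {P : V.toAffine.Point // n • P = 0} ≤ n ^ 2 := by
  obtain ⟨hH, d, hd0, hde, -, -⟩ := exists_structure_zmod h3 V
  have hlt : Nat.card V.toAffine.Point ≤ q ^ 2 := by
    have hc : V.traceOfFrobenius = (q : ℤ) + 1 - Nat.card V.toAffine.Point := by
      show (Nat.card (ZMod q) : ℤ) + 1 - (Nat.card V.toAffine.Point : ℤ) = _
      rw [Nat.card_zmod]
    have h3' : (3 : ℤ) ≤ q := by exact_mod_cast h3
    zify
    nlinarith [sq_nonneg (V.traceOfFrobenius + 2), sq_nonneg ((q : ℤ) - 3)]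
  rcases le_or_gt q n with hqn | hqn
  · exact (Nat.card_le_card_of_injective _ Subtype.val_injective).trans
      (hlt.trans (Nat.pow_le_pow_left hqn 2))
  let k := AlgebraicClosure (ZMod q)
  haveI : CharP k q := charP_of_injective_algebraMap (algebraMap (ZMod q) k).injective q
  have hnk : (n : k) ≠ 0 := fun e =>
    (Nat.le_of_dvd hn ((CharP.cast_eq_zero_iff k q n).mp e)).not_gt hqn
  set m := mapHom (algebraMap (ZMod q) k) (rfl : V.map (algebraMap (ZMod q) k) = _)
  have hc : Nat.card {P : (V.map (algebraMap (ZMod q) k)).toAffine.Point // n • P = 0} = n ^ 2 :=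
    natCard_nsmul_eq_zero _ hnk
  haveI : Finite {P : (V.map (algebraMap (ZMod q) k)).toAffine.Point // n • P = 0} :=
    Nat.finite_of_card_ne_zero (by rw [hc]; exact pow_ne_zero 2 hn.ne')
  exact hc ▸ Nat.card_le_card_of_injective
    (fun P => ⟨m P.1, by rw [← map_nsmul, P.2, map_zero]⟩)
    fun a b e => Subtype.ext (mapHom_injective _ _ (congrArg Subtype.val e :))

/-- **The structure theorem over a prime field.** -/
theorem exists_equiv_zmod {q : ℕ} [hq : Fact q.Prime] (h3 : 3 ≤ q) (V : WeierstrassCurve (ZMod q))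
    [V.IsElliptic] :
    ∃ d : ℕ, d ∣ AddMonoid.exponent V.toAffine.Point ∧
      d * AddMonoid.exponent V.toAffine.Point = Nat.card V.toAffine.Point ∧ d ∣ q - 1 ∧
      (d : ℤ) ∣ V.traceOfFrobenius - 2 ∧
      Nonempty (V.toAffine.Point ≃+ ZMod d × ZMod (AddMonoid.exponent V.toAffine.Point)) := by
  obtain ⟨d, hd, hcard, heq⟩ := exists_equiv fun n hn => natCard_nsmul_eq_zero_le V hn h3
  obtain ⟨W, rfl⟩ : ∃ W : WeierstrassCurve ℤ, W.map (Int.castRingHom (ZMod q)) = V :=
    ⟨⟨V.a₁.val, V.a₂.val, V.a₃.val, V.a₄.val, V.a₆.val⟩, by ext <;> simp⟩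
  have hΔ0 := (W.map (Int.castRingHom (ZMod q))).isUnit_Δ.ne_zero
  rw [map_Δ, eq_intCast] at hΔ0
  have hgood : W.IsGoodPrimeFor q := fun h => hΔ0 ((ZMod.intCast_zmod_eq_zero_iff_dvd _ _).mpr h)
  haveI := ratCurve_isElliptic_of_Δ (W := W) fun h => hΔ0 (by rw [h, Int.cast_zero])
  obtain ⟨d', -, hde, -, -, h1, h2⟩ := exists_structure (W := W) h3 hgood
  have hdd : d = d' := by
    refine Nat.eq_of_mul_eq_mul_right (Nat.pos_of_ne_zero AddMonoid.exponent_ne_zero_of_finite)
      (hcard.trans (Int.natCast_inj.mp ?_))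
    push_cast
    refine (Eq.trans ?_ hde.symm)
    show _ = (q : ℤ) + 1 - ((Nat.card (ZMod q) : ℤ) + 1 - _)
    rw [Nat.card_zmod]
    show _ = (q : ℤ) + 1 - ((q : ℤ) + 1 - _)
    rw [sub_sub_cancel]
    rfl
  subst hdd
  exact ⟨d, hd, hcard, h1, h2, heq⟩

end FA.ReducedGroups

end
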