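import Fermat.Agent.RT.Tate.Det
import Mathlib.GroupTheory.Index

/-!
# Katz's lattice lemma

Matrices over `ℤ_p` with determinants, and determinants of differences, divisible by `p ^ n` map
one lattice into another of index `p ^ n` inside it: while the index is smaller they reduce modulo
`p` to singular matrices with singular differences, which have a common image line (shrink the
target) or a common kernel (enlarge the source).
-/

set_option autoImplicit false
set_option linter.style.haveILetI false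
set_option linter.unusedSectionVars false

noncomputable section

open Matrix

namespace FA.Katz

local notation "M2" => Matrix (Fin 2) (Fin 2)

/-! ### Singular matrices with singular differences -/

section field

variable {k : Type*} [Field k]

/-- A nonzero vector is the second row of an invertible matrix. -/
theorem exists_row_one {w : Fin 2 → k} (hw : w ≠ 0) : ∃ U : M2 k, U.det ≠ 0 ∧ U 1 = w := by
  by_cases h0 : w 0 = 0
  · have h1 : w 1 ≠ 0 := fun h1 => hw (funext fun i => by fin_cases i <;> assumption)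
    refine ⟨!![1, 0; w 0, w 1], ?_, ?_⟩
    · rw [det_fin_two_of]; simpa using h1
    · funext j; fin_cases j <;> simp
  · refine ⟨!![0, 1; w 0, w 1], ?_, ?_⟩
    · rw [det_fin_two_of]; simpa using h0
    · funext j; fin_cases j <;> simp

/-- **Singular matrices with singular differences** have a common image line or a common kernel. -/
theorem singular_dichotomy (T : Set (M2 k)) (h1 : ∀ x ∈ T, x.det = 0)
    (h2 : ∀ x ∈ T, ∀ y ∈ T, (x - y).det = 0) :
    (∃ w ≠ 0, ∀ x ∈ T, w ᵥ* x = 0) ∨ ∃ v ≠ 0, ∀ x ∈ T, x *ᵥ v = 0 := by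
  have he : (Pi.single 0 1 : Fin 2 → k) ≠ 0 := fun h =>
    one_ne_zero (α := k) (by simpa using congrFun h 0)
  by_cases hall : ∀ x ∈ T, x = 0
  · exact Or.inl ⟨_, he, fun x hx => by rw [hall x hx, vecMul_zero]⟩
  push Not at hall
  obtain ⟨x₀, hx₀, hx0⟩ := hall
  obtain ⟨v, hv, hxv⟩ := exists_mulVec_eq_zero_iff.mpr (h1 x₀ hx₀)
  obtain ⟨w, hw, hwx⟩ := exists_vecMul_eq_zero_iff.mpr (h1 x₀ hx₀)
  obtain ⟨U, hU, hUw⟩ := exists_row_one hw
  obtain ⟨V', hV', hVv⟩ := exists_row_one hv
  set V := V'ᵀ with hVdef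
  have hV : V.det ≠ 0 := by rwa [hVdef, det_transpose]
  have hrow : ∀ (x : M2 k) j, (U * x * V) 1 j = ((w ᵥ* x) ᵥ* V) j := fun x j => by
    rw [← hUw]
    rfl
  have hcol : ∀ (x : M2 k) i, (U * x * V) i 1 = (U *ᵥ (x *ᵥ v)) i := fun x i => by
    rw [← hVv, Matrix.mul_assoc]
    simp [Matrix.mul_apply, mulVec, dotProduct, hVdef]
  have hw0 : ∀ x : M2 k, (∀ j, (U * x * V) 1 j = 0) → w ᵥ* x = 0 := fun x hx => by
    by_contra hne
    exact hV (exists_vecMul_eq_zero_iff.mp ⟨_, hne, funext fun j => (hrow x j).symm.trans (hx j)⟩)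
  have hv0 : ∀ x : M2 k, (∀ i, (U * x * V) i 1 = 0) → x *ᵥ v = 0 := fun x hx => by
    by_contra hne
    exact hU (exists_mulVec_eq_zero_iff.mp ⟨_, hne, funext fun i => (hcol x i).symm.trans (hx i)⟩)
  -- in the new coordinates `x₀` has one entry
  set c := (U * x₀ * V) 0 0
  have e0 : (U * x₀ * V) 0 1 = 0 ∧ (U * x₀ * V) 1 0 = 0 ∧ (U * x₀ * V) 1 1 = 0 := by
    refine ⟨?_, ?_, ?_⟩
    · rw [hcol, hxv, mulVec_zero]; rfl
    · rw [hrow, hwx, zero_vecMul]; rfl
    · rw [hrow, hwx, zero_vecMul]; rfl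
  have hc : c ≠ 0 := fun hc => hx0 <| by
    have e : U * x₀ * V = 0 := by
      ext i j
      fin_cases i <;> fin_cases j
      exacts [hc, e0.1, e0.2.1, e0.2.2]
    have hUu : IsUnit U.det := isUnit_iff_ne_zero.mpr hU
    have hVu : IsUnit V.det := isUnit_iff_ne_zero.mpr hV
    calc x₀ = U⁻¹ * U * x₀ * (V * V⁻¹) := by
          rw [nonsing_inv_mul U hUu, mul_nonsing_inv V hVu, Matrix.one_mul, Matrix.mul_one]
      _ = U⁻¹ * (U * x₀ * V) * V⁻¹ := by simp only [Matrix.mul_assoc]
      _ = 0 := by rw [e, Matrix.mul_zero, Matrix.zero_mul]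
  have hdet : ∀ x : M2 k, x.det = 0 → (U * x * V).det = 0 := fun x hx => by
    rw [det_mul, det_mul, hx, mul_zero, zero_mul]
  have key : ∀ x ∈ T, (U * x * V) 1 1 = 0 ∧ (U * x * V) 0 1 * (U * x * V) 1 0 = 0 := fun x hx => by
    have a := hdet x (h1 x hx)
    have b := hdet _ (h2 x₀ hx₀ x hx)
    rw [Matrix.mul_sub, Matrix.sub_mul, det_fin_two] at b
    rw [det_fin_two] at a
    simp only [Matrix.sub_apply, e0.1, e0.2.1, e0.2.2, zero_sub] at b
    have h11 : (U * x * V) 1 1 = 0 :=
      mul_left_cancel₀ hc (show c * _ = c * 0 by linear_combination -b + a)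
    exact ⟨h11, by linear_combination -a + (U * x * V) 0 0 * h11⟩
  by_cases hL : ∀ x ∈ T, (U * x * V) 1 0 = 0
  · exact Or.inl ⟨w, hw, fun x hx => hw0 x fun j => by
      fin_cases j
      exacts [hL x hx, (key x hx).1]⟩
  push Not at hL
  obtain ⟨x₁, hx₁, hne⟩ := hL
  refine Or.inr ⟨v, hv, fun x hx => hv0 x fun i => ?_⟩
  fin_cases i
  swap
  · exact (key x hx).1
  show (U * x * V) 0 1 = 0
  by_contra hx01
  have a : (U * x * V) 1 0 = 0 := (mul_eq_zero.mp (key x hx).2).resolve_left hx01
  have a₁ : (U * x₁ * V) 0 1 = 0 := (mul_eq_zero.mp (key x₁ hx₁).2).resolve_right hne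
  have b := hdet _ (h2 x₁ hx₁ x hx)
  rw [Matrix.mul_sub, Matrix.sub_mul, det_fin_two] at b
  simp only [Matrix.sub_apply, (key x hx).1, (key x₁ hx₁).1, a, a₁, zero_sub, sub_zero, mul_zero,
    neg_mul, neg_neg] at b
  exact mul_ne_zero hx01 hne b

end field

/-! ### Lattices -/

variable {p : ℕ} [hp : Fact p.Prime]

local notation "O" => ℤ_[p]

/-- The image of the standard lattice. -/
def rng (A : M2 O) : AddSubgroup (Fin 2 → O) := (Matrix.toLin' A).toAddMonoidHom.range

theorem mem_rng {A : M2 O} {v : Fin 2 → O} : v ∈ rng A ↔ ∃ w, A *ᵥ w = v :=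
  ⟨fun ⟨w, hw⟩ => ⟨w, hw⟩, fun ⟨w, hw⟩ => ⟨w, hw⟩⟩

theorem rng_mul (A B : M2 O) : rng (A * B) = (rng B).map (Matrix.toLin' A).toAddMonoidHom := by
  ext v
  rw [mem_rng, AddSubgroup.mem_map]
  constructor
  · rintro ⟨w, rfl⟩
    exact ⟨B *ᵥ w, mem_rng.mpr ⟨w, rfl⟩, (mulVec_mulVec w A B)⟩
  · rintro ⟨_, hx, rfl⟩
    obtain ⟨w, rfl⟩ := mem_rng.mp hx
    exact ⟨w, (mulVec_mulVec w A B).symm⟩

theorem mulVec_inj {A : M2 O} (hA : A.det ≠ 0) :
    Function.Injective (Matrix.toLin' A).toAddMonoidHom :=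
  (injective_iff_map_eq_zero _).mpr fun v hv => by
    by_contra hne
    exact hA (exists_mulVec_eq_zero_iff.mp ⟨v, hne, hv⟩)

theorem index_rng_mul (A B : M2 O) (hA : A.det ≠ 0) :
    (rng (A * B)).index = (rng B).index * (rng A).index := by
  rw [rng_mul, AddSubgroup.index_map, (AddMonoidHom.ker_eq_bot_iff _).mpr (mulVec_inj hA),
    sup_bot_eq]
  rfl

theorem relIndex_rng_mul (A B : M2 O) (hA : A.det ≠ 0) :
    (rng (A * B)).relIndex (rng A) = (rng B).index := by
  have h : rng A = (⊤ : AddSubgroup _).map (Matrix.toLin' A).toAddMonoidHom :=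
    (AddMonoidHom.range_eq_map _)
  rw [rng_mul, h, AddSubgroup.relIndex_map_map_of_injective _ _ (mulVec_inj hA),
    AddSubgroup.relIndex_top_right]

theorem index_rng_of_isUnit {A : M2 O} (hA : IsUnit A.det) : (rng A).index = 1 := by
  rw [AddSubgroup.index_eq_one, eq_top_iff]
  exact fun v _ => mem_rng.mpr ⟨A⁻¹ *ᵥ v, by rw [mulVec_mulVec, mul_nonsing_inv A hA, one_mulVec]⟩

/-- Scaling the coordinate `i` by `p`. -/
def scale (i : Fin 2) : M2 O := Matrix.diagonal fun j => if j = i then (p : O) else 1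

theorem scale_mulVec (i j : Fin 2) (v : Fin 2 → O) :
    (scale i *ᵥ v) j = (if j = i then (p : O) else 1) * v j := by
  rw [scale, mulVec_diagonal]

theorem det_scale (i : Fin 2) : (scale (p := p) i).det = p := by
  rw [scale, det_diagonal, Fin.prod_univ_two]
  fin_cases i <;> simp

theorem index_scale (i : Fin 2) : (rng (scale (p := p) i)).index = p := by
  let f : (Fin 2 → O) →+ ZMod p :=
    (PadicInt.toZMod (p := p)).toAddMonoidHom.comp (Pi.evalAddMonoidHom (fun _ : Fin 2 => O) i)
  have hf : rng (scale i) = f.ker := by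
    ext v
    rw [mem_rng, AddMonoidHom.mem_ker]
    show _ ↔ PadicInt.toZMod (v i) = 0
    rw [← RingHom.mem_ker, PadicInt.ker_toZMod, PadicInt.maximalIdeal_eq_span_p,
      Ideal.mem_span_singleton']
    constructor
    · rintro ⟨w, rfl⟩
      exact ⟨w i, by rw [scale_mulVec, if_pos rfl, mul_comm]⟩
    · rintro ⟨z, hz⟩
      refine ⟨fun j => if j = i then z else v j, funext fun j => ?_⟩
      rw [scale_mulVec]
      by_cases h : j = i
      · rw [if_pos h, if_pos h, mul_comm, hz, h]
      · rw [if_neg h, if_neg h, one_mul]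
  have hsurj : Function.Surjective f := fun c =>
    ⟨Pi.single i (c.val : O), by
      show PadicInt.toZMod ((Pi.single i (c.val : O) : Fin 2 → O) i) = c
      rw [Pi.single_eq_same, map_natCast, ZMod.natCast_zmod_val]⟩
  rw [hf, AddSubgroup.index_ker, AddMonoidHom.range_eq_top.mpr hsurj, AddSubgroup.card_top,
    Nat.card_zmod]

theorem scale_zero_mul_scale_one :
    scale (p := p) 0 * scale 1 = (p : O) • (1 : M2 O) := by
  rw [scale, scale, diagonal_mul_diagonal, ← diagonal_one, ← diagonal_smul]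
  congr 1
  funext j
  fin_cases j <;> simp

theorem scale_one_mul_scale_zero :
    scale (p := p) 1 * scale 0 = (p : O) • (1 : M2 O) := by
  rw [scale, scale, diagonal_mul_diagonal, ← diagonal_one, ← diagonal_smul]
  congr 1
  funext j
  fin_cases j <;> simp

theorem exists_eq_scale_mul {Z : M2 O} {i : Fin 2} (h : ∀ j, PadicInt.toZMod (Z i j) = 0) :
    ∃ Y, Z = scale i * Y := by
  have h' : ∀ j, ∃ z, z * (p : O) = Z i j := fun j => by
    have := RingHom.mem_ker.mpr (h j)
    rwa [PadicInt.ker_toZMod, PadicInt.maximalIdeal_eq_span_p, Ideal.mem_span_singleton'] at this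
  choose z hz using h'
  refine ⟨Matrix.of fun a b => if a = i then z b else Z a b, ?_⟩
  ext a b
  rw [scale, diagonal_mul, of_apply]
  by_cases ha : a = i
  · rw [if_pos ha, if_pos ha, mul_comm, hz, ha]
  · rw [if_neg ha, if_neg ha, one_mul]

theorem exists_lift (Ub : M2 (ZMod p)) :
    ∃ U : M2 O, U.map PadicInt.toZMod = Ub ∧ (Ub.det ≠ 0 → IsUnit U.det) := by
  refine ⟨Matrix.of fun a b => ((Ub a b).val : O), ?_, fun h => ?_⟩
  · ext a b
    simp
  · by_contra hu
    rw [← mem_nonunits_iff, ← IsLocalRing.mem_maximalIdeal, ← PadicInt.ker_toZMod, RingHom.mem_ker,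
      RingHom.map_det] at hu
    refine h ?_
    convert hu using 2
    ext a b
    simp

/-- **Katz's lemma**: if `p ^ n` divides all these determinants, the matrices map the lattice of
some `P` into that of `P * R`, of index `p ^ n` in it. -/
theorem exists_lattices (S : Set (M2 O)) (n : ℕ) (h1 : ∀ X ∈ S, (p : O) ^ n ∣ X.det)
    (h2 : ∀ X ∈ S, ∀ Y ∈ S, (p : O) ^ n ∣ (X - Y).det) :
    ∀ m ≤ n, ∃ P R : M2 O, P.det ≠ 0 ∧ (∃ u : Oˣ, R.det = u * (p : O) ^ m) ∧
      (rng R).index = p ^ m ∧ ∀ X ∈ S, ∃ Y, X * P = P * R * Y := by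
  intro m
  induction m with
  | zero =>
    exact fun _ => ⟨1, 1, by simp, ⟨1, by simp⟩, by rw [pow_zero, index_rng_of_isUnit (by simp)],
      fun X _ => ⟨X, by simp⟩⟩
  | succ m ih =>
    intro hm
    obtain ⟨P, R, hP, ⟨u, hu⟩, hidx, hY⟩ := ih (by omega)
    choose! Y hY using hY
    have hp0 : (p : O) ≠ 0 := Nat.cast_ne_zero.mpr hp.out.ne_zero
    have hdiv : ∀ (X Z : M2 O), X * P = P * R * Z → (p : O) ^ n ∣ X.det →
        PadicInt.toZMod Z.det = 0 := fun X Z e hX => by
      have e' := congrArg Matrix.det e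
      rw [det_mul, det_mul, det_mul, hu] at e'
      have e'' : X.det = (u : O) * (p : O) ^ m * Z.det :=
        mul_right_cancel₀ hP (by linear_combination e')
      obtain ⟨c, hc⟩ := (pow_dvd_pow (p : O) hm).trans hX
      rw [← RingHom.mem_ker, PadicInt.ker_toZMod, PadicInt.maximalIdeal_eq_span_p,
        Ideal.mem_span_singleton]
      refine ⟨(u⁻¹ : Oˣ) * c, mul_left_cancel₀ (mul_ne_zero u.ne_zero (pow_ne_zero m hp0)) ?_⟩
      rw [← e'', hc, pow_succ]
      linear_combination -((p : O) ^ m * p * c) * u.mul_inv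
    rcases singular_dichotomy ((fun X => (Y X).map PadicInt.toZMod) '' S)
      (by
        rintro _ ⟨X, hX, rfl⟩
        show ((Y X).map PadicInt.toZMod).det = 0
        rw [← RingHom.mapMatrix_apply, ← RingHom.map_det]
        exact hdiv X _ (hY X hX) (h1 X hX))
      (by
        rintro _ ⟨X, hX, rfl⟩ _ ⟨X', hX', rfl⟩
        show ((Y X).map PadicInt.toZMod - (Y X').map PadicInt.toZMod).det = 0
        rw [← RingHom.mapMatrix_apply, ← RingHom.mapMatrix_apply, ← map_sub, ← RingHom.map_det]
        exact hdiv (X - X') _ (by rw [sub_mul, mul_sub, hY X hX, hY X' hX']) (h2 X hX X' hX')) with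
      ⟨w, hw, hwY⟩ | ⟨v, hv, hvY⟩
    · obtain ⟨Ub, hUb, hUw⟩ := exists_row_one hw
      obtain ⟨U, hUm, hU⟩ := exists_lift Ub
      specialize hU hUb
      refine ⟨P, R * U⁻¹ * scale 1, hP, ?_, ?_, fun X hX => ?_⟩
      · obtain ⟨a, ha⟩ := U.isUnit_nonsing_inv_det hU
        exact ⟨u * a, by rw [det_mul, det_mul, hu, det_scale, ← ha, Units.val_mul]; ring⟩
      · rw [index_rng_mul _ _ (by
          rw [det_mul]
          exact mul_ne_zero (by rw [hu]; exact mul_ne_zero u.ne_zero (pow_ne_zero m hp0))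
            (U.isUnit_nonsing_inv_det hU).ne_zero),
          index_rng_mul R _ (by rw [hu]; exact mul_ne_zero u.ne_zero (pow_ne_zero m hp0)),
          index_rng_of_isUnit (U.isUnit_nonsing_inv_det hU), one_mul, index_scale, hidx, pow_succ,
          mul_comm]
      · obtain ⟨Y', hY'⟩ := exists_eq_scale_mul (Z := U * Y X) (i := 1) fun j => by
          have := congrFun (hwY _ ⟨X, hX, rfl⟩) j
          rw [← hUw] at this
          rw [← Matrix.map_apply (f := PadicInt.toZMod), Matrix.map_mul, hUm]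
          exact this
        refine ⟨Y', ?_⟩
        rw [hY X hX]
        conv_lhs => rw [← Matrix.one_mul (Y X), ← nonsing_inv_mul U hU, Matrix.mul_assoc U⁻¹, hY']
        simp only [Matrix.mul_assoc]
    · obtain ⟨Vb, hVb, hVv⟩ := exists_row_one hv
      obtain ⟨V, hVm, hV⟩ := exists_lift Vbᵀ
      specialize hV (by rwa [det_transpose])
      -- the kernel is the second column of `V`
      refine ⟨P * V * scale 0, scale 1 * V⁻¹ * R, ?_, ?_, ?_, fun X hX => ?_⟩
      · rw [det_mul, det_mul, det_scale]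
        exact mul_ne_zero (mul_ne_zero hP hV.ne_zero) hp0
      · obtain ⟨a, ha⟩ := V.isUnit_nonsing_inv_det hV
        exact ⟨a * u, by rw [det_mul, det_mul, hu, det_scale, ← ha, Units.val_mul]; ring⟩
      · rw [index_rng_mul _ _ (by
          rw [det_mul, det_scale]
          exact mul_ne_zero hp0 (V.isUnit_nonsing_inv_det hV).ne_zero),
          index_rng_mul (scale 1) _ (by rw [det_scale]; exact hp0),
          index_rng_of_isUnit (V.isUnit_nonsing_inv_det hV), one_mul, index_scale, hidx,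
          pow_succ]
      · obtain ⟨Y', hY'⟩ := exists_eq_scale_mul (Z := (Y X * V)ᵀ) (i := 1) fun j => by
          have := congrFun (hvY _ ⟨X, hX, rfl⟩) j
          rw [transpose_apply, ← Matrix.map_apply (f := PadicInt.toZMod), Matrix.map_mul, hVm]
          rw [← hVv] at this
          exact this
        refine ⟨Y'ᵀ, ?_⟩
        have e : Y X * V = Y'ᵀ * scale 1 := by
          rw [← transpose_transpose (Y X * V), hY', transpose_mul]
          congr 1
          rw [scale, diagonal_transpose]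
        calc X * (P * V * scale 0) = X * P * (V * scale 0) := by simp only [Matrix.mul_assoc]
          _ = P * R * (Y X * V) * scale 0 := by rw [hY X hX]; simp only [Matrix.mul_assoc]
          _ = P * R * ((p : O) • Y'ᵀ) := by
            rw [e]
            simp only [Matrix.mul_assoc, scale_one_mul_scale_zero, Matrix.mul_smul, Matrix.mul_one]
          _ = P * V * ((p : O) • (1 : M2 O)) * V⁻¹ * R * Y'ᵀ := by
            simp only [Matrix.mul_smul, Matrix.smul_mul, Matrix.mul_one]
            rw [Matrix.mul_assoc P V, mul_nonsing_inv V hV, Matrix.mul_one]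
          _ = P * V * scale 0 * (scale 1 * V⁻¹ * R) * Y'ᵀ := by
            rw [← scale_zero_mul_scale_one]
            simp only [Matrix.mul_assoc]

end FA.Katz

end
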