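import Fermat.Agent.ReducedGroups.JFibre
import Fermat.Agent.Carayol.Hasse.Count

/-!
# The Hasse invariant of a short equation and Deuring's bound

Modulo `q = 2 m + 1` the trace of `y² = x³ + a x + b` is the coefficient of `x ^ (2 m)` in
`(x³ + a x + b) ^ m`. On `(c, c)` it is `c ^ ⌈m/3⌉` times a nonzero polynomial in `c` of degree at
most `m / 6`, so at most `q / 12 + 2` values of `j` are supersingular.
-/

set_option autoImplicit false
set_option linter.style.haveILetI false

noncomputable section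

open Polynomial WeierstrassCurve
open scoped Classical

namespace FA.ReducedGroups

variable {q : ℕ} [hq : Fact q.Prime]

/-- The Hasse invariant. -/
def hasseShort (a b : ZMod q) : ZMod q :=
  ((X ^ 3 + C a * X + C b : (ZMod q)[X]) ^ (q / 2)).coeff (q - 1)

/-- The character sum modulo `q`. -/
theorem charSum_cast (h5 : 5 ≤ q) (a b : ZMod q) :
    ((FA.BirchMoment.charSum a b : ℤ) : ZMod q) = -hasseShort a b := by
  obtain ⟨m, hm⟩ := hq.out.odd_of_ne_two (by omega)
  have hdeg : ((X ^ 3 + C a * X + C b : (ZMod q)[X]) ^ (q / 2)).natDegree <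
      2 * (Fintype.card (ZMod q) - 1) := by
    refine natDegree_pow_le.trans_lt ?_
    have h3 : (X ^ 3 + C a * X + C b : (ZMod q)[X]).natDegree ≤ 3 := by compute_degree
    have := Nat.mul_le_mul_left (q / 2) h3
    rw [ZMod.card]
    omega
  rw [FA.BirchMoment.charSum, Int.cast_sum, hasseShort]
  refine (Finset.sum_congr rfl fun x _ => ?_).trans
    ((FA.Carayol.sum_eval_eq_neg_coeff _ hdeg).trans (by rw [ZMod.card]))
  rw [quadraticChar_eq_pow_of_char_ne_two' (FA.BirchMoment.ringChar_ne_two h5), ZMod.card]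
  simp

/-- **The trace is the Hasse invariant modulo `q`.** -/
theorem trace_cast_eq_hasseShort (h5 : 5 ≤ q) {a b : ZMod q} (h : 4 * a ^ 3 + 27 * b ^ 2 ≠ 0) :
    (((FA.BirchMoment.shortMod a b).traceOfFrobenius : ℤ) : ZMod q) = hasseShort a b := by
  rw [FA.BirchMoment.traceOfFrobenius_eq h5 h, Int.cast_neg, charSum_cast h5, neg_neg]

/-- Twisting by `s` multiplies by a sign. -/
theorem charSum_scale (c : ZMod q) {s : ZMod q} (hs : s ≠ 0) :
    FA.BirchMoment.charSum (c * s ^ 2) (c * s ^ 3) = FA.BirchMoment.charSum c c ∨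
      FA.BirchMoment.charSum (c * s ^ 2) (c * s ^ 3) = -FA.BirchMoment.charSum c c := by
  have e : FA.BirchMoment.charSum (c * s ^ 2) (c * s ^ 3) =
      quadraticChar (ZMod q) (s ^ 3) * FA.BirchMoment.charSum c c := by
    rw [FA.BirchMoment.charSum, FA.BirchMoment.charSum, Finset.mul_sum]
    refine (Fintype.sum_equiv (Equiv.mulLeft₀ s hs) _ _ fun x => ?_).symm
    rw [← map_mul]
    congr 1
    show _ = (s * x) ^ 3 + c * s ^ 2 * (s * x) + c * s ^ 3
    ring
  rcases quadraticChar_dichotomy (pow_ne_zero 3 hs) with h | h <;> rw [h] at e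
  · exact Or.inl (by rw [e, one_mul])
  · exact Or.inr (by rw [e, neg_one_mul])

/-- The coefficient of `c ^ n` in `hasseShort c c`. -/
def diagCoeff (m n : ℕ) : ℕ := if m ≤ 3 * n then m.choose n * n.choose (3 * n - m) else 0

theorem diagCoeff_eq_zero {m n : ℕ} (h : m < 2 * n) : diagCoeff m n = 0 := by
  unfold diagCoeff
  split_ifs
  · rw [Nat.choose_eq_zero_of_lt (show n < 3 * n - m by omega), mul_zero]
  · rfl

theorem hasseShort_diag (h5 : 5 ≤ q) (c : ZMod q) :
    hasseShort c c = ∑ n ∈ Finset.range (q / 2 + 1), (diagCoeff (q / 2) n : ZMod q) * c ^ n := by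
  obtain ⟨m, hm⟩ := hq.out.odd_of_ne_two (by omega)
  rw [show q / 2 = m by omega, hasseShort, show q / 2 = m by omega,
    show (X ^ 3 + C c * X + C c : (ZMod q)[X]) = C c * (X + 1) + X ^ 3 by ring, add_pow,
    finsetSum_coeff]
  refine Finset.sum_congr rfl fun n hn => ?_
  rw [Finset.mem_range] at hn
  rw [mul_pow, ← C_pow, ← pow_mul, show C (c ^ n) * (X + 1) ^ n * X ^ (3 * (m - n)) *
      (m.choose n : (ZMod q)[X]) = C (c ^ n * (m.choose n : ZMod q)) *
        ((X + 1) ^ n * X ^ (3 * (m - n))) by rw [C_mul, map_natCast]; ring,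
    coeff_C_mul, coeff_mul_X_pow', diagCoeff]
  split_ifs with h1 h2 h3
  · rw [coeff_X_add_one_pow, show q - 1 - 3 * (m - n) = 3 * n - m by omega]
    push_cast; ring
  · omega
  · omega
  · simp

theorem diagCoeff_half_ne_zero (h5 : 5 ≤ q) :
    (diagCoeff (q / 2) (q / 2 / 2) : ZMod q) ≠ 0 := by
  rw [ne_eq, ZMod.natCast_eq_zero_iff, diagCoeff, if_pos (by omega)]
  have hch : ∀ {N K : ℕ}, K ≤ N → N < q → ¬ q ∣ N.choose K := fun {N K} hK hN hd => by
    have h := Nat.choose_mul_factorial_mul_factorial hK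
    exact absurd ((hq.out.dvd_factorial).mp (h ▸ (hd.mul_right _).mul_right _)) (by omega)
  exact fun hd => (hq.out.dvd_mul.mp hd).elim (hch (by omega) (by omega)) (hch (by omega) (by omega))

/-- The values of `c` with Hasse invariant `t`. -/
def diagLevel (t : ZMod q) : Finset (ZMod q) :=
  Finset.univ.filter fun c => c ≠ 0 ∧ hasseShort c c = t

/-- **At most `(q - 1) / 12` zeros.** -/
theorem card_diagLevel_zero (h5 : 5 ≤ q) : 12 * (diagLevel (0 : ZMod q)).card ≤ q - 1 := by
  obtain ⟨m, hm⟩ := hq.out.odd_of_ne_two (by omega)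
  have hm' : q / 2 = m := by omega
  set n₀ := (m + 2) / 3
  set d := m / 2 - n₀
  set K : (ZMod q)[X] := ∑ i ∈ Finset.range (d + 1), C (diagCoeff m (n₀ + i) : ZMod q) * X ^ i
  have hd : n₀ + d = m / 2 := by omega
  have hK0 : K ≠ 0 := fun e => diagCoeff_half_ne_zero h5 (by
    have h := congrArg (fun p => coeff p d) e
    simpa [K, hm', ← hd, coeff_C_mul_X_pow, finsetSum_coeff] using h)
  have hKd : K.natDegree ≤ d := natDegree_sum_le_of_forall_le _ _ fun i hi =>
    (natDegree_C_mul_X_pow_le _ _).trans (Nat.lt_succ_iff.mp (Finset.mem_range.mp hi))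
  have heval : ∀ c, hasseShort c c = c ^ n₀ * K.eval c := fun c => by
    rw [hasseShort_diag h5, hm', eval_finsetSum, Finset.mul_sum,
      ← Finset.sum_subset (s₁ := Finset.Ico n₀ (n₀ + d + 1)) (fun x hx => by
        simp only [Finset.mem_Ico, Finset.mem_range] at hx ⊢; omega) fun n hn hn' => by
        simp only [Finset.mem_Ico, Finset.mem_range] at hn hn'
        rcases le_or_gt n₀ n with h | h
        · rw [diagCoeff_eq_zero (by omega), Nat.cast_zero, zero_mul]
        · rw [diagCoeff, if_neg (by omega), Nat.cast_zero, zero_mul],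
      Finset.sum_Ico_eq_sum_range, show n₀ + d + 1 - n₀ = d + 1 by omega]
    refine Finset.sum_congr rfl fun i _ => ?_
    rw [eval_C_mul, eval_X_pow, pow_add]
    ring
  have hsub : diagLevel (0 : ZMod q) ⊆ K.roots.toFinset := fun c hc => by
    simp only [diagLevel, Finset.mem_filter, Finset.mem_univ, true_and, heval, mul_eq_zero] at hc
    rw [Multiset.mem_toFinset, mem_roots hK0]
    exact hc.2.resolve_left (pow_ne_zero _ hc.1)
  have := (Finset.card_le_card hsub).trans
    ((Multiset.toFinset_card_le _).trans ((card_roots' K).trans hKd))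
  omega

/-- At most `(q - 1) / 4` points on any other level. -/
theorem card_diagLevel (h5 : 5 ≤ q) {t : ZMod q} (ht : t ≠ 0) :
    4 * (diagLevel t).card ≤ q - 1 := by
  obtain ⟨m, hm⟩ := hq.out.odd_of_ne_two (by omega)
  have hm' : q / 2 = m := by omega
  set H : (ZMod q)[X] := (∑ n ∈ Finset.range (m + 1), C (diagCoeff m n : ZMod q) * X ^ n) - C t
  have hH0 : H ≠ 0 := fun e => ht (by
    have h := congrArg (fun p => coeff p 0) e
    simpa [H, finsetSum_coeff, coeff_C_mul_X_pow, diagCoeff,
      show ¬ m ≤ 0 by omega] using h)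
  have hHd : H.natDegree ≤ m / 2 := by
    refine (natDegree_sub_le _ _).trans (max_le (natDegree_sum_le_of_forall_le _ _ fun n _ => ?_)
      (by rw [natDegree_C]; omega))
    rcases le_or_gt n (m / 2) with h | h
    · exact (natDegree_C_mul_X_pow_le _ _).trans h
    · rw [diagCoeff_eq_zero (by omega), Nat.cast_zero, C_0, zero_mul, natDegree_zero]; omega
  have hsub : diagLevel t ⊆ H.roots.toFinset := fun c hc => by
    simp only [diagLevel, Finset.mem_filter, Finset.mem_univ, true_and] at hc
    rw [Multiset.mem_toFinset, mem_roots hH0]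
    simp [H, IsRoot, eval_finsetSum, ← hc.2, hasseShort_diag h5, hm']
  have := (Finset.card_le_card hsub).trans
    ((Multiset.toFinset_card_le _).trans ((card_roots' H).trans hHd))
  omega

/-- The invariants of the curves with trace `t` modulo `q`. -/
def traceInvariants (t : ZMod q) : Finset (ZMod q) :=
  Finset.univ.filter fun j =>
    ∃ V : WeierstrassCurve (ZMod q), V.Δ ≠ 0 ∧ V.c₄ ^ 3 / V.Δ = j ∧
      ((V.traceOfFrobenius : ℤ) : ZMod q) = t

/-- The invariants come from the two levels `± t`. -/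
theorem traceInvariants_subset (h5 : 5 ≤ q) (t : ZMod q) :
    traceInvariants t ⊆ insert 0 (insert 1728
      ((diagLevel t ∪ diagLevel (-t)).image fun c => 6912 * c / (4 * c + 27))) := by
  intro j hj
  obtain ⟨V, hV, hjV, htV⟩ := (Finset.mem_filter.mp hj).2
  obtain ⟨⟨⟨r, u, w⟩, a, b⟩, hx⟩ := (bijective_fromShort h5).2 V
  simp only [fromShort] at hx
  rw [← hx, variableChange_Δ] at hV
  have hD : 4 * a ^ 3 + 27 * b ^ 2 ≠ 0 := fun e => hV (by
    rw [FA.BirchMoment.shortMod_Δ, e, mul_zero, mul_zero])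
  haveI : (FA.BirchMoment.shortMod a b).IsElliptic :=
    ⟨(FA.BirchMoment.shortMod_Δ_ne_zero h5 hD).isUnit⟩
  rw [← hx, variableChange_c₄, variableChange_Δ, inv_one, Units.val_one, one_pow, one_pow, one_mul,
    one_mul] at hjV
  rw [← hx, traceOfFrobenius_variableChange, trace_cast_eq_hasseShort h5 hD] at htV
  have hmem : (a, b) ∈ jFibre j := by
    refine mem_jFibre.mpr ⟨hD, ?_⟩
    rw [div_eq_iff (FA.BirchMoment.shortMod_Δ_ne_zero h5 hD), FA.BirchMoment.shortMod_Δ,
      show (FA.BirchMoment.shortMod a b).c₄ ^ 3 = -16 * (6912 * a ^ 3) by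
        simp only [WeierstrassCurve.c₄, WeierstrassCurve.b₂, WeierstrassCurve.b₄]; ring] at hjV
    have h16 : (-16 : ZMod q) ≠ 0 := by
      have := natCast_ne_zero_of_smooth (q := q) h5 4 0
      norm_num at this
      exact neg_ne_zero.mpr this
    exact mul_left_cancel₀ h16 (by linear_combination hjV)
  simp only [Finset.mem_insert, Finset.mem_image, Finset.mem_union]
  rcases jFibre_cases h5 j with ⟨e, -⟩ | ⟨e, -⟩ | ⟨c, hc, e⟩
  · exact Or.inl e
  · exact Or.inr (Or.inl e)
  rw [e, Finset.mem_image] at hmem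
  obtain ⟨s, hs, hs'⟩ := hmem
  obtain ⟨rfl, rfl⟩ := Prod.mk.inj hs'
  have hs0 : s ≠ 0 := Finset.ne_of_mem_erase hs
  refine Or.inr (Or.inr ⟨c, ?_, ?_⟩)
  · simp only [diagLevel, Finset.mem_filter, Finset.mem_univ, true_and]
    have hcc := charSum_cast h5 c c
    have hsc := charSum_cast h5 (c * s ^ 2) (c * s ^ 3)
    rw [htV] at hsc
    rcases charSum_scale c hs0 with h | h <;> rw [h] at hsc
    · exact Or.inl ⟨hc, neg_injective (hcc.symm.trans hsc)⟩
    · rw [Int.cast_neg, hcc, neg_neg] at hsc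
      exact Or.inr ⟨hc, hsc⟩
  · have h' : c ^ 2 * s ^ 6 * (4 * c + 27) ≠ 0 := fun e0 => hD (by linear_combination e0)
    obtain ⟨-, hcoef⟩ := mem_jFibre.mp (show (c * s ^ 2, c * s ^ 3) ∈ jFibre j by
      rw [e]; exact Finset.mem_image.mpr ⟨s, hs, rfl⟩)
    rw [div_eq_iff (mul_ne_zero_iff.mp h').2]
    exact mul_left_cancel₀ (mul_ne_zero (pow_ne_zero 2 hc) (pow_ne_zero 6 hs0))
      (by linear_combination hcoef)

/-- **Deuring's bound.** -/
theorem card_supersingularInvariants (h5 : 5 ≤ q) :
    12 * (traceInvariants (0 : ZMod q)).card ≤ q + 23 := by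
  have h := Finset.card_le_card (traceInvariants_subset h5 (0 : ZMod q))
  rw [neg_zero, Finset.union_self] at h
  have h1 := Finset.card_insert_le (0 : ZMod q) (insert 1728
    ((diagLevel (0 : ZMod q)).image fun c => 6912 * c / (4 * c + 27)))
  have h2 := Finset.card_insert_le (1728 : ZMod q)
    ((diagLevel (0 : ZMod q)).image fun c => 6912 * c / (4 * c + 27))
  have h3 := Finset.card_image_le (s := diagLevel (0 : ZMod q))
    (f := fun c => 6912 * c / (4 * c + 27))
  have h4 := card_diagLevel_zero (q := q) h5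
  omega

/-- No trace modulo `q` lives on many more than half of the invariants. -/
theorem card_traceInvariants (h5 : 5 ≤ q) {t : ZMod q} (ht : t ≠ 0) :
    2 * (traceInvariants t).card ≤ q + 3 := by
  have h := Finset.card_le_card (traceInvariants_subset h5 t)
  have h1 := Finset.card_insert_le (0 : ZMod q) (insert 1728
    ((diagLevel t ∪ diagLevel (-t)).image fun c => 6912 * c / (4 * c + 27)))
  have h2 := Finset.card_insert_le (1728 : ZMod q)
    ((diagLevel t ∪ diagLevel (-t)).image fun c => 6912 * c / (4 * c + 27))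
  have h3 := Finset.card_image_le (s := diagLevel t ∪ diagLevel (-t))
    (f := fun c => 6912 * c / (4 * c + 27))
  have h4 := card_diagLevel (q := q) h5 ht
  have h6 := card_diagLevel (q := q) h5 (neg_ne_zero.mpr ht)
  have h7 := Finset.card_union_le (diagLevel t) (diagLevel (-t))
  omega

end FA.ReducedGroups

end
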