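import Mathlib

/-!
# Representations `4 q = a ^ 2 + D b ^ 2` and sequences with two possible successors

A prime has at most one trace up to sign at a field of discriminant `-D ≡ 5 (mod 8)`, `D ≠ 3`; a
periodic sequence in which `p, q` is followed by `p` or by `2 q + 2 - p` has period dividing two.
-/

set_option autoImplicit false

namespace FA.ReducedGroups

/-- An odd `a` in `4 q = a ^ 2 + D b ^ 2`, `q` odd, forces `D ≡ 3 (mod 8)`. -/
theorem emod_eight_of_norm {D a b q : ℤ} (ha : Odd a) (hq : Odd q)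
    (h : 4 * q = a ^ 2 + D * b ^ 2) : D % 8 = 3 := by
  obtain ⟨r, hr⟩ := ha
  obtain ⟨s, hs⟩ := hq
  rcases Int.even_or_odd b with ⟨t, ht⟩ | ⟨t, ht⟩
  · subst hr hs ht
    ring_nf at h
    omega
  · obtain ⟨u, hu⟩ := Int.even_mul_succ_self r
    obtain ⟨v, hv⟩ := Int.even_mul_succ_self t
    subst hr hs ht
    have e : 4 * (2 * s + 1) = 8 * u + 1 + D * (8 * v + 1) := by linear_combination h + 4 * hu + 4 * D * hv
    ring_nf at e
    omega

/-- **Uniqueness of the trace.** -/
theorem sq_eq_of_norm {D q a b a' b' : ℤ} (hq : Prime q) (hq0 : 0 < q) (h8 : D % 8 = 3)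
    (hD : 3 < D) (h : 4 * q = a ^ 2 + D * b ^ 2) (h' : 4 * q = a' ^ 2 + D * b' ^ 2) :
    a ^ 2 = a' ^ 2 := by
  have key : ∀ c : ℤ, c ^ 2 = b' ^ 2 → q ∣ a * c - a' * b → a ^ 2 = a' ^ 2 := by
    rintro c hc ⟨x, hx⟩
    have hid : (4 * q) * (4 * q) = (a * a' + D * b * c) ^ 2 + D * (q * x) ^ 2 := by
      rw [← hx]
      linear_combination 4 * q * h + (a ^ 2 + D * b ^ 2) * h' - D * (a ^ 2 + D * b ^ 2) * hc
    obtain ⟨y, hy⟩ : q ∣ a * a' + D * b * c :=
      hq.dvd_of_dvd_pow (n := 2) ⟨16 * q - D * q * x ^ 2, by linear_combination -hid⟩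
    rw [hy] at hid
    have hxy : 16 = y ^ 2 + D * x ^ 2 :=
      mul_left_cancel₀ (pow_ne_zero 2 hq0.ne') (by linear_combination hid)
    have hx0 : x = 0 := by
      by_contra hx0
      have hx1 : 1 ≤ x ^ 2 := by
        have : 0 < x ^ 2 := by positivity
        omega
      have hD' : D = 11 := by
        have : D ≤ 16 := by nlinarith [sq_nonneg y]
        omega
      subst hD'
      have hx2 : x ^ 2 = 1 := by nlinarith [sq_nonneg y]
      have hy5 : y ^ 2 = 5 := by linarith
      have : -3 < y ∧ y < 3 := ⟨by nlinarith, by nlinarith⟩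
      obtain ⟨h1, h2⟩ := this
      interval_cases y <;> norm_num at hy5
    rw [hx0, mul_zero, sub_eq_zero] at hx
    have h4 : (4 * q) * (b' ^ 2 - b ^ 2) = 0 := by
      have e := congrArg (· ^ 2) hx
      simp only [mul_pow, hc] at e
      linear_combination b' ^ 2 * h - b ^ 2 * h' + e
    rcases mul_eq_zero.mp h4 with h4 | h4
    · linarith
    · have : b' ^ 2 = b ^ 2 := by linarith
      rw [this] at h'
      linarith
  have hprod : q ∣ (a * b' - a' * b) * (a * -b' - a' * b) :=
    ⟨-4 * (b' ^ 2 - b ^ 2), by linear_combination b' ^ 2 * h - b ^ 2 * h'⟩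
  rcases hq.dvd_or_dvd hprod with h1 | h1
  · exact key b' rfl h1
  · exact key (-b') (neg_sq b') h1

/-- **No long cycles**: a periodic integer sequence in which every pair `p, q` is followed by `p` or
by `2 q + 2 - p`, and every term by a determined one, has period dividing two. -/
theorem period_two {f : ℕ → ℤ} {n : ℕ} (hn : 0 < n) (hper : ∀ i, f (i + n) = f i)
    (hdet : ∀ i j, f i = f j → f (i + 1) = f (j + 1))
    (hstep : ∀ i, f (i + 2) = f i ∨ f (i + 2) = 2 * f (i + 1) + 2 - f i) :
    ∀ i, f (i + 2) = f i := by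
  have hper' : ∀ k i, f (i + k * n) = f i := fun k => by
    induction k with
    | zero => simp
    | succ k ih => exact fun i => by rw [add_mul, one_mul, ← add_assoc, hper, ih]
  have hmove : ∀ i j, f i = f j → ∀ k, f (i + k) = f (j + k) := fun i j e k => by
    induction k with
    | zero => exact e
    | succ k ih => exact hdet _ _ ih
  by_contra hne
  push Not at hne
  obtain ⟨i₀, hi₀⟩ := hne
  have hall : ∀ j, f (j + 2) = 2 * f (j + 1) + 2 - f j := by
    refine fun j => (hstep j).resolve_left fun e => hi₀ ?_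
    have hle : j ≤ i₀ + (j + 1) * n := by nlinarith
    have := hmove _ _ e (i₀ + (j + 1) * n - j)
    rwa [show j + 2 + (i₀ + (j + 1) * n - j) = i₀ + 2 + (j + 1) * n by omega,
      show j + (i₀ + (j + 1) * n - j) = i₀ + (j + 1) * n by omega, hper', hper'] at this
  have hdiff : ∀ k : ℕ, f (k + 1) - f k = f 1 - f 0 + 2 * k := fun k => by
    induction k with
    | zero => simp
    | succ k ih => rw [hall]; push_cast; linarith
  have h := hdiff n
  have e0 := hper 0
  rw [zero_add] at e0
  rw [e0, add_comm n 1, hper] at h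
  have : (0 : ℤ) < n := by exact_mod_cast hn
  linarith

end FA.ReducedGroups
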