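import Fermat.Agent.ReducedGroups.Structure
import Fermat.Agent.Twists.Count

/-!
# Points of order two, and the two supersingular CM families over a prime field
-/

set_option autoImplicit false
set_option linter.style.haveILetI false
set_option linter.unusedSectionVars false

noncomputable section

open WeierstrassCurve FA.Frob
open scoped WeierstrassCurve.Affine Classical

namespace FA.ReducedGroups

/-- `y² = x³ + k x + b`. -/
def shortKB {R : Type*} [CommRing R] (k b : R) : WeierstrassCurve R := ⟨0, 0, 0, k, b⟩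

/-- A group `ℤ/2 × ℤ/2t` has two points of order two. -/
theorem false_of_equiv_two_mul {G : Type*} [AddCommGroup G] {m t : ℕ} (ht : 0 < t) (hm : m = 2 * t)
    (φ : G ≃+ ZMod 2 × ZMod m)
    (huniq : ∀ {P Q : G}, 2 • P = 0 → 2 • Q = 0 → P ≠ 0 → Q ≠ 0 → P = Q) : False := by
  subst hm
  have h01 : (0, (t : ZMod (2 * t))) ≠ (0 : ZMod 2 × ZMod (2 * t)) := fun e => by
    have e' : (t : ZMod (2 * t)) = 0 := congrArg Prod.snd e
    rw [ZMod.natCast_eq_zero_iff] at e'
    have := Nat.le_of_dvd ht e'
    omega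
  have e := huniq (P := φ.symm (1, 0)) (Q := φ.symm (0, (t : ZMod (2 * t))))
    (by rw [← map_nsmul, show 2 • ((1 : ZMod 2), (0 : ZMod (2 * t))) = 0 from
      Prod.ext (show 2 • (1 : ZMod 2) = 0 by decide) (nsmul_zero 2), map_zero])
    (by rw [← map_nsmul, show 2 • ((0 : ZMod 2), (t : ZMod (2 * t))) = 0 from
      Prod.ext (nsmul_zero 2) (show 2 • (t : ZMod (2 * t)) = 0 by
        rw [nsmul_eq_mul, ← Nat.cast_mul, ZMod.natCast_self]), map_zero])
    (φ.symm.map_ne_zero_iff.mpr (by simp)) (φ.symm.map_ne_zero_iff.mpr h01)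
  have e' : (1 : ZMod 2) = 0 := congrArg Prod.fst (φ.symm.injective e)
  exact absurd e' (by decide)

variable {F : Type*} [Field F] [DecidableEq F] (k b : F)

/-- A point killed by two is `(u, 0)` at a root `u` of the cubic. -/
theorem two_nsmul_eq_zero_iff_root (h2 : (2 : F) ≠ 0) {u v : F}
    (h : (shortKB k b).toAffine.Nonsingular u v) :
    2 • Affine.Point.some u v h = 0 ↔ v = 0 ∧ u ^ 3 + k * u + b = 0 := by
  have hnegY : (shortKB k b).toAffine.negY u v = -v := by simp [Affine.negY, shortKB]
  have he : v ^ 2 = u ^ 3 + k * u + b := by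
    have := (Affine.equation_iff u v).mp h.1
    simp [shortKB] at this
    linear_combination this
  rw [two_nsmul]
  rcases eq_or_ne v 0 with rfl | hv
  · exact iff_of_true (Affine.Point.add_self_of_Y_eq (by rw [hnegY, neg_zero]))
      ⟨rfl, by linear_combination -he⟩
  · refine iff_of_false (fun e => ?_) fun e => hv e.1
    rw [Affine.Point.add_self_of_Y_ne (by
      rw [hnegY]
      exact fun e => hv ((mul_eq_zero.mp (by linear_combination e : 2 * v = 0)).resolve_left h2))] at e
    exact Affine.Point.some_ne_zero _ e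

/-- With at most one root of the cubic there is at most one point of order two. -/
theorem eq_of_two_nsmul_eq_zero (h2 : (2 : F) ≠ 0)
    (hroot : ∀ u u' : F, u ^ 3 + k * u + b = 0 → u' ^ 3 + k * u' + b = 0 → u = u')
    {P Q : (shortKB k b).toAffine.Point} (hP : 2 • P = 0) (hQ : 2 • Q = 0) (hP0 : P ≠ 0)
    (hQ0 : Q ≠ 0) : P = Q := by
  cases P with
  | zero => exact absurd rfl hP0
  | some u v h =>
    cases Q with
    | zero => exact absurd rfl hQ0
    | some u' v' h' =>
      obtain ⟨rfl, hu⟩ := (two_nsmul_eq_zero_iff_root k b h2 h).mp hP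
      obtain ⟨rfl, hu'⟩ := (two_nsmul_eq_zero_iff_root k b h2 h').mp hQ
      obtain rfl := hroot u u' hu hu'
      rfl

/-- Cubing is injective when `q ≡ 2 (mod 3)`. -/
theorem cube_injective {q : ℕ} [Fact q.Prime] (h3 : q % 3 = 2) :
    Function.Injective fun x : ZMod q => x ^ 3 := by
  intro x y e
  have key : ∀ z : ZMod q, (z ^ 3) ^ ((2 * q - 1) / 3) = z := fun z => by
    rw [← pow_mul, show 3 * ((2 * q - 1) / 3) = q + (q - 1) by omega, pow_add, ZMod.pow_card,
      ← pow_succ', Nat.sub_add_cancel (show 1 ≤ q by omega), ZMod.pow_card]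
  simp only at e
  rw [← key x, e, key y]

variable {q : ℕ} [Fact q.Prime]

/-- The point count by the character sum. -/
theorem natCard_shortKB (hq2 : q ≠ 2) (k b : ZMod q) (hΔ : (shortKB k b).Δ ≠ 0) :
    (Nat.card (shortKB k b).toAffine.Point : ℤ) =
      q + 1 + ∑ x : ZMod q, quadraticChar (ZMod q) (x ^ 3 + k * x + b) := by
  have hF : ringChar (ZMod q) ≠ 2 := (ZMod.ringChar_zmod_n q).trans_ne hq2
  rw [FA.Twists.natCard_point_eq_sum hF _ hΔ, ZMod.card]
  congr 1
  refine Finset.sum_congr rfl fun x _ => ?_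
  rw [← one_mul (quadraticChar _ (x ^ 3 + _ + _)),
    ← quadraticChar_sq_one' (Ring.two_ne_zero hF), ← map_mul]
  congr 1
  simp only [shortKB, b₂, b₄, b₆]
  ring

end FA.ReducedGroups

end
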