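import Fermat.Agent.ReducedGroups.MassFormula
import Fermat.Agent.ReducedGroups.SupersingularFamilies

/-!
# Roots of `x³ + a x + b` over the nonsingular equations, and the two-torsion
-/

set_option autoImplicit false
set_option linter.style.haveILetI false

noncomputable section

open WeierstrassCurve
open scoped WeierstrassCurve.Affine Classical

namespace FA.ReducedGroups

variable {q : ℕ} [hq : Fact q.Prime]

/-- The roots of the cubic. -/
def cubicRoots (ab : ZMod q × ZMod q) : Finset (ZMod q) :=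
  Finset.univ.filter fun x => x ^ 3 + ab.1 * x + ab.2 = 0

theorem mem_cubicRoots {ab : ZMod q × ZMod q} {x : ZMod q} :
    x ∈ cubicRoots ab ↔ x ^ 3 + ab.1 * x + ab.2 = 0 := by simp [cubicRoots]

/-- Two roots determine the coefficient. -/
theorem eq_of_two_roots {a b x y : ZMod q} (hne : x ≠ y) (hx : x ^ 3 + a * x + b = 0)
    (hy : y ^ 3 + a * y + b = 0) : a = -(x ^ 2 + x * y + y ^ 2) :=
  mul_left_cancel₀ (sub_ne_zero.mpr hne) (by linear_combination hx - hy)

/-- Three distinct roots from two. -/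
theorem cubicRoots_of_two {a b x y : ZMod q}
    (hns : 4 * a ^ 3 + 27 * b ^ 2 ≠ 0) (hne : x ≠ y) (hx : x ^ 3 + a * x + b = 0)
    (hy : y ^ 3 + a * y + b = 0) :
    cubicRoots (a, b) = {x, y, -x - y} ∧ -x - y ≠ x ∧ -x - y ≠ y := by
  have ha := eq_of_two_roots hne hx hy
  obtain rfl : b = -x ^ 3 - a * x := by linear_combination hx
  subst ha
  have hz : ∀ u v : ZMod q, -u - v = u →
      4 * (-(u ^ 2 + u * v + v ^ 2)) ^ 3 + 27 * (-u ^ 3 - -(u ^ 2 + u * v + v ^ 2) * u) ^ 2 = 0 :=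
    fun u v e => by
    obtain rfl : v = -2 * u := by linear_combination -e
    ring
  have h1 : -x - y ≠ x := fun e => hns (hz x y e)
  have h2 : -x - y ≠ y := fun e => hns (by linear_combination hz y x (by linear_combination e))
  refine ⟨?_, h1, h2⟩
  ext z
  simp only [mem_cubicRoots, Finset.mem_insert, Finset.mem_singleton]
  constructor
  · intro hz'
    have : (z - x) * (z - y) * (z - (-x - y)) = 0 := by linear_combination hz'
    rcases mul_eq_zero.mp this with h | h
    · rcases mul_eq_zero.mp h with h | h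
      · exact Or.inl (sub_eq_zero.mp h)
      · exact Or.inr (Or.inl (sub_eq_zero.mp h))
    · exact Or.inr (Or.inr (sub_eq_zero.mp h))
  · rintro (rfl | rfl | rfl) <;> ring

/-- A nonsingular cubic has `0`, `1` or `3` roots. -/
theorem card_cubicRoots {ab : ZMod q × ZMod q} (hab : ab ∈ FA.BirchMoment.nonsingular q) :
    (cubicRoots ab).card = 0 ∨ (cubicRoots ab).card = 1 ∨ (cubicRoots ab).card = 3 := by
  by_cases h : 1 < (cubicRoots ab).card
  · obtain ⟨x, hx, y, hy, hne⟩ := Finset.one_lt_card.mp h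
    obtain ⟨e, h1, h2⟩ := cubicRoots_of_two (Finset.mem_filter.mp hab).2 hne
      (mem_cubicRoots.mp hx) (mem_cubicRoots.mp hy)
    refine Or.inr (Or.inr ?_)
    rw [show cubicRoots ab = _ from e, Finset.card_insert_of_notMem (by
      simp [hne, h1.symm]), Finset.card_pair h2.symm]
  · omega

/-- The roots add up to `(q - 1)²`. -/
theorem sum_card_cubicRoots (h5 : 5 ≤ q) :
    (∑ ab ∈ FA.BirchMoment.nonsingular q, ((cubicRoots ab).card : ℤ)) = ((q : ℤ) - 1) ^ 2 := by
  have h2 : (2 : ZMod q) ≠ 0 := Ring.two_ne_zero (FA.BirchMoment.ringChar_ne_two h5)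
  have h3 : (3 : ZMod q) ≠ 0 := by
    exact_mod_cast FA.BirchMoment.natCast_ne_zero_of_five h5 three_pos (by norm_num : 3 < 5)
  have h4 : (4 : ZMod q) ≠ 0 := by
    rw [show (4 : ZMod q) = 2 * 2 by norm_num]; exact mul_ne_zero h2 h2
  rw [← Nat.cast_sum, ← Finset.card_sigma]
  have e : ((FA.BirchMoment.nonsingular q).sigma fun ab => cubicRoots ab).card =
      ∑ x : ZMod q, ((Finset.univ.erase (-3 * x ^ 2)).erase (-3 * x ^ 2 / 4)).card := by
    rw [← Finset.card_sigma]
    refine Finset.card_bij' (fun y _ => ⟨y.2, y.1.1⟩) (fun z _ => ⟨(z.2, -z.1 ^ 3 - z.2 * z.1), z.1⟩)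
      ?_ ?_ ?_ fun z _ => rfl
    · rintro ⟨⟨a, b⟩, x⟩ hm
      obtain ⟨hns, hx⟩ := Finset.mem_sigma.mp hm
      have hns' : 4 * a ^ 3 + 27 * b ^ 2 ≠ 0 := (Finset.mem_filter.mp hns).2
      obtain rfl : b = -x ^ 3 - a * x := by linear_combination mem_cubicRoots.mp hx
      refine Finset.mem_sigma.mpr ⟨Finset.mem_univ _, Finset.mem_erase.mpr ⟨fun e => hns' ?_,
        Finset.mem_erase.mpr ⟨fun e => hns' ?_, Finset.mem_univ _⟩⟩⟩
      · have e' : 4 * a + 3 * x ^ 2 = 0 := by
          simp only at e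
          rw [e]; field_simp; ring
        linear_combination (a + 3 * x ^ 2) ^ 2 * e'
      · simp only at e
        rw [e]; ring
    · rintro ⟨x, a⟩ hm
      obtain ⟨hne, hm'⟩ := Finset.mem_erase.mp (Finset.mem_sigma.mp hm).2
      have hne' := (Finset.mem_erase.mp hm').1
      refine Finset.mem_sigma.mpr ⟨Finset.mem_filter.mpr ⟨Finset.mem_univ _, ?_⟩,
        mem_cubicRoots.mpr (by ring)⟩
      show 4 * a ^ 3 + 27 * (-x ^ 3 - a * x) ^ 2 ≠ 0
      rw [show 4 * a ^ 3 + 27 * (-x ^ 3 - a * x) ^ 2 = (a + 3 * x ^ 2) ^ 2 * (4 * a + 3 * x ^ 2) by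
        ring]
      exact mul_ne_zero (pow_ne_zero 2 fun e => hne' (show a = -3 * x ^ 2 by linear_combination e))
        fun e => hne (show a = -3 * x ^ 2 / 4 by
          rw [eq_div_iff h4]; linear_combination e)
    · rintro ⟨⟨a, b⟩, x⟩ hm
      obtain rfl : b = -x ^ 3 - a * x := by
        linear_combination mem_cubicRoots.mp (Finset.mem_sigma.mp hm).2
      rfl
  rw [e, Nat.cast_sum, ← Finset.add_sum_erase _ _ (Finset.mem_univ (0 : ZMod q)),
    Finset.sum_congr rfl (s₂ := Finset.univ.erase 0) (g := fun _ => (q : ℤ) - 2) fun x hx => ?_,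
    Finset.sum_const, Finset.card_erase_of_mem (Finset.mem_univ _), Finset.card_univ, ZMod.card,
    nsmul_eq_mul, Nat.cast_sub hq.out.one_le, Nat.cast_one]
  · rw [show (-3 : ZMod q) * 0 ^ 2 / 4 = -3 * 0 ^ 2 by simp, Finset.erase_idem,
      Finset.card_erase_of_mem (Finset.mem_univ _), Finset.card_univ, ZMod.card,
      Nat.cast_sub hq.out.one_le, Nat.cast_one]
    ring
  · have hx0 : x ≠ 0 := Finset.ne_of_mem_erase hx
    have hne : (-3 * x ^ 2 / 4 : ZMod q) ≠ -3 * x ^ 2 := fun e => by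
      rw [div_eq_iff h4] at e
      exact mul_ne_zero (mul_ne_zero h3 h3) (pow_ne_zero 2 hx0) (by linear_combination e)
    rw [Finset.card_erase_of_mem (Finset.mem_erase.mpr ⟨hne, Finset.mem_univ _⟩),
      Finset.card_erase_of_mem (Finset.mem_univ _), Finset.card_univ, ZMod.card, Nat.sub_sub,
      Nat.cast_sub (by omega : 1 + 1 ≤ q)]
    norm_num

/-- The ordered pairs of distinct roots number `(q - 1) (q - 2)`. -/
theorem sum_card_offDiag_cubicRoots (h5 : 5 ≤ q) :
    (∑ ab ∈ FA.BirchMoment.nonsingular q, ((cubicRoots ab).offDiag.card : ℤ)) =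
      ((q : ℤ) - 1) * ((q : ℤ) - 2) := by
  have h2 : (2 : ZMod q) ≠ 0 := Ring.two_ne_zero (FA.BirchMoment.ringChar_ne_two h5)
  have h3 : (3 : ZMod q) ≠ 0 := by
    exact_mod_cast FA.BirchMoment.natCast_ne_zero_of_five h5 three_pos (by norm_num : 3 < 5)
  rw [← Nat.cast_sum, ← Finset.card_sigma]
  have e : ((FA.BirchMoment.nonsingular q).sigma fun ab => (cubicRoots ab).offDiag).card =
      ∑ x : ZMod q, (((Finset.univ.erase x).erase (-2 * x)).erase (-x / 2)).card := by
    rw [← Finset.card_sigma]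
    refine Finset.card_bij' (fun w _ => ⟨w.2.1, w.2.2⟩)
      (fun z _ => ⟨(-(z.1 ^ 2 + z.1 * z.2 + z.2 ^ 2), z.1 * z.2 * (z.1 + z.2)), (z.1, z.2)⟩)
      ?_ ?_ ?_ fun z _ => rfl
    · rintro ⟨⟨a, b⟩, x, y⟩ hm
      obtain ⟨hns, hxy⟩ := Finset.mem_sigma.mp hm
      obtain ⟨hx, hy, hne⟩ := Finset.mem_offDiag.mp hxy
      obtain ⟨-, h1, h2'⟩ := cubicRoots_of_two (Finset.mem_filter.mp hns).2 hne
        (mem_cubicRoots.mp hx) (mem_cubicRoots.mp hy)
      refine Finset.mem_sigma.mpr ⟨Finset.mem_univ _, Finset.mem_erase.mpr ⟨fun e => h2' ?_,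
        Finset.mem_erase.mpr ⟨fun e => h1 ?_, Finset.mem_erase.mpr ⟨hne.symm, Finset.mem_univ _⟩⟩⟩⟩
      · simp only at e
        rw [e]; field_simp; ring
      · simp only at e
        rw [e]; ring
    · rintro ⟨x, y⟩ hm
      obtain ⟨hy2, hm'⟩ := Finset.mem_erase.mp (Finset.mem_sigma.mp hm).2
      obtain ⟨hy1, hm''⟩ := Finset.mem_erase.mp hm'
      have hne : y ≠ x := (Finset.mem_erase.mp hm'').1
      refine Finset.mem_sigma.mpr ⟨Finset.mem_filter.mpr ⟨Finset.mem_univ _, ?_⟩,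
        Finset.mem_offDiag.mpr ⟨mem_cubicRoots.mpr (by ring), mem_cubicRoots.mpr (by ring), hne.symm⟩⟩
      show 4 * (-(x ^ 2 + x * y + y ^ 2)) ^ 3 + 27 * (x * y * (x + y)) ^ 2 ≠ 0
      rw [show 4 * (-(x ^ 2 + x * y + y ^ 2)) ^ 3 + 27 * (x * y * (x + y)) ^ 2 =
        -((x - y) * (2 * x + y) * (x + 2 * y)) ^ 2 by ring]
      refine neg_ne_zero.mpr (pow_ne_zero 2 (mul_ne_zero (mul_ne_zero (sub_ne_zero.mpr hne.symm)
        fun e => hy1 (show y = -2 * x by linear_combination e)) fun e => hy2 ?_))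
      show y = -x / 2
      rw [eq_div_iff h2]
      linear_combination e
    · rintro ⟨⟨a, b⟩, x, y⟩ hm
      obtain ⟨-, hxy⟩ := Finset.mem_sigma.mp hm
      obtain ⟨hx, hy, hne⟩ := Finset.mem_offDiag.mp hxy
      have ha : a = -(x ^ 2 + x * y + y ^ 2) :=
        eq_of_two_roots hne (mem_cubicRoots.mp hx) (mem_cubicRoots.mp hy)
      obtain rfl : b = x * y * (x + y) := by linear_combination mem_cubicRoots.mp hx - x * ha
      subst ha
      rfl
  rw [e, Nat.cast_sum, ← Finset.add_sum_erase _ _ (Finset.mem_univ (0 : ZMod q)),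
    Finset.sum_congr rfl (s₂ := Finset.univ.erase 0) (g := fun _ => (q : ℤ) - 3) fun x hx => ?_,
    Finset.sum_const, Finset.card_erase_of_mem (Finset.mem_univ _), Finset.card_univ, ZMod.card,
    nsmul_eq_mul, Nat.cast_sub hq.out.one_le, Nat.cast_one]
  · rw [show (-2 : ZMod q) * 0 = 0 by simp, show (-0 : ZMod q) / 2 = 0 by simp, Finset.erase_idem,
      Finset.erase_idem, Finset.card_erase_of_mem (Finset.mem_univ _), Finset.card_univ, ZMod.card,
      Nat.cast_sub hq.out.one_le, Nat.cast_one]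
    ring
  · have hx0 : x ≠ 0 := Finset.ne_of_mem_erase hx
    have n1 : -2 * x ≠ x := fun e => mul_ne_zero h3 hx0 (by linear_combination -e)
    have n2 : -x / 2 ≠ x := fun e => by
      rw [div_eq_iff h2] at e
      exact mul_ne_zero h3 hx0 (by linear_combination -e)
    have n3 : -x / 2 ≠ -2 * x := fun e => by
      rw [div_eq_iff h2] at e
      exact mul_ne_zero h3 hx0 (by linear_combination e)
    rw [Finset.card_erase_of_mem (Finset.mem_erase.mpr ⟨n3, Finset.mem_erase.mpr
        ⟨n2, Finset.mem_univ _⟩⟩),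
      Finset.card_erase_of_mem (Finset.mem_erase.mpr ⟨n1, Finset.mem_univ _⟩),
      Finset.card_erase_of_mem (Finset.mem_univ _), Finset.card_univ, ZMod.card, Nat.sub_sub,
      Nat.sub_sub, Nat.cast_sub (by omega : 1 + (1 + 1) ≤ q)]
    norm_num

/-- **The two-torsion is the roots and zero.** -/
theorem natCard_two_torsion_short (h5 : 5 ≤ q) {a b : ZMod q}
    (hab : (a, b) ∈ FA.BirchMoment.nonsingular q) :
    Nat.card {P : (FA.BirchMoment.shortMod a b).toAffine.Point // 2 • P = 0} =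
      (cubicRoots (a, b)).card + 1 := by
  have h2 : (2 : ZMod q) ≠ 0 := Ring.two_ne_zero (FA.BirchMoment.ringChar_ne_two h5)
  have hΔ := FA.BirchMoment.shortMod_Δ_ne_zero h5 (Finset.mem_filter.mp hab).2
  have hmk : ∀ x ∈ cubicRoots (a, b), (FA.BirchMoment.shortMod a b).toAffine.Nonsingular x 0 :=
    fun x hx => (Affine.equation_iff_nonsingular_of_Δ_ne_zero hΔ).1 (by
      rw [Affine.equation_iff]
      simp only
      linear_combination -(mem_cubicRoots.mp hx))
  rw [← Fintype.card_coe, ← Nat.card_eq_fintype_card, ← Finite.card_option]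
  refine (Nat.card_eq_of_bijective (fun o : Option {x // x ∈ cubicRoots (a, b)} =>
    match o with
    | none => (⟨0, nsmul_zero 2⟩ : {P : (FA.BirchMoment.shortMod a b).toAffine.Point // 2 • P = 0})
    | some x => ⟨.some x.1 0 (hmk x.1 x.2),
        (two_nsmul_eq_zero_iff_root a b h2 _).mpr ⟨rfl, mem_cubicRoots.mp x.2⟩⟩) ⟨?_, ?_⟩).symm
  · rintro (_ | x) (_ | y) e <;> simp only [Subtype.mk.injEq] at e
    · rfl
    · exact absurd e.symm (Affine.Point.some_ne_zero _)
    · exact absurd e (Affine.Point.some_ne_zero _)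
    · rw [Affine.Point.some.injEq] at e
      rw [Subtype.ext e.1]
  · rintro ⟨P, hP⟩
    cases P with
    | zero => exact ⟨none, rfl⟩
    | some u v h =>
      obtain ⟨rfl, hu⟩ := (two_nsmul_eq_zero_iff_root a b h2 h).mp hP
      exact ⟨some ⟨u, mem_cubicRoots.mpr hu⟩, rfl⟩

end FA.ReducedGroups

end
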