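import Fermat.Agent.ReducedGroups.Exponent
import Fermat.Agent.PrimeDivisors.Exceptional
import Mathlib.Analysis.SpecialFunctions.Pow.Asymptotics

/-!
# Proportional exponents force equal traces

Outside the primes of small exponent the cofactor `d = #E(𝔽_q) / e` is at most `4 q ^ (1/4) log q`,
while the orders of two reductions differ by `O(√q)`. So `a e = b e'` forces `a d' = b d` at large
`q` and with it equal orders. A set of density zero meets no Frobenius class in full, so traces
equal outside one are equal at every prime of good reduction.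
-/

set_option autoImplicit false
set_option linter.style.haveILetI false
set_option linter.unusedSectionVars false

noncomputable section

open WeierstrassCurve NumberField IsDedekindDomain Filter Topology Matrix FA.Frob FA.EC
  FA.PointDiv
open FA.Ext (zN zN_nonneg primeIdeal)
open scoped WeierstrassCurve.Affine Classical

local notation "Qb" => AlgebraicClosure ℚ
local notation "GQ" => AlgebraicClosure ℚ ≃ₐ[ℚ] AlgebraicClosure ℚ

namespace FA.ReducedGroups

variable {W W' : WeierstrassCurve ℤ} [(ratCurve W).IsElliptic] [(ratCurve W').IsElliptic]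

/-- The order of the group is within `3 √q` of `q`. -/
theorem abs_order_sub_le {q : ℕ} [hq : Fact q.Prime] (hgood : W.IsGoodPrimeFor q) :
    |((q : ℝ) + 1 - W.apOfModel q) - q| ≤ 3 * Real.sqrt q := by
  haveI : (W.reductionMod q).IsElliptic := reductionMod_isElliptic W hgood
  have h : (W.apOfModel q : ℝ) ^ 2 ≤ 4 * (q : ℝ) := by
    exact_mod_cast FA.HasseBound.traceOfFrobenius_sq_le (W.reductionMod q)
  have hs : Real.sqrt q ^ 2 = q := Real.sq_sqrt (Nat.cast_nonneg _)
  have hs1 : 1 ≤ Real.sqrt q := Real.le_sqrt_of_sq_le (by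
    rw [one_pow]; exact_mod_cast hq.out.one_le)
  have ha := abs_le.mp (abs_le_of_sq_le_sq (b := 2 * Real.sqrt q)
    (by rw [mul_pow, hs]; linarith) (by positivity) : |(W.apOfModel q : ℝ)| ≤ _)
  rw [abs_le]
  constructor <;> linarith [ha.1, ha.2]

/-- Away from the small exponents the cofactor is at most `4 q ^ (1/4) log q`. -/
theorem cofactor_le {q : ℕ} [hq : Fact q.Prime] (h4 : 4 ≤ q) (hgood : W.IsGoodPrimeFor q)
    (he : (q : ℝ) ^ (3 / 4 : ℝ) / Real.log q ≤ (exponentAt W q : ℝ)) {d : ℝ}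
    (hd0 : 0 ≤ d) (hd : d * exponentAt W q = (q : ℝ) + 1 - W.apOfModel q) :
    d ≤ 4 * (q : ℝ) ^ (1 / 4 : ℝ) * Real.log q := by
  have hq4 : (4 : ℝ) ≤ q := by exact_mod_cast h4
  have hL : 0 < Real.log q := Real.log_pos (by linarith)
  set t := (q : ℝ) ^ (1 / 4 : ℝ)
  have ht : 0 < t := by positivity
  have hQ : (q : ℝ) ^ (3 / 4 : ℝ) * t = q := by
    rw [← Real.rpow_add (by positivity)]; norm_num
  rw [div_le_iff₀ hL] at he
  have hs : Real.sqrt q ^ 2 = q := Real.sq_sqrt (Nat.cast_nonneg _)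
  have h2 : d * exponentAt W q ≤ 4 * q := by
    rw [hd]
    have := (abs_le.mp (abs_order_sub_le hgood)).2
    have hs1 : 1 ≤ Real.sqrt q := Real.le_sqrt_of_sq_le (by linarith)
    nlinarith
  have h3 : d * q ≤ 4 * t * Real.log q * q := by
    calc d * q = d * ((q : ℝ) ^ (3 / 4 : ℝ) * t) := by rw [hQ]
      _ ≤ d * (exponentAt W q * Real.log q * t) := by gcongr
      _ = d * exponentAt W q * (Real.log q * t) := by ring
      _ ≤ 4 * q * (Real.log q * t) := by gcongr
      _ = _ := by ring
  exact le_of_mul_le_mul_right h3 (by linarith)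

/-- **Proportional exponents, not small, force equal traces** at large primes. -/
theorem exists_bound_trace_eq (a b : ℕ) (ha : 0 < a) (hb : 0 < b) :
    ∃ M : ℕ, ∀ (q : ℕ) [Fact q.Prime], M ≤ q → W.IsGoodPrimeFor q → W'.IsGoodPrimeFor q →
      (q : ℝ) ^ (3 / 4 : ℝ) / Real.log q ≤ (exponentAt W q : ℝ) →
      (q : ℝ) ^ (3 / 4 : ℝ) / Real.log q ≤ (exponentAt W' q : ℝ) →
      a * exponentAt W q = b * exponentAt W' q → W.apOfModel q = W'.apOfModel q := by
  obtain ⟨M₀, hM₀⟩ := eventually_atTop.mp ((isLittleO_log_rpow_atTop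
    (show (0 : ℝ) < 1 / 4 by norm_num)).bound (show (0 : ℝ) < 1 / (12 * (a + b) + 1) by positivity))
  refine ⟨max 4 ⌈M₀⌉₊, fun q _ hM hg hg' he he' hee => ?_⟩
  obtain ⟨d, hd0, hd, -⟩ := exists_structure (W := W) (by omega) hg
  obtain ⟨d', hd0', hd', -⟩ := exists_structure (W := W') (by omega) hg'
  have hdR : (d : ℝ) * exponentAt W q = (q : ℝ) + 1 - W.apOfModel q := by exact_mod_cast hd
  have hdR' : (d' : ℝ) * exponentAt W' q = (q : ℝ) + 1 - W'.apOfModel q := by exact_mod_cast hd'
  set L := Real.log q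
  set t := (q : ℝ) ^ (1 / 4 : ℝ)
  set s := Real.sqrt q
  set N := (q : ℝ) + 1 - W.apOfModel q
  set N' := (q : ℝ) + 1 - W'.apOfModel q
  have hq4 : (4 : ℝ) ≤ q := by exact_mod_cast (show 4 ≤ q by omega)
  have hL : 0 < L := Real.log_pos (by linarith)
  have ht : 0 < t := by positivity
  have hts : t * t = s := by
    show _ = Real.sqrt q
    rw [← Real.rpow_add (by positivity), Real.sqrt_eq_rpow]; norm_num
  have hss : s * s = q := Real.mul_self_sqrt (by positivity)
  have hlog : (12 * ((a : ℝ) + b) + 1) * L ≤ t := by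
    have h := hM₀ q (le_trans (Nat.le_ceil M₀) (by exact_mod_cast (show ⌈M₀⌉₊ ≤ q by omega)))
    rw [Real.norm_eq_abs, Real.norm_eq_abs, abs_of_pos hL, abs_of_pos ht, one_div_mul_eq_div,
      le_div_iff₀ (by positivity)] at h
    linarith
  have hdle := cofactor_le (by omega) hg he (Nat.cast_nonneg d) hdR
  have hdle' := cofactor_le (by omega) hg' he' (Nat.cast_nonneg d') hdR'
  -- `N a d' = N' b d`
  have hkey : N * (a * d') = N' * (b * d) := by
    have e : (a : ℝ) * exponentAt W q = b * exponentAt W' q := by exact_mod_cast hee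
    rw [← hdR, ← hdR']
    linear_combination (d : ℝ) * d' * e
  set m : ℤ := (a * d' : ℕ) - (b * d : ℕ)
  have hm : (m : ℝ) = a * d' - b * d := by simp [m]
  have hbound : |(m : ℝ) * q| < q := by
    have e : (m : ℝ) * q = (N' - q) * (b * d) - (N - q) * (a * d') := by
      rw [hm]; linear_combination hkey
    have h1 : |N' - q| * (b * d) ≤ 3 * s * (b * (4 * t * L)) :=
      mul_le_mul (abs_order_sub_le hg') (by gcongr) (by positivity) (by positivity)
    have h2 : |N - q| * (a * d') ≤ 3 * s * (a * (4 * t * L)) :=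
      mul_le_mul (abs_order_sub_le hg) (by gcongr) (by positivity) (by positivity)
    rw [e]
    refine (abs_sub _ _).trans_lt ?_
    rw [abs_mul (N' - q), abs_mul (N - q), abs_of_nonneg (show (0 : ℝ) ≤ b * d by positivity),
      abs_of_nonneg (show (0 : ℝ) ≤ a * d' by positivity)]
    have hst : 0 < s * t := mul_pos (Real.sqrt_pos.mpr (by linarith)) ht
    calc |N' - q| * (b * d) + |N - q| * (a * d') ≤ (12 * ((a : ℝ) + b) * L) * (s * t) := by
          nlinarith
      _ < t * (s * t) := by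
          refine mul_lt_mul_of_pos_right ?_ hst
          nlinarith
      _ = q := by rw [← hss, ← hts]; ring
  have hm0 : m = 0 := by
    rw [abs_mul, abs_of_pos (show (0 : ℝ) < q by linarith), mul_lt_iff_lt_one_left (by linarith),
      ← Int.cast_abs] at hbound
    exact Int.abs_lt_one_iff.mp (by exact_mod_cast hbound)
  rw [hm0, Int.cast_zero, eq_comm, sub_eq_zero] at hm
  rw [hm] at hkey
  have hbd : (b : ℝ) * d ≠ 0 := by positivity
  have := mul_right_cancel₀ hbd hkey
  have e : (W.apOfModel q : ℝ) = W'.apOfModel q := by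
    simp only [N, N'] at this; linarith
  exact_mod_cast e

/-! ### Densities -/

/-- **Removing a set of density zero** keeps the density. -/
theorem density_sdiff_zero {S Z : Set (HeightOneSpectrum (𝓞 ℚ))} {δ : ℝ}
    (hS : S.HasDirichletDensity δ) (hZ : Z.HasDirichletDensity 0) :
    (S \ Z).HasDirichletDensity δ := by
  have hi := FA.PrimeDivisors.density_zero_subset (Set.inter_subset_right : S ∩ Z ⊆ Z) hZ
  have h := hS.sub hi
  rw [sub_zero] at h
  refine h.congr' ?_
  filter_upwards [self_mem_nhdsWithin] with s hs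
  rw [← sub_div]
  congr 1
  rw [sub_eq_iff_eq_add]
  simp only [FA.Chebotarev.primeIdealZetaSum_eq]
  rw [← Summable.tsum_union_disjoint (f := fun v : HeightOneSpectrum (𝓞 ℚ) =>
    zN s (primeIdeal v)) Set.disjoint_sdiff_inter
    (FA.Chebotarev.summable_subtype_zN _ hs) (FA.Chebotarev.summable_subtype_zN _ hs),
    Set.sdiff_union_inter]

/-- **Traces equal outside a set of density zero are equal at every good prime.** -/
theorem apOfModel_eq_of_density_zero (hΔ : W.Δ ≠ 0) (hΔ' : W'.Δ ≠ 0)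
    {T : Set (HeightOneSpectrum (𝓞 ℚ))} (hT : T.HasDirichletDensity 0)
    (h : ∀ v ∉ T, W.IsGoodPrimeFor (Ideal.absNorm v.asIdeal) →
      W'.IsGoodPrimeFor (Ideal.absNorm v.asIdeal) →
      W.apOfModel (Ideal.absNorm v.asIdeal) = W'.apOfModel (Ideal.absNorm v.asIdeal))
    {q : ℕ} (hq : q.Prime) (hg : W.IsGoodPrimeFor q) (hg' : W'.IsGoodPrimeFor q) :
    W.apOfModel q = W'.apOfModel q := by
  obtain ⟨p, hp, hpp⟩ :=
    Nat.exists_infinite_primes (max q (W.apOfModel q - W'.apOfModel q).natAbs + 1)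
  haveI : NeZero p := ⟨hpp.ne_zero⟩
  by_contra hne
  set f := (FA.TraceDist.glLevel W p).prod (FA.TraceDist.glLevel W' p)
  haveI := Fintype.ofFinite f.range
  have hker : IsOpen (f.ker : Set GQ) := by
    have e : (f.ker : Set GQ) = ((FA.TraceDist.glLevel W p).ker : Set GQ) ∩
        ((FA.TraceDist.glLevel W' p).ker : Set GQ) := by
      ext σ
      simp [f, Prod.ext_iff]
    rw [e]
    exact FA.TraceDist.isOpen_ker_glLevel.inter FA.TraceDist.isOpen_ker_glLevel
  let X : Set f.range := {g | g.1.1.val.trace ≠ g.1.2.val.trace}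
  have hd := FA.Chebotarev.hasDirichletDensity_frobSet f.rangeRestrict
    f.rangeRestrict_surjective (by rwa [MonoidHom.ker_rangeRestrict]) (X := X) fun g hg x => by
      show _ ≠ _
      rw [Subgroup.coe_mul, Subgroup.coe_mul, Subgroup.coe_inv, Prod.fst_mul, Prod.fst_mul,
        Prod.fst_inv, Prod.snd_mul, Prod.snd_mul, Prod.snd_inv, Units.val_mul, Units.val_mul,
        Units.val_mul, Units.val_mul, Matrix.trace_units_conj, Matrix.trace_units_conj]
      exact hg
  have hqp : ¬ q ∣ p := fun e => by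
    rcases (Nat.dvd_prime hpp).mp e with e | e
    · exact hq.one_lt.ne' e
    · omega
  obtain ⟨A, hA⟩ := FA.Deform.exists_liesOverPrime hq
  obtain ⟨σ, hσ⟩ := FA.Deform.exists_isFrobeniusAt hq hA
  have : Nonempty X := ⟨⟨f.rangeRestrict σ, fun e => hne <| by
    rw [← sub_eq_zero]
    by_contra hne'
    suffices hd : (p : ℤ) ∣ W.apOfModel q - W'.apOfModel q by
      exact absurd (Nat.le_of_dvd (Int.natAbs_pos.mpr hne') (Int.natCast_dvd.mp hd)) (by omega)
    rw [← ZMod.intCast_zmod_eq_zero_iff_dvd, Int.cast_sub, sub_eq_zero,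
      ← (FA.TraceDist.repLevel_frobenius (N := p) hq hqp hg hA hσ).1,
      ← (FA.TraceDist.repLevel_frobenius (N := p) hq hqp hg' hA hσ).1]
    exact e⟩⟩
  have hpos : 0 < (Nat.card X : ℝ) / Fintype.card f.range :=
    div_pos (Nat.cast_pos.mpr Nat.card_pos) (Nat.cast_pos.mpr Fintype.card_pos)
  set F := insert p ((W.Δ * W'.Δ).natAbs.primeFactors)
  set U := FA.Chebotarev.frobSet f.rangeRestrict X \ {v | Ideal.absNorm v.asIdeal ∈ F}
  have hU : U.HasDirichletDensity ((Nat.card X : ℝ) / Fintype.card f.range) :=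
    FA.Chebotarev.hasDirichletDensity_congr (by simp [U])
      ((FA.Supersingular.finite_absNorm_mem F).subset fun v hv => by
        by_contra e
        exact hv.2 ⟨hv.1, e⟩) hd
  refine hpos.ne' (tendsto_nhds_unique hU (FA.PrimeDivisors.density_zero_subset ?_ hT))
  intro v hv
  obtain ⟨hvX, hvF⟩ := hv
  by_contra hvT
  simp only [Set.mem_ofPred_eq, F, Finset.mem_insert, not_or] at hvF
  have hr := FA.Chebotarev.absNorm_prime v
  have hbad : ∀ c : ℤ, c ∣ W.Δ * W'.Δ → ¬ (Ideal.absNorm v.asIdeal : ℤ) ∣ c := fun c hc e =>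
    hvF.2 (Nat.mem_primeFactors.mpr ⟨hr, Int.natCast_dvd.mp (e.trans hc),
      Int.natAbs_ne_zero.mpr (mul_ne_zero hΔ hΔ')⟩)
  have hgv : W.IsGoodPrimeFor (Ideal.absNorm v.asIdeal) := hbad _ (dvd_mul_right _ _)
  have hgv' : W'.IsGoodPrimeFor (Ideal.absNorm v.asIdeal) := hbad _ (dvd_mul_left _ _)
  have hvp : ¬ Ideal.absNorm v.asIdeal ∣ p := fun e =>
    hvF.1 ((Nat.prime_dvd_prime_iff_eq hr hpp).mp e)
  obtain ⟨B, hB⟩ := FA.Deform.exists_liesOverPrime hr
  obtain ⟨τ, hτ⟩ := FA.Deform.exists_isFrobeniusAt hr hB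
  refine hvX B hB τ hτ ?_
  show (FA.TraceDist.repLevel W p τ).trace = (FA.TraceDist.repLevel W' p τ).trace
  rw [(FA.TraceDist.repLevel_frobenius (N := p) hr hvp hgv hB hτ).1,
    (FA.TraceDist.repLevel_frobenius (N := p) hr hvp hgv' hB hτ).1, h v hvT hgv hgv']

end FA.ReducedGroups

end
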