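import Fermat.Agent.ReducedGroups.MassFormula

/-!
# The short equations of a given `j`
-/

set_option autoImplicit false
set_option linter.style.haveILetI false

noncomputable section

open WeierstrassCurve
open scoped Classical

namespace FA.ReducedGroups

variable {q : ℕ} [hq : Fact q.Prime]

/-- The short equations with `j`-invariant `j`. -/
def jFibre (j : ZMod q) : Finset (ZMod q × ZMod q) :=
  (FA.BirchMoment.nonsingular q).filter fun ab =>
    6912 * ab.1 ^ 3 = j * (4 * ab.1 ^ 3 + 27 * ab.2 ^ 2)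

theorem mem_jFibre {j a b : ZMod q} : (a, b) ∈ jFibre j ↔
    4 * a ^ 3 + 27 * b ^ 2 ≠ 0 ∧ 6912 * a ^ 3 = j * (4 * a ^ 3 + 27 * b ^ 2) := by
  simp [jFibre, FA.BirchMoment.nonsingular]

theorem natCast_ne_zero_of_smooth (h5 : 5 ≤ q) (i k : ℕ) :
    ((2 ^ i * 3 ^ k : ℕ) : ZMod q) ≠ 0 := fun e => by
  rcases hq.out.dvd_mul.mp ((ZMod.natCast_eq_zero_iff _ q).mp e) with h | h
  · have := Nat.le_of_dvd two_pos (hq.out.dvd_of_dvd_pow h); omega
  · have := Nat.le_of_dvd three_pos (hq.out.dvd_of_dvd_pow h); omega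

/-- The fibre in the three cases. -/
theorem jFibre_cases (h5 : 5 ≤ q) (j : ZMod q) :
    (j = 0 ∧ jFibre j = ({0} : Finset (ZMod q)) ×ˢ Finset.univ.erase 0) ∨
    (j = 1728 ∧ jFibre j = Finset.univ.erase 0 ×ˢ ({0} : Finset (ZMod q))) ∨
    ∃ c : ZMod q, c ≠ 0 ∧ jFibre j =
      (Finset.univ.erase 0).image fun t : ZMod q => (c * t ^ 2, c * t ^ 3) := by
  have h6912 : (6912 : ZMod q) ≠ 0 := by
    have := natCast_ne_zero_of_smooth (q := q) h5 8 3
    norm_num at this
    exact this
  have h4 : (4 : ZMod q) ≠ 0 := by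
    have := natCast_ne_zero_of_smooth (q := q) h5 2 0
    norm_num at this
    exact this
  have h27 : (27 : ZMod q) ≠ 0 := by
    have := natCast_ne_zero_of_smooth (q := q) h5 0 3
    norm_num at this
    exact this
  rcases eq_or_ne j 0 with rfl | hj0
  · refine Or.inl ⟨rfl, ?_⟩
    ext ⟨a, b⟩
    simp only [mem_jFibre, Finset.mem_product, Finset.mem_singleton, Finset.mem_erase,
      Finset.mem_univ, and_true, zero_mul, mul_eq_zero, h6912, false_or,
      pow_eq_zero_iff three_ne_zero]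
    constructor
    · rintro ⟨h, rfl⟩
      exact ⟨rfl, fun e => h (by rw [e]; ring)⟩
    · rintro ⟨rfl, hb⟩
      exact ⟨by simpa [h27] using hb, rfl⟩
  rcases eq_or_ne j 1728 with rfl | hj
  · refine Or.inr (Or.inl ⟨rfl, ?_⟩)
    ext ⟨a, b⟩
    simp only [mem_jFibre, Finset.mem_product, Finset.mem_singleton, Finset.mem_erase,
      Finset.mem_univ, and_true]
    constructor
    · rintro ⟨h, e⟩
      have hb : b = 0 := by
        have e' : (1728 * 27 : ZMod q) * b ^ 2 = 0 := by linear_combination -e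
        exact (pow_eq_zero_iff two_ne_zero).mp
          ((mul_eq_zero.mp e').resolve_left (mul_ne_zero hj0 h27))
      exact ⟨fun ha => h (by rw [ha, hb]; ring), hb⟩
    · rintro ⟨ha, rfl⟩
      exact ⟨by simpa [h4] using ha, by ring⟩
  have hden : 6912 - 4 * j ≠ 0 := fun e => hj (mul_left_cancel₀ h4 (by linear_combination -e))
  refine Or.inr (Or.inr ⟨27 * j / (6912 - 4 * j), div_ne_zero (mul_ne_zero h27 hj0) hden, ?_⟩)
  set c := 27 * j / (6912 - 4 * j) with hc
  have hc' : (6912 - 4 * j) * c = 27 * j := mul_div_cancel₀ _ hden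
  ext ⟨a, b⟩
  simp only [mem_jFibre, Finset.mem_image, Finset.mem_erase, Finset.mem_univ, and_true,
    Prod.mk.injEq]
  constructor
  · rintro ⟨h, e⟩
    have hab : a ^ 3 = c * b ^ 2 := mul_left_cancel₀ hden (by linear_combination e - b ^ 2 * hc')
    have ha : a ≠ 0 := fun ha => by
      rw [ha, zero_pow three_ne_zero, eq_comm, mul_eq_zero] at hab
      have hb := hab.resolve_left (div_ne_zero (mul_ne_zero h27 hj0) hden)
      exact h (by rw [ha, hb]; ring)
    have hb : b ≠ 0 := fun hb => pow_ne_zero 3 ha (by rw [hab, hb]; ring)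
    refine ⟨b / a, div_ne_zero hb ha, ?_, ?_⟩ <;> field_simp
    · linear_combination -hab
    · linear_combination -hab
  · rintro ⟨t, ht, rfl, rfl⟩
    have e : 6912 * (c * t ^ 2) ^ 3 = j * (4 * (c * t ^ 2) ^ 3 + 27 * (c * t ^ 3) ^ 2) := by
      linear_combination c ^ 2 * t ^ 6 * hc'
    refine ⟨fun h => ?_, e⟩
    rw [h, mul_zero] at e
    exact mul_ne_zero h6912 (pow_ne_zero 3 (mul_ne_zero
      (div_ne_zero (mul_ne_zero h27 hj0) hden) (pow_ne_zero 2 ht))) e

/-- `t ↦ (c t², c t³)` is injective off zero. -/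
theorem injOn_image {c : ZMod q} (hc : c ≠ 0) :
    Set.InjOn (fun t : ZMod q => (c * t ^ 2, c * t ^ 3)) ↑((Finset.univ : Finset (ZMod q)).erase 0) := by
  intro s hs t _ e
  obtain ⟨e2, e3⟩ := Prod.mk.inj e
  have hs0 : s ≠ 0 := Finset.ne_of_mem_erase (Finset.mem_coe.mp hs)
  refine mul_left_cancel₀ (mul_ne_zero hc (pow_ne_zero 2 hs0)) ?_
  linear_combination e3 - t * e2

/-- **`q - 1` short equations for each `j`.** -/
theorem card_jFibre (h5 : 5 ≤ q) (j : ZMod q) : (jFibre j).card = q - 1 := by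
  have hu : ((Finset.univ : Finset (ZMod q)).erase 0).card = q - 1 := by
    rw [Finset.card_erase_of_mem (Finset.mem_univ _), Finset.card_univ, ZMod.card]
  rcases jFibre_cases h5 j with ⟨-, e⟩ | ⟨-, e⟩ | ⟨c, hc, e⟩ <;> rw [e]
  · rw [Finset.card_product, Finset.card_singleton, one_mul, hu]
  · rw [Finset.card_product, Finset.card_singleton, mul_one, hu]
  · rw [Finset.card_image_of_injOn (injOn_image hc), hu]

/-- **The twists' character sums cancel.** -/
theorem sum_charSum_jFibre (h5 : 5 ≤ q) (j : ZMod q) :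
    ∑ ab ∈ jFibre j, FA.BirchMoment.charSum ab.1 ab.2 = 0 := by
  have hχ : ∑ x : ZMod q, quadraticChar (ZMod q) x = 0 :=
    quadraticChar_sum_zero (FA.BirchMoment.ringChar_ne_two h5)
  have hcube : ∀ x : ZMod q, quadraticChar (ZMod q) (x ^ 3) = quadraticChar (ZMod q) x := fun x => by
    rcases eq_or_ne x 0 with rfl | hx
    · simp
    · rw [pow_succ, map_mul, quadraticChar_sq_one' hx, one_mul]
  have hshift : ∀ s : ZMod q, ∑ b : ZMod q, quadraticChar (ZMod q) (s + b) = 0 := fun s =>
    (Fintype.sum_equiv (Equiv.addLeft s) _ _ fun b => rfl).trans hχ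
  rcases jFibre_cases h5 j with ⟨-, e⟩ | ⟨-, e⟩ | ⟨c, hc, e⟩ <;> rw [e]
  · rw [Finset.sum_product, Finset.sum_singleton]
    simp only [FA.BirchMoment.charSum]
    rw [Finset.sum_comm]
    have hb : ∀ x : ZMod q, ∑ b ∈ Finset.univ.erase (0 : ZMod q),
        quadraticChar (ZMod q) (x ^ 3 + 0 * x + b) = -quadraticChar (ZMod q) x := fun x => by
      have h := Finset.add_sum_erase Finset.univ
        (fun b => quadraticChar (ZMod q) (x ^ 3 + b)) (Finset.mem_univ (0 : ZMod q))
      rw [hshift, add_zero, hcube] at h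
      simp only [zero_mul, add_zero]
      linarith
    rw [Finset.sum_congr rfl fun x _ => hb x, Finset.sum_neg_distrib, hχ, neg_zero]
  · rw [Finset.sum_product]
    simp only [Finset.sum_singleton, FA.BirchMoment.charSum]
    rw [Finset.sum_comm]
    have hb : ∀ x : ZMod q, ∑ a ∈ Finset.univ.erase (0 : ZMod q),
        quadraticChar (ZMod q) (x ^ 3 + a * x + 0) = -quadraticChar (ZMod q) x := fun x => by
      rcases eq_or_ne x 0 with rfl | hx
      · simp
      have h := Finset.add_sum_erase Finset.univ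
        (fun a => quadraticChar (ZMod q) (x ^ 3 + a * x)) (Finset.mem_univ (0 : ZMod q))
      rw [(Fintype.sum_equiv ((Equiv.mulRight₀ x hx).trans (Equiv.addLeft (x ^ 3)))
        (fun a => quadraticChar (ZMod q) (x ^ 3 + a * x)) (fun a => quadraticChar (ZMod q) a)
        fun a => rfl).trans hχ, zero_mul, add_zero, hcube] at h
      simp only [add_zero]
      linarith
    rw [Finset.sum_congr rfl fun x _ => hb x, Finset.sum_neg_distrib, hχ, neg_zero]
  · rw [Finset.sum_image fun s hs t ht h => injOn_image hc hs ht h]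
    set K := ∑ y : ZMod q, quadraticChar (ZMod q) (y ^ 3 + c * y + c)
    rw [Finset.sum_congr rfl (g := fun t => quadraticChar (ZMod q) t * K) fun t ht => ?_,
      ← Finset.sum_mul, Finset.sum_erase_eq_sub (Finset.mem_univ _), hχ, quadraticChar_zero,
      sub_zero, zero_mul]
    have ht0 : t ≠ 0 := Finset.ne_of_mem_erase ht
    rw [FA.BirchMoment.charSum, Finset.mul_sum]
    refine (Fintype.sum_equiv (Equiv.mulLeft₀ t ht0) _ _ fun y => ?_).symm
    rw [show Equiv.mulLeft₀ t ht0 y = t * y from rfl,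
      show (t * y) ^ 3 + c * t ^ 2 * (t * y) + c * t ^ 3 = t ^ 3 * (y ^ 3 + c * y + c) by ring,
      map_mul (quadraticChar (ZMod q)) (t ^ 3), hcube]

end FA.ReducedGroups

end
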