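import Fermat.Agent.ReducedGroups.Katz
import Fermat.Agent.ReducedGroups.Basic
import Fermat.Agent.Root.SummaryTorsionIso

/-!
# Katz's theorem on the points modulo almost all primes

`m` divides `#E(𝔽_q)` for almost all `q` exactly when Galois moves a finite stable subgroup `D`
of the geometric points only inside a stable subgroup `C` of index `m` in it: one direction is
Katz's lattice lemma on each Tate module, glued over the primes of `m`; the other counts the fixed
points of Frobenius in `D`.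
-/

set_option autoImplicit false
set_option linter.style.haveILetI false
set_option linter.unusedSectionVars false

noncomputable section

open Matrix NumberField IsDedekindDomain WeierstrassCurve FA.Frob FA.RT.Tate
open scoped WeierstrassCurve.Affine

local notation "Qb" => AlgebraicClosure ℚ
local notation "GQ" => AlgebraicClosure ℚ ≃ₐ[ℚ] AlgebraicClosure ℚ
local notation "M2" => Matrix (Fin 2) (Fin 2)

namespace FA.Katz

variable {W : WeierstrassCurve ℤ} [(ratCurve W).IsElliptic]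

/-- Galois moves `D` only inside the stable subgroup `C`, of index `m` in it. -/
def Displaced (C D : AddSubgroup (Pts W)) (m : ℕ) : Prop :=
  Finite D ∧ C ≤ D ∧ C.relIndex D = m ∧ (∀ σ : GQ, ∀ x ∈ C, σ • x ∈ C) ∧
    ∀ σ : GQ, ∀ x ∈ D, σ • x - x ∈ C

/-- The order of a subgroup times its index. -/
theorem card_mul_relIndex {G : Type*} [AddGroup G] {C D : AddSubgroup G} (h : C ≤ D) :
    Nat.card C * C.relIndex D = Nat.card D := by
  rw [← AddSubgroup.relIndex_bot_left C, ← AddSubgroup.relIndex_bot_left D]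
  exact AddSubgroup.relIndex_mul_relIndex ⊥ C D bot_le h

/-- The order of a sum of disjoint subgroups. -/
theorem natCard_sup {G : Type*} [AddCommGroup G] {H K : AddSubgroup G} (h : Disjoint H K) :
    Nat.card ↥(H ⊔ K) = Nat.card H * Nat.card K := by
  rw [← Nat.card_prod]
  refine (Nat.card_eq_of_bijective (fun x : H × K => (⟨x.1.1 + x.2.1,
    add_mem (AddSubgroup.mem_sup_left x.1.2) (AddSubgroup.mem_sup_right x.2.2)⟩ : ↥(H ⊔ K)))
    ⟨?_, ?_⟩).symm
  · rintro ⟨a, b⟩ ⟨a', b'⟩ e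
    have e0 : a.1 + b.1 = a'.1 + b'.1 := congrArg Subtype.val e
    have e' : a.1 - a'.1 = b'.1 - b.1 := by
      rw [sub_eq_sub_iff_add_eq_add, e0, add_comm]
    have h0 : a.1 - a'.1 = 0 :=
      AddSubgroup.disjoint_def.mp h (sub_mem a.2 a'.2) (by rw [e']; exact sub_mem b'.2 b.2)
    rw [e', sub_eq_zero] at h0
    rw [h0, sub_self, sub_eq_zero] at e'
    exact Prod.ext (Subtype.ext e') (Subtype.ext h0.symm)
  · rintro ⟨x, hx⟩
    obtain ⟨a, ha, b, hb, rfl⟩ := AddSubgroup.mem_sup.mp hx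
    exact ⟨(⟨a, ha⟩, ⟨b, hb⟩), rfl⟩

/-! ### The Tate module -/

section tate

variable {p : ℕ} [hp : Fact p.Prime]

theorem toZModPow_eq_zero_iff {n : ℕ} {z : ℤ_[p]} :
    PadicInt.toZModPow n z = 0 ↔ (p : ℤ_[p]) ^ n ∣ z := by
  rw [← RingHom.mem_ker, PadicInt.ker_toZModPow, Ideal.mem_span_singleton]

theorem det_sub_one {R : Type*} [CommRing R] (M : M2 R) :
    (M - 1).det = M.det - M.trace + 1 := by
  simp [det_fin_two, trace_fin_two]
  ring

/-- **Divisibility at a set of density one bounds every element from below.** -/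
theorem dvd_det_sub_one (B : TateBasis p W) {m n : ℕ} (hdvd : p ^ n ∣ m)
    (hS : {v : HeightOneSpectrum (𝓞 ℚ) | m ∣ Nat.card (W.map (Int.castRingHom
      (ZMod (Ideal.absNorm v.asIdeal)))).toAffine.Point}.HasDirichletDensity 1) (σ : GQ) :
    (p : ℤ_[p]) ^ n ∣ (B.rep σ - 1).det := by
  classical
  haveI : NeZero (p ^ n) := ⟨pow_ne_zero _ hp.out.ne_zero⟩
  by_contra hne
  set f := (FA.TorsionIso.repMod B n).toHomUnits with hf
  have hker : IsOpen (f.ker : Set GQ) :=
    Subgroup.isOpen_mono (fun τ hτ => MonoidHom.mem_ker.mpr (Units.ext (MonoidHom.mem_ker.mp hτ)))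
      (FA.TorsionIso.isOpen_ker_repMod B n)
  let _ : Fintype f.range := Fintype.ofFinite _
  let X : Set f.range := {g | (g.1 : M2 (ZMod (p ^ n))).det -
    (g.1 : M2 (ZMod (p ^ n))).trace + 1 ≠ 0}
  have hX : ∀ g ∈ X, ∀ x, x * g * x⁻¹ ∈ X := fun g hg x => by
    show _ ≠ _
    rw [Subgroup.coe_mul, Subgroup.coe_mul, Subgroup.coe_inv, Units.val_mul, Units.val_mul,
      Matrix.trace_units_conj, Matrix.det_units_conj]
    exact hg
  have hd := FA.Chebotarev.hasDirichletDensity_frobSet f.rangeRestrict f.rangeRestrict_surjective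
    (by rwa [MonoidHom.ker_rangeRestrict]) hX
  have hval : ∀ τ : GQ, (f.rangeRestrict τ).1.1 = (B.rep τ).map (PadicInt.toZModPow n) :=
    fun τ => rfl
  have hpos : 0 < (Nat.card X : ℝ) / Fintype.card f.range := by
    have : Nonempty X := ⟨⟨f.rangeRestrict σ, fun h => hne (toZModPow_eq_zero_iff.mp (by
      rw [det_sub_one, map_add, map_sub, map_one, RingHom.map_det, RingHom.mapMatrix_apply,
        AddMonoidHom.map_trace (PadicInt.toZModPow n), ← hval]
      exact h))⟩⟩
    exact div_pos (Nat.cast_pos.mpr Nat.card_pos) (Nat.cast_pos.mpr Fintype.card_pos)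
  set T := FA.Chebotarev.frobSet f.rangeRestrict X \
    {v | Ideal.absNorm v.asIdeal ∈ insert p W.Δ.natAbs.primeFactors}
  have hT : T.HasDirichletDensity ((Nat.card X : ℝ) / Fintype.card f.range) :=
    FA.Chebotarev.hasDirichletDensity_congr (by simp [T])
      ((FA.Supersingular.finite_absNorm_mem _).subset fun v hv => by
        by_contra e
        exact hv.2 ⟨hv.1, e⟩) hd
  have hdisj : Disjoint {v : HeightOneSpectrum (𝓞 ℚ) | m ∣ Nat.card (W.map (Int.castRingHom
      (ZMod (Ideal.absNorm v.asIdeal)))).toAffine.Point} T := by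
    refine Set.disjoint_left.mpr fun v hv hvT => ?_
    obtain ⟨hvX, hvF⟩ := hvT
    simp only [Set.mem_ofPred_eq, Finset.mem_insert, not_or] at hvF
    have hq := FA.Chebotarev.absNorm_prime v
    haveI := Fact.mk hq
    have hgood : W.IsGoodPrimeFor (Ideal.absNorm v.asIdeal) := fun hd => hvF.2
      (Nat.mem_primeFactors.mpr ⟨hq, Int.natCast_dvd.mp hd, Int.natAbs_ne_zero.mpr fun h =>
        (ratCurve W).isUnit_Δ.ne_zero (by simp [ratCurve, h])⟩)
    obtain ⟨A, hA⟩ := FA.Deform.exists_liesOverPrime hq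
    obtain ⟨F, hF⟩ := FA.Deform.exists_isFrobeniusAt hq hA
    obtain ⟨ht, hdt⟩ := B.rep_frobenius hq hA hvF.1 hgood hF
    refine hvX A hA F hF ?_
    rw [hval, ← RingHom.mapMatrix_apply, ← RingHom.map_det, RingHom.mapMatrix_apply,
      ← AddMonoidHom.map_trace (PadicInt.toZModPow n), ← map_sub,
      ← map_one (PadicInt.toZModPow (p := p) n), ← map_add, hdt, ht]
    have e : (Ideal.absNorm v.asIdeal : ℤ) - W.apOfModel (Ideal.absNorm v.asIdeal) + 1 =
        (Nat.card (W.map (Int.castRingHom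
          (ZMod (Ideal.absNorm v.asIdeal)))).toAffine.Point : ℤ) := by
      simp [apOfModel, traceOfFrobenius, WeierstrassCurve.card, reductionMod]
      ring
    obtain ⟨c, hc⟩ := hdvd.trans (show m ∣ _ from hv)
    rw [show ((Ideal.absNorm v.asIdeal : ℤ_[p]) -
        (W.apOfModel (Ideal.absNorm v.asIdeal) : ℤ_[p]) + 1) =
        (((Ideal.absNorm v.asIdeal : ℤ) - W.apOfModel (Ideal.absNorm v.asIdeal) + 1 : ℤ) : ℤ_[p])
        by push_cast; rfl, e, hc, map_intCast]
    push_cast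
    rw [← Nat.cast_pow, ZMod.natCast_self, zero_mul]
  have := FA.PointDiv.density_add_le_one hdisj hS hT
  linarith

/-- Points of order dividing `p ^ K` whose vectors lie in a lattice. -/
def pointsOf (B : TateBasis p W) (K : ℕ) (A : M2 ℤ_[p]) : AddSubgroup (Pts W) :=
  (rng A).map (B.φ K)

/-- **Katz's theorem at one prime.** -/
theorem exists_displaced_primePow (B : TateBasis p W) {n : ℕ}
    (h : ∀ σ : GQ, (p : ℤ_[p]) ^ n ∣ (B.rep σ - 1).det) :
    ∃ (K : ℕ) (C D : AddSubgroup (Pts W)), Displaced C D (p ^ n) ∧ ∀ x ∈ D, p ^ K • x = 0 := by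
  obtain ⟨P, R, hP, ⟨u, hu⟩, hidx, hY⟩ := exists_lattices
    (Set.range fun σ : GQ => B.rep σ - 1) n
    (by rintro _ ⟨σ, rfl⟩; exact h σ)
    (by
      rintro _ ⟨σ, rfl⟩ _ ⟨τ, rfl⟩
      have e : B.rep σ - 1 - (B.rep τ - 1) = (B.rep (σ * τ⁻¹) - 1) * B.rep τ := by
        rw [sub_mul, ← map_mul, inv_mul_cancel_right, one_mul]
        abel
      rw [e, det_mul]
      exact dvd_mul_of_dvd_left (h _) _) n le_rfl
  set Q := P * R
  have hQ : Q.det ≠ 0 := by
    rw [det_mul, hu]
    exact mul_ne_zero hP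
      (mul_ne_zero u.ne_zero (pow_ne_zero n (Nat.cast_ne_zero.mpr hp.out.ne_zero)))
  set K := Q.det.valuation
  have hQP : rng Q ≤ rng P := by
    intro v hv
    obtain ⟨w, rfl⟩ := mem_rng.mp hv
    exact mem_rng.mpr ⟨R *ᵥ w, mulVec_mulVec w P R⟩
  have hker : (B.φ K).ker ≤ rng Q := by
    intro v hv
    have hv' := (B.ker K v).mp (AddMonoidHom.mem_ker.mp hv)
    choose z hz using fun i => toZModPow_eq_zero_iff.mp (hv' i)
    obtain ⟨w, hw⟩ : ∃ w : ℤ_[p]ˣ, Q.det = w * (p : ℤ_[p]) ^ K := ⟨_, PadicInt.unitCoeff_spec hQ⟩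
    refine mem_rng.mpr ⟨Q.adjugate *ᵥ fun i => (w⁻¹ : ℤ_[p]ˣ) * z i, ?_⟩
    rw [mulVec_mulVec, mul_adjugate]
    funext i
    rw [smul_mulVec, one_mulVec, Pi.smul_apply, smul_eq_mul, hz i]
    rw [hw]
    linear_combination ((p : ℤ_[p]) ^ K * z i) * w.mul_inv
  have hstab : ∀ (σ : GQ), ∀ v ∈ rng P, B.rep σ *ᵥ v - v ∈ rng Q := by
    intro σ v hv
    obtain ⟨w, rfl⟩ := mem_rng.mp hv
    obtain ⟨Y, hY'⟩ := hY _ ⟨σ, rfl⟩
    refine mem_rng.mpr ⟨Y *ᵥ w, ?_⟩
    rw [mulVec_mulVec, ← hY', ← mulVec_mulVec, sub_mulVec, one_mulVec]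
  refine ⟨K, pointsOf B K Q, pointsOf B K P, ⟨?_, AddSubgroup.map_mono hQP, ?_,
    fun σ x hx => ?_, fun σ x hx => ?_⟩, fun x hx => ?_⟩
  · have := FA.EC.finite_torsion (ratCurve W) (n := p ^ K) (pow_ne_zero _ hp.out.ne_zero)
    refine Finite.of_injective
      (β := Submodule.torsionBy ℤ ((ratCurve W)⁄Qb).Point ((p ^ K : ℕ) : ℤ))
      (fun x => ⟨x.1, ?_⟩) fun x y e => Subtype.ext (congrArg Subtype.val e :)
    obtain ⟨v, -, hv⟩ := AddSubgroup.mem_map.mp x.2
    rw [Submodule.mem_torsionBy_iff, natCast_zsmul, ← hv]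
    exact B.nsmul_phi K v
  · rw [pointsOf, pointsOf, AddSubgroup.relIndex_map_map, sup_eq_left.mpr hker,
      sup_eq_left.mpr (hker.trans hQP), relIndex_rng_mul _ _ hP, hidx]
  · obtain ⟨v, hv, rfl⟩ := AddSubgroup.mem_map.mp hx
    refine AddSubgroup.mem_map.mpr ⟨B.rep σ *ᵥ v, ?_, (B.rep_spec σ K v).symm⟩
    have := add_mem (hstab σ v (hQP hv)) hv
    rwa [sub_add_cancel] at this
  · obtain ⟨v, hv, rfl⟩ := AddSubgroup.mem_map.mp hx
    exact AddSubgroup.mem_map.mpr
      ⟨_, hstab σ v hv, by rw [map_sub, B.rep_spec]⟩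
  · obtain ⟨v, -, rfl⟩ := AddSubgroup.mem_map.mp hx
    exact B.nsmul_phi K v

end tate

/-! ### All `m` -/

/-- **Katz's theorem**: divisibility at density one gives a displaced pair of index `m`. -/
theorem exists_displaced {m : ℕ} (hm : m ≠ 0)
    (hS : {v : HeightOneSpectrum (𝓞 ℚ) | m ∣ Nat.card (W.map (Int.castRingHom
      (ZMod (Ideal.absNorm v.asIdeal)))).toAffine.Point}.HasDirichletDensity 1) :
    ∃ C D : AddSubgroup (Pts W), Displaced C D m := by
  suffices key : ∀ d : ℕ, d ∣ m → ∃ (k : ℕ) (C D : AddSubgroup (Pts W)),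
      Displaced C D d ∧ ∀ x ∈ D, d ^ k • x = 0 by
    obtain ⟨-, C, D, h, -⟩ := key m dvd_rfl
    exact ⟨C, D, h⟩
  intro d
  induction d using Nat.recOnPosPrimePosCoprime with
  | zero => exact fun hd => absurd (Nat.eq_zero_of_zero_dvd hd) hm
  | one =>
    refine fun _ => ⟨0, ⊥, ⊥, ⟨inferInstance, le_rfl, AddSubgroup.relIndex_self ⊥,
      fun σ x hx => ?_, fun σ x hx => ?_⟩, fun x hx => ?_⟩
    · rw [AddSubgroup.mem_bot] at hx ⊢
      rw [hx]
      exact FA.Local.gal_smul_zero _ σ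
    · rw [AddSubgroup.mem_bot] at hx ⊢
      rw [hx, sub_zero]
      exact FA.Local.gal_smul_zero _ σ
    · rw [AddSubgroup.mem_bot] at hx
      rw [hx, nsmul_zero]
  | prime_pow p n hp hn =>
    intro hd
    haveI := Fact.mk hp
    obtain ⟨B⟩ := exists_tateBasis (p := p) W
    obtain ⟨K, C, D, h, hK⟩ := exists_displaced_primePow B fun σ => dvd_det_sub_one B hd hS σ
    refine ⟨K, C, D, h, fun x hx => ?_⟩
    obtain ⟨c, hc⟩ := pow_dvd_pow p (Nat.le_mul_of_pos_left K hn)
    rw [← pow_mul, hc, mul_comm, mul_nsmul', hK x hx, nsmul_zero]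
  | coprime a b ha hb hab iha ihb =>
    intro hd
    obtain ⟨k₁, C₁, D₁, ⟨hf₁, hle₁, hi₁, hC₁, hD₁⟩, hk₁⟩ := iha ((dvd_mul_right a b).trans hd)
    obtain ⟨k₂, C₂, D₂, ⟨hf₂, hle₂, hi₂, hC₂, hD₂⟩, hk₂⟩ := ihb ((dvd_mul_left b a).trans hd)
    have hdis : Disjoint D₁ D₂ := AddSubgroup.disjoint_def.mpr fun {x} hx hx' =>
      AddMonoid.addOrderOf_eq_one_iff.mp (Nat.eq_one_of_dvd_coprimes (hab.pow k₁ k₂)
        (addOrderOf_dvd_of_nsmul_eq_zero (hk₁ x hx)) (addOrderOf_dvd_of_nsmul_eq_zero (hk₂ x hx')))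
    have hfin : Finite ↥(D₁ ⊔ D₂) := Nat.finite_of_card_ne_zero (by
      rw [natCard_sup hdis]
      exact mul_ne_zero Nat.card_pos.ne' Nat.card_pos.ne')
    have hle : C₁ ⊔ C₂ ≤ D₁ ⊔ D₂ := sup_le_sup hle₁ hle₂
    refine ⟨k₁ + k₂, C₁ ⊔ C₂, D₁ ⊔ D₂, ⟨hfin, hle, ?_, fun σ x hx => ?_, fun σ x hx => ?_⟩,
      fun x hx => ?_⟩
    · have h1 := card_mul_relIndex hle
      rw [natCard_sup hdis, natCard_sup (hdis.mono hle₁ hle₂), ← card_mul_relIndex hle₁,
        ← card_mul_relIndex hle₂, hi₁, hi₂] at h1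
      haveI : Finite C₁ := Finite.of_injective _ (AddSubgroup.inclusion_injective hle₁)
      haveI : Finite C₂ := Finite.of_injective _ (AddSubgroup.inclusion_injective hle₂)
      exact mul_left_cancel₀ (mul_ne_zero Nat.card_pos.ne' Nat.card_pos.ne')
        (h1.trans (by ring))
    · obtain ⟨y, hy, z, hz, rfl⟩ := AddSubgroup.mem_sup.mp hx
      rw [FA.Local.gal_smul_add]
      exact add_mem (AddSubgroup.mem_sup_left (hC₁ σ y hy))
        (AddSubgroup.mem_sup_right (hC₂ σ z hz))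
    · obtain ⟨y, hy, z, hz, rfl⟩ := AddSubgroup.mem_sup.mp hx
      rw [FA.Local.gal_smul_add, add_sub_add_comm]
      exact add_mem (AddSubgroup.mem_sup_left (hD₁ σ y hy))
        (AddSubgroup.mem_sup_right (hD₂ σ z hz))
    · obtain ⟨y, hy, z, hz, rfl⟩ := AddSubgroup.mem_sup.mp hx
      obtain ⟨c, hc⟩ : a ^ k₁ ∣ (a * b) ^ (k₁ + k₂) :=
        (pow_dvd_pow a (Nat.le_add_right _ _)).trans (pow_dvd_pow_of_dvd (dvd_mul_right a b) _)
      obtain ⟨e, he⟩ : b ^ k₂ ∣ (a * b) ^ (k₁ + k₂) :=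
        (pow_dvd_pow b (Nat.le_add_left _ _)).trans (pow_dvd_pow_of_dvd (dvd_mul_left b a) _)
      rw [nsmul_add, hc, mul_comm, mul_nsmul', hk₁ y hy, nsmul_zero, zero_add, mul_comm, ← hc, he,
        mul_comm, mul_nsmul', hk₂ z hz, nsmul_zero]

/-- **The converse**: a displaced pair forces divisibility at every good prime away from `D`. -/
theorem dvd_pointCount_of_displaced {C D : AddSubgroup (Pts W)} {m : ℕ} (h : Displaced C D m)
    {q : ℕ} [hq : Fact q.Prime] (hgood : W.IsGoodPrimeFor q) (hqD : ¬ q ∣ Nat.card D) :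
    m ∣ Nat.card (W.map (Int.castRingHom (ZMod q))).toAffine.Point := by
  classical
  obtain ⟨hfin, hle, hidx, -, hD⟩ := h
  obtain ⟨A, hA⟩ := FA.Deform.exists_liesOverPrime hq.out
  obtain ⟨σ, hσ⟩ := FA.Deform.exists_isFrobeniusAt hq.out hA
  set N := Nat.card D
  haveI : Finite C := Finite.of_injective _ (AddSubgroup.inclusion_injective hle)
  let δ : Pts W →+ Pts W := AddMonoidHom.mk' (fun x => σ • x - x)
    fun x y => by rw [FA.Local.gal_smul_add, add_sub_add_comm]
  let f : D →+ C := (δ.comp D.subtype).codRestrict C fun x => hD σ x.1 x.2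
  -- the index divides the number of fixed points in `D`
  have h1 : m ∣ Nat.card f.ker := by
    have e1 : Nat.card f.ker * Nat.card f.range = N := by
      rw [← AddSubgroup.index_ker, mul_comm, AddSubgroup.index_mul_card]
    obtain ⟨c, hc⟩ := AddSubgroup.card_addSubgroup_dvd_card f.range
    have e2 : Nat.card C * m = N := by rw [← hidx]; exact card_mul_relIndex hle
    refine ⟨c, mul_right_cancel₀ (b := Nat.card f.range) Nat.card_pos.ne' ?_⟩
    rw [e1, ← e2, hc]
    ring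
  -- which are among the torsion points of the reduction
  let G : AddSubgroup (Pts W) := (nsmulAddMonoidHom N).ker ⊓ δ.ker
  have hG : Nat.card G = Nat.card {R : (W.map (Int.castRingHom (ZMod q))).toAffine.Point //
      N • R = 0} := by
    rw [FA.ReducedGroups.natCard_torsion_reduction W hgood hqD hA hσ]
    refine Nat.card_congr (Equiv.subtypeEquivRight fun x => ?_)
    show x ∈ G ↔ _
    simp only [G, AddSubgroup.mem_inf, AddMonoidHom.mem_ker, nsmulAddMonoidHom_apply, δ,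
      AddMonoidHom.mk'_apply, sub_eq_zero]
  have h2 : Nat.card f.ker ∣ Nat.card G :=
    AddSubgroup.card_dvd_of_injective ((D.subtype.comp f.ker.subtype).codRestrict G fun x =>
        AddSubgroup.mem_inf.mpr ⟨AddMonoidHom.mem_ker.mpr (congrArg Subtype.val
          (card_nsmul_eq_zero' (x := x.1))), AddMonoidHom.mem_ker.mpr (congrArg Subtype.val
          (AddMonoidHom.mem_ker.mp x.2))⟩)
      fun a b e => Subtype.ext (Subtype.ext (congrArg Subtype.val e :))
  have h3 : Nat.card {R : (W.map (Int.castRingHom (ZMod q))).toAffine.Point // N • R = 0} ∣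
      Nat.card (W.map (Int.castRingHom (ZMod q))).toAffine.Point := by
    refine Dvd.dvd.trans (dvd_of_eq (Nat.card_congr (Equiv.subtypeEquivRight fun R => ?_)))
      (AddSubgroup.card_addSubgroup_dvd_card
        (nsmulAddMonoidHom (α := (W.map (Int.castRingHom (ZMod q))).toAffine.Point) N).ker)
    rw [AddMonoidHom.mem_ker, nsmulAddMonoidHom_apply]
  exact h1.trans (h2.trans (hG ▸ h3))

end FA.Katz

end
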