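import Fermat.Agent.Root.SummaryBirchMoment

/-!
# Counting Weierstrass equations and coordinate changes over a prime field
-/

set_option autoImplicit false
set_option linter.style.haveILetI false

noncomputable section

open WeierstrassCurve

namespace FA.ReducedGroups

variable (q : ℕ) [hq : Fact q.Prime]

/-- The equations with nonzero discriminant, stable under coordinate changes. -/
def ellipticEquations : SubMulAction (VariableChange (ZMod q)) (WeierstrassCurve (ZMod q)) where
  carrier := {V | V.Δ ≠ 0}
  smul_mem' C V hV := by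
    show (C • V).Δ ≠ 0
    rw [variableChange_Δ]
    exact mul_ne_zero (pow_ne_zero _ (Units.ne_zero _)) hV

variable {q}

/-- Coordinate changes as tuples. -/
def variableChangeEquiv :
    VariableChange (ZMod q) ≃ (ZMod q)ˣ × ZMod q × ZMod q × ZMod q where
  toFun C := (C.u, C.r, C.s, C.t)
  invFun x := ⟨x.1, x.2.1, x.2.2.1, x.2.2.2⟩
  left_inv _ := rfl
  right_inv _ := rfl

/-- Equations as tuples. -/
def weierstrassEquiv :
    WeierstrassCurve (ZMod q) ≃ ZMod q × ZMod q × ZMod q × ZMod q × ZMod q where
  toFun V := (V.a₁, V.a₂, V.a₃, V.a₄, V.a₆)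
  invFun x := ⟨x.1, x.2.1, x.2.2.1, x.2.2.2.1, x.2.2.2.2⟩
  left_inv _ := rfl
  right_inv _ := rfl

instance finite_variableChange : Finite (VariableChange (ZMod q)) :=
  Finite.of_equiv _ variableChangeEquiv.symm

instance finite_weierstrassCurve : Finite (WeierstrassCurve (ZMod q)) :=
  Finite.of_equiv _ weierstrassEquiv.symm

/-- The group of coordinate changes has order `(q - 1) q³`. -/
theorem natCard_variableChange :
    Nat.card (VariableChange (ZMod q)) = (q - 1) * q ^ 3 := by
  rw [Nat.card_congr variableChangeEquiv, Nat.card_prod, Nat.card_prod, Nat.card_prod,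
    Nat.card_zmod, Nat.card_units, Nat.card_zmod]
  ring

/-- The normal form: a short equation moved by a unipotent change. -/
def fromShort (x : (ZMod q × ZMod q × ZMod q) × (ZMod q × ZMod q)) :
    WeierstrassCurve (ZMod q) :=
  (⟨1, x.1.1, x.1.2.1, x.1.2.2⟩ : VariableChange (ZMod q)) • FA.BirchMoment.shortMod x.2.1 x.2.2

/-- Every equation is uniquely of that form. -/
theorem bijective_fromShort (h5 : 5 ≤ q) : Function.Bijective (fromShort (q := q)) := by
  refine (Nat.bijective_iff_injective_and_card _).mpr ⟨fun x y e => ?_, ?_⟩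
  · have h2 : (2 : ZMod q) ≠ 0 := Ring.two_ne_zero (FA.BirchMoment.ringChar_ne_two h5)
    have h3 : (3 : ZMod q) ≠ 0 := by
      exact_mod_cast FA.BirchMoment.natCast_ne_zero_of_five h5 three_pos (by norm_num : 3 < 5)
    obtain ⟨⟨r, s, t⟩, a, b⟩ := x
    obtain ⟨⟨r', s', t'⟩, a', b'⟩ := y
    simp only [fromShort, variableChange_def, inv_one, Units.val_one, one_pow, one_mul,
      WeierstrassCurve.ext_iff] at e
    obtain ⟨e1, e2, e3, e4, e6⟩ := e
    obtain rfl : s = s' := mul_left_cancel₀ h2 (by linear_combination e1)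
    obtain rfl : r = r' := mul_left_cancel₀ h3 (by linear_combination e2)
    obtain rfl : t = t' := mul_left_cancel₀ h2 (by linear_combination e3)
    obtain rfl : a = a' := by linear_combination e4
    obtain rfl : b = b' := by linear_combination e6
    rfl
  · rw [Nat.card_congr weierstrassEquiv]
    simp only [Nat.card_prod]
    ring

/-- **There are `q⁵ - q⁴` equations with nonzero discriminant.** -/
theorem natCard_ellipticEquations (h5 : 5 ≤ q) :
    Nat.card (ellipticEquations q) = q ^ 5 - q ^ 4 := by
  let e := Equiv.ofBijective _ (bijective_fromShort h5)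
  have hiff : ∀ x : (ZMod q × ZMod q × ZMod q) × (ZMod q × ZMod q),
      x.2 ∈ FA.BirchMoment.nonsingular q ↔ e x ∈ ellipticEquations q := fun x => by
    have h16 : (16 : ZMod q) ≠ 0 := by
      rw [show (16 : ZMod q) = 2 ^ 4 by norm_num]
      exact pow_ne_zero 4 (Ring.two_ne_zero (FA.BirchMoment.ringChar_ne_two h5))
    show _ ↔ (fromShort x).Δ ≠ 0
    simp [fromShort, FA.BirchMoment.nonsingular, variableChange_Δ, FA.BirchMoment.shortMod_Δ, h16]
  have hns : (FA.BirchMoment.nonsingular q).card = q ^ 2 - q := by
    have h := FA.BirchMoment.card_nonsingular h5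
    have hle : q ≤ q ^ 2 := Nat.le_self_pow two_ne_zero q
    zify [hle]
    exact h
  calc Nat.card (ellipticEquations q)
      = Nat.card {x : (ZMod q × ZMod q × ZMod q) × (ZMod q × ZMod q) //
          x.2 ∈ FA.BirchMoment.nonsingular q} :=
        (Nat.card_congr (e.subtypeEquiv hiff)).symm
    _ = Nat.card ((ZMod q × ZMod q × ZMod q) × {y // y ∈ FA.BirchMoment.nonsingular q}) :=
        Nat.card_congr
          { toFun := fun x => (x.1.1, ⟨x.1.2, x.2⟩)
            invFun := fun x => ⟨(x.1, x.2.1), x.2.2⟩
            left_inv := fun x => rfl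
            right_inv := fun x => rfl }
    _ = q ^ 3 * (q ^ 2 - q) := by
        rw [Nat.card_prod, Nat.card_eq_fintype_card (α := {y // _}), Fintype.card_coe, hns]
        simp only [Nat.card_prod, Nat.card_zmod]
        ring
    _ = q ^ 5 - q ^ 4 := by rw [Nat.mul_sub, ← pow_add, ← pow_succ]

/-- The trace is unchanged by a change of coordinates. -/
theorem traceOfFrobenius_variableChange (C : VariableChange (ZMod q)) (V : WeierstrassCurve (ZMod q))
    [V.IsElliptic] : (C • V).traceOfFrobenius = V.traceOfFrobenius := by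
  show (Nat.card (ZMod q) : ℤ) + 1 - (Nat.card (C • V).toAffine.Point : ℤ) =
    (Nat.card (ZMod q) : ℤ) + 1 - (Nat.card V.toAffine.Point : ℤ)
  rw [Nat.card_congr (FA.Frob.vcEquiv C rfl).toEquiv]

open MulAction in
/-- **Averages over classes**: an invariant function summed over the classes with weight `1 / #Aut`
is its sum over the equations divided by the order of the group. -/
theorem sum_classes {f : ellipticEquations q → ℚ}
    (hf : ∀ (C : VariableChange (ZMod q)) (V : ellipticEquations q), f (C • V) = f V) :
    ∑ᶠ c : orbitRel.Quotient (VariableChange (ZMod q)) (ellipticEquations q),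
      f c.out / Nat.card (stabilizer (VariableChange (ZMod q)) c.out) =
      (∑ᶠ V, f V) / Nat.card (VariableChange (ZMod q)) := by
  set G := VariableChange (ZMod q)
  haveI := Fintype.ofFinite (orbitRel.Quotient G (ellipticEquations q))
  haveI := Fintype.ofFinite (ellipticEquations q)
  haveI := fun c : orbitRel.Quotient G (ellipticEquations q) =>
    Fintype.ofFinite (G ⧸ stabilizer G c.out)
  have hG : (Nat.card G : ℚ) ≠ 0 := Nat.cast_ne_zero.mpr Nat.card_pos.ne'
  set e := selfEquivSigmaOrbitsQuotientStabilizer G (ellipticEquations q) with he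
  have hval : ∀ x : Σ c : orbitRel.Quotient G (ellipticEquations q), G ⧸ stabilizer G c.out,
      f (e.symm x) = f x.1.out := by
    rintro ⟨c, g⟩
    induction g using QuotientGroup.induction_on with
    | H g =>
      show f (g • c.out) = _
      exact hf g _
  have key : ∀ c : orbitRel.Quotient G (ellipticEquations q),
      f c.out / Nat.card (stabilizer G c.out) =
        ((Nat.card (G ⧸ stabilizer G c.out) : ℚ) * f c.out) / Nat.card G := fun c => by
    rw [div_eq_div_iff (Nat.cast_ne_zero.mpr Nat.card_pos.ne') hG,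
      Subgroup.card_eq_card_quotient_mul_card_subgroup (stabilizer G c.out), Nat.cast_mul]
    ring
  rw [finsum_eq_sum_of_fintype, finsum_eq_sum_of_fintype, Finset.sum_congr rfl fun c _ => key c,
    ← Finset.sum_div, ← e.symm.sum_comp f, Finset.sum_congr rfl fun x _ => hval x,
    Fintype.sum_sigma]
  refine congrArg (· / (Nat.card G : ℚ)) (Finset.sum_congr rfl fun c _ => ?_)
  simp [Nat.card_eq_fintype_card]

/-- Sums over the equations reduce to the short ones. -/
theorem sum_ellipticEquations (h5 : 5 ≤ q) (f : WeierstrassCurve (ZMod q) → ℚ)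
    (hf : ∀ (C : VariableChange (ZMod q)) (V : WeierstrassCurve (ZMod q)), V.Δ ≠ 0 → f (C • V) = f V) :
    ∑ᶠ V : ellipticEquations q, f V.1 =
      (q : ℚ) ^ 3 * ∑ ab ∈ FA.BirchMoment.nonsingular q, f (FA.BirchMoment.shortMod ab.1 ab.2) := by
  classical
  haveI := Fintype.ofFinite (ellipticEquations q)
  rw [finsum_eq_sum_of_fintype]
  have e : ∑ x ∈ (Finset.univ : Finset (ZMod q × ZMod q × ZMod q)) ×ˢ FA.BirchMoment.nonsingular q,
      f (FA.BirchMoment.shortMod x.2.1 x.2.2) = ∑ V : ellipticEquations q, f V.1 := by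
    refine Finset.sum_bij (fun x hx => (⟨fromShort x, ?_⟩ : ellipticEquations q))
      (fun _ _ => Finset.mem_univ _) (fun x _ y _ h => (bijective_fromShort h5).1
        (congrArg Subtype.val h)) (fun V _ => ?_) (fun x hx => ?_)
    · show (fromShort x).Δ ≠ 0
      rw [fromShort, variableChange_Δ]
      exact mul_ne_zero (pow_ne_zero _ (Units.ne_zero _)) (FA.BirchMoment.shortMod_Δ_ne_zero h5
        (Finset.mem_filter.mp (Finset.mem_product.mp hx).2).2)
    · obtain ⟨x, hx⟩ := (bijective_fromShort h5).2 V.1
      refine ⟨x, Finset.mem_product.mpr ⟨Finset.mem_univ _, Finset.mem_filter.mpr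
        ⟨Finset.mem_univ _, fun h0 => V.2 ?_⟩⟩, Subtype.ext hx⟩
      rw [← hx, fromShort, variableChange_Δ, FA.BirchMoment.shortMod_Δ, h0, mul_zero, mul_zero]
    · exact (hf _ _ (FA.BirchMoment.shortMod_Δ_ne_zero h5
        (Finset.mem_filter.mp (Finset.mem_product.mp hx).2).2)).symm
  rw [← e, Finset.sum_product]
  dsimp only
  rw [Finset.sum_const, Finset.card_univ, nsmul_eq_mul, Fintype.card_prod, Fintype.card_prod,
    ZMod.card]
  push_cast
  ring

end FA.ReducedGroups

end
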