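import Fermat.Agent.ReducedGroups.Structure
import Fermat.Agent.Twists.Count

/-!
# Doubling on `y² = x³ - 12 x`

The projective doubling map of the `x`-line, and the order of `(-2, 4)` modulo a prime.
-/

set_option autoImplicit false
set_option linter.style.haveILetI false
set_option linter.unusedSectionVars false

noncomputable section

open WeierstrassCurve FA.Frob
open scoped WeierstrassCurve.Affine Classical

namespace FA.ReducedGroups

/-- `y² = x³ - 12 x`. -/
def grossCurve (R : Type*) [CommRing R] : WeierstrassCurve R := ⟨0, 0, 0, -12, 0⟩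

/-- Numerators and denominators of `x(2^i P)` for `P = (-2, 4)` on `y² = x³ - 12 x`. -/
def grossSeq (R : Type*) [CommRing R] : ℕ → R × R
  | 0 => (-2, 1)
  | i + 1 => (((grossSeq R i).1 ^ 2 + 12 * (grossSeq R i).2 ^ 2) ^ 2,
      4 * (grossSeq R i).1 * (grossSeq R i).2 *
        ((grossSeq R i).1 ^ 2 - 12 * (grossSeq R i).2 ^ 2))

/-- The sequence commutes with ring maps. -/
theorem map_grossSeq {R S : Type*} [CommRing R] [CommRing S] (f : R →+* S) :
    ∀ i, (f (grossSeq R i).1, f (grossSeq R i).2) = grossSeq S i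
  | 0 => by simp [grossSeq, map_neg, map_ofNat]
  | i + 1 => by
    rw [grossSeq, grossSeq, ← map_grossSeq f i]
    simp [map_ofNat]

variable {F : Type*} [Field F] [DecidableEq F]

/-- The discriminant. -/
theorem grossCurve_Δ : (grossCurve F).Δ = 110592 := by
  simp only [grossCurve, WeierstrassCurve.Δ, b₂, b₄, b₆, b₈]; ring

/-- The equation. -/
theorem grossCurve_equation {x y : F} :
    (grossCurve F).toAffine.Equation x y ↔ y ^ 2 = x ^ 3 - 12 * x := by
  rw [Affine.equation_iff]
  simp [grossCurve]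
  constructor <;> intro h <;> linear_combination h

/-- **`2^i P` vanishes exactly when the `i`-th denominator does.** -/
theorem pow_two_nsmul_eq_zero_iff (h2 : (2 : F) ≠ 0) (h3 : (3 : F) ≠ 0)
    (hP : (grossCurve F).toAffine.Nonsingular (-2) 4) (i : ℕ) :
    2 ^ i • Affine.Point.some _ _ hP = 0 ↔ (grossSeq F i).2 = 0 := by
  suffices h : (2 ^ i • Affine.Point.some _ _ hP = 0 ∧ (grossSeq F i).2 = 0 ∧
        (grossSeq F i).1 ≠ 0) ∨
      ∃ u v, ∃ h : (grossCurve F).toAffine.Nonsingular u v,
        2 ^ i • Affine.Point.some _ _ hP = .some u v h ∧ (grossSeq F i).2 ≠ 0 ∧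
        (grossSeq F i).1 = u * (grossSeq F i).2 by
    rcases h with ⟨h, h', -⟩ | ⟨u, v, hn, h, h', -⟩
    · exact iff_of_true h h'
    · exact iff_of_false (h ▸ Affine.Point.some_ne_zero hn) h'
  induction i with
  | zero => exact Or.inr ⟨_, _, hP, one_nsmul _, one_ne_zero, (mul_one _).symm⟩
  | succ i ih =>
    rw [pow_succ', mul_nsmul', two_nsmul, grossSeq]
    rcases ih with ⟨hQ, hB, hA⟩ | ⟨u, v, hn, hQ, hB, hA⟩
    · exact Or.inl ⟨by rw [hQ, add_zero], by rw [hB]; ring,
        by rw [hB]; simpa using hA⟩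
    rw [hQ, hA]
    dsimp only
    set B := (grossSeq F i).2
    have he := grossCurve_equation.mp hn.1
    have hnegY : (grossCurve F).toAffine.negY u v = -v := by simp [Affine.negY, grossCurve]
    rcases eq_or_ne v 0 with rfl | hv
    · refine Or.inl ⟨Affine.Point.add_self_of_Y_eq (by rw [hnegY, neg_zero]), ?_, ?_⟩
      · linear_combination -4 * B ^ 4 * he
      · refine pow_ne_zero 2 ?_
        rw [show (u * B) ^ 2 + 12 * B ^ 2 = B ^ 2 * (u ^ 2 + 12) by ring]
        refine mul_ne_zero (pow_ne_zero 2 hB) fun e => ?_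
        have hu : u * 24 = 0 := by linear_combination u * e + he
        rcases mul_eq_zero.mp hu with hu | hu
        · rw [hu] at e
          exact mul_ne_zero (mul_ne_zero h2 h2) h3 (by linear_combination e)
        · exact mul_ne_zero (pow_ne_zero 3 h2) h3 (by linear_combination hu)
    · have hy : v ≠ (grossCurve F).toAffine.negY u v := by
        rw [hnegY]
        exact fun e => hv ((mul_eq_zero.mp (by linear_combination e : 2 * v = 0)).resolve_left h2)
      refine Or.inr ⟨_, _, _, Affine.Point.add_self_of_Y_ne hy, ?_, ?_⟩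
      · rw [show 4 * (u * B) * B * ((u * B) ^ 2 - 12 * B ^ 2) = 4 * B ^ 4 * v ^ 2 by
          linear_combination -4 * B ^ 4 * he]
        have h4 : (4 : F) ≠ 0 := by
          rw [show (4 : F) = 2 * 2 by norm_num]
          exact mul_ne_zero h2 h2
        exact mul_ne_zero (mul_ne_zero h4 (pow_ne_zero 4 hB)) (pow_ne_zero 2 hv)
      · rw [Affine.slope_of_Y_ne rfl hy, hnegY, show v - -v = 2 * v by ring]
        simp only [Affine.addX, grossCurve]
        field_simp
        linear_combination (36 * (u ^ 2 - 4) ^ 2) * he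

/-- At a prime `q ≡ 3 (mod 4)` above three the curve is supersingular. -/
theorem natCard_grossCurve {q : ℕ} [Fact q.Prime] (h5 : 5 ≤ q) (h4 : q % 4 = 3) :
    Nat.card (grossCurve (ZMod q)).toAffine.Point = q + 1 := by
  have hF : ringChar (ZMod q) ≠ 2 := (ZMod.ringChar_zmod_n q).trans_ne (by omega)
  have hΔ : (grossCurve (ZMod q)).Δ ≠ 0 := by
    rw [grossCurve_Δ]
    intro e
    have hd : q ∣ 2 ^ 12 * 3 ^ 3 := (ZMod.natCast_eq_zero_iff _ q).mp (by norm_num; exact e)
    have hq : q.Prime := Fact.out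
    rcases hq.dvd_mul.mp hd with h | h
    · have := Nat.le_of_dvd two_pos (hq.dvd_of_dvd_pow h); omega
    · have := Nat.le_of_dvd three_pos (hq.dvd_of_dvd_pow h); omega
  have hneg : quadraticChar (ZMod q) (-1) = -1 :=
    quadraticChar_neg_one_iff_not_isSquare.mpr fun h =>
      ((ZMod.exists_sq_eq_neg_one_iff (p := q)).mp h) h4
  have hsum := FA.Twists.natCard_point_eq_sum hF _ hΔ
  set S := ∑ x : ZMod q, quadraticChar (ZMod q) (4 * x ^ 3 + (grossCurve (ZMod q)).b₂ * x ^ 2 +
    2 * (grossCurve (ZMod q)).b₄ * x + (grossCurve (ZMod q)).b₆) with hS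
  have h : S = -S := by
    rw [hS, ← Finset.sum_neg_distrib]
    refine Fintype.sum_equiv (Equiv.neg _) _ _ fun x => ?_
    rw [Equiv.neg_apply, ← neg_one_mul (quadraticChar _ _), ← hneg, ← map_mul]
    congr 1
    simp [grossCurve, b₂, b₄, b₆]
    ring
  rw [ZMod.card] at hsum
  omega

end FA.ReducedGroups

end
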