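import Fermat.Agent.ReducedGroups.Exponent

/-!
# The exponents of a curve and of its twist over a prime field

For traces `a` and `-a` the cofactors `d`, `d'` divide `a - 2` and `a + 2`, so share at most a
factor `4`, and their squares divide `4 q - a²`. So `d d' ≤ 8 √q` and one exponent is large (Mestre).
-/

set_option autoImplicit false
set_option linter.style.haveILetI false
set_option linter.unusedSectionVars false

noncomputable section

open WeierstrassCurve FA.Frob FA.PointDiv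
open scoped WeierstrassCurve.Affine Classical

namespace FA.ReducedGroups

variable {q : ℕ} [hq : Fact q.Prime]

/-- **The structure of a curve over a prime field.** -/
theorem exists_structure_zmod (h3 : 3 ≤ q) (V : WeierstrassCurve (ZMod q)) [V.IsElliptic] :
    V.traceOfFrobenius ^ 2 < 4 * (q : ℤ) ∧
    ∃ d : ℕ, 0 < d ∧
      (d : ℤ) * AddMonoid.exponent V.toAffine.Point = (q : ℤ) + 1 - V.traceOfFrobenius ∧
      d ∣ AddMonoid.exponent V.toAffine.Point ∧ (d : ℤ) ∣ V.traceOfFrobenius - 2 := by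
  obtain ⟨W, rfl⟩ : ∃ W : WeierstrassCurve ℤ, W.map (Int.castRingHom (ZMod q)) = V :=
    ⟨⟨V.a₁.val, V.a₂.val, V.a₃.val, V.a₄.val, V.a₆.val⟩, by ext <;> simp⟩
  have hΔ0 := (W.map (Int.castRingHom (ZMod q))).isUnit_Δ.ne_zero
  rw [map_Δ, eq_intCast] at hΔ0
  have hgood : W.IsGoodPrimeFor q := fun h => hΔ0 ((ZMod.intCast_zmod_eq_zero_iff_dvd _ _).mpr h)
  haveI := ratCurve_isElliptic_of_Δ (W := W) fun h => hΔ0 (by rw [h, Int.cast_zero])
  refine ⟨?_, ?_⟩
  · have h := FA.HasseBound.traceOfFrobenius_sq_le (W.map (Int.castRingHom (ZMod q)))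
    refine lt_of_le_of_ne h fun e => ?_
    obtain ⟨m, hm⟩ : (q : ℤ) ∣ (W.map (Int.castRingHom (ZMod q))).traceOfFrobenius :=
      (Nat.prime_iff_prime_int.mp hq.out).dvd_of_dvd_pow ⟨4, by rw [e]; ring⟩
    have h3' : (3 : ℤ) ≤ q := by exact_mod_cast h3
    rw [hm] at e
    have e' : (q : ℤ) * m ^ 2 = 4 :=
      mul_left_cancel₀ (show (q : ℤ) ≠ 0 by omega) (by linear_combination e)
    have : q ∣ 2 ^ 2 := Int.natCast_dvd_natCast.mp ⟨m ^ 2, by push_cast; linear_combination -e'⟩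
    have := (Nat.prime_dvd_prime_iff_eq hq.out Nat.prime_two).mp (hq.out.dvd_of_dvd_pow this)
    omega
  · obtain ⟨d, hd0, hde, hdvd, -, -, hda⟩ := exists_structure (W := W) h3 hgood
    exact ⟨d, hd0, hde, hdvd, hda⟩

/-- **Opposite traces make the product of the exponents large.** -/
theorem exponent_mul_ge (h3 : 3 ≤ q) (V V' : WeierstrassCurve (ZMod q)) [V.IsElliptic]
    [V'.IsElliptic] (h : V'.traceOfFrobenius = -V.traceOfFrobenius) :
    (q : ℝ) * Real.sqrt q / 18 ≤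
      (AddMonoid.exponent V.toAffine.Point : ℝ) * AddMonoid.exponent V'.toAffine.Point := by
  obtain ⟨hM, d, hd0, hde, ⟨c, hc⟩, hda⟩ := exists_structure_zmod h3 V
  obtain ⟨-, d', hd0', hde', ⟨c', hc'⟩, hda'⟩ := exists_structure_zmod h3 V'
  set a := V.traceOfFrobenius
  set e := AddMonoid.exponent V.toAffine.Point
  set e' := AddMonoid.exponent V'.toAffine.Point
  rw [h] at hde' hda'
  have h1 : (d : ℤ) ^ 2 ∣ 4 * q - a ^ 2 := by
    obtain ⟨t, ht⟩ := hda
    refine ⟨4 * c - t ^ 2, ?_⟩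
    rw [hc] at hde
    push_cast at hde
    linear_combination -(a - 2 + d * t) * ht - 4 * hde
  have h2 : (d' : ℤ) ^ 2 ∣ 4 * q - a ^ 2 := by
    obtain ⟨t, ht⟩ := hda'
    refine ⟨4 * c' - t ^ 2, ?_⟩
    rw [hc'] at hde'
    push_cast at hde'
    linear_combination -(-a - 2 + d' * t) * ht - 4 * hde'
  have hg : Nat.gcd d d' ∣ 4 := by
    refine Int.natCast_dvd_natCast.mp ?_
    have e1 : (Nat.gcd d d' : ℤ) ∣ a - 2 :=
      (Int.natCast_dvd_natCast.mpr (Nat.gcd_dvd_left _ _)).trans hda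
    have e2 : (Nat.gcd d d' : ℤ) ∣ -a - 2 :=
      (Int.natCast_dvd_natCast.mpr (Nat.gcd_dvd_right _ _)).trans hda'
    have := (e1.add e2).neg_right
    rwa [show -(a - 2 + (-a - 2)) = ((4 : ℕ) : ℤ) by push_cast; ring] at this
  have hdd : (d * d') ^ 2 ≤ 64 * q := by
    have hl : (Nat.lcm d d') ^ 2 ≤ 4 * q := by
      rw [← Nat.pow_lcm_pow]
      have : Nat.lcm (d ^ 2) (d' ^ 2) ∣ (4 * (q : ℤ) - a ^ 2).natAbs := Nat.lcm_dvd
        (Int.natCast_dvd.mp (by rw [Nat.cast_pow]; exact h1))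
        (Int.natCast_dvd.mp (by rw [Nat.cast_pow]; exact h2))
      refine (Nat.le_of_dvd (Int.natAbs_pos.mpr (by linarith)) this).trans ?_
      zify
      rw [abs_of_pos (by linarith)]
      linarith [sq_nonneg a]
    calc (d * d') ^ 2 = Nat.gcd d d' ^ 2 * Nat.lcm d d' ^ 2 := by
          rw [← mul_pow, Nat.gcd_mul_lcm]
      _ ≤ 4 ^ 2 * (4 * q) :=
          Nat.mul_le_mul (Nat.pow_le_pow_left (Nat.le_of_dvd (by norm_num) hg) 2) hl
      _ = _ := by ring
  have hprod : ((d * d' : ℕ) : ℝ) * ((e : ℝ) * e') = ((q : ℝ) + 1) ^ 2 - (a : ℝ) ^ 2 := by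
    have e1 : (d : ℝ) * e = (q : ℝ) + 1 - a := by exact_mod_cast hde
    have e2 : (d' : ℝ) * e' = (q : ℝ) + 1 + a := by
      have : (d' : ℤ) * e' = (q : ℤ) + 1 + a := by rw [hde']; ring
      exact_mod_cast this
    push_cast
    linear_combination ((q : ℝ) + 1 + a) * e1 + (d : ℝ) * e * e2
  have hq3 : (3 : ℝ) ≤ q := by exact_mod_cast h3
  have ha : (a : ℝ) ^ 2 ≤ 4 * q := by exact_mod_cast hM.le
  set s := Real.sqrt q
  have hs : s ^ 2 = q := Real.sq_sqrt (by positivity)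
  have hs0 : 0 < s := Real.sqrt_pos.mpr (by positivity)
  have hds : ((d * d' : ℕ) : ℝ) ≤ 8 * s := by
    have h' := abs_le_of_sq_le_sq (a := ((d * d' : ℕ) : ℝ)) (b := 8 * s)
      (by rw [mul_pow, hs]; norm_num; exact_mod_cast hdd) (by positivity)
    exact (le_abs_self _).trans h'
  have hlow : 4 / 9 * (q : ℝ) ^ 2 ≤ 8 * s * ((e : ℝ) * e') := by
    refine le_trans ?_ (mul_le_mul_of_nonneg_right hds (by positivity))
    rw [hprod]
    nlinarith
  rw [div_le_iff₀ (by norm_num : (0 : ℝ) < 18)]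
  refine le_of_mul_le_mul_right ?_ hs0
  calc (q : ℝ) * s * s = (q : ℝ) ^ 2 := by rw [mul_assoc, ← sq, hs]; ring
    _ ≤ (e : ℝ) * e' * 18 * s := by nlinarith

end FA.ReducedGroups

end
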