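import Fermat.Agent.ReducedGroups.PointOrder

/-!
# The primes at which an integer has small order

The primes `p` with `ord_p(a) ≤ T` divide the product of the `a ^ n - 1`, `n ≤ T`, which has
`O(T ^ 2)` digits.
-/

set_option autoImplicit false
set_option linter.style.haveILetI false

noncomputable section

open scoped Classical

namespace FA.ReducedGroups

/-- **The primes of small order** lie in sets with `O(2 ^ k / k ^ 2)` members in
`[2 ^ k, 2 ^ (k + 1))`. -/
theorem exists_candidates_orderOf {a : ℤ} (ha : 2 ≤ a.natAbs) :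
    ∃ (c : ℕ → Finset ℕ) (K : ℝ), 0 ≤ K ∧
      (∀ k : ℕ, 1 ≤ k → ((c k).card : ℝ) ≤ K * 2 ^ k / (k : ℝ) ^ 2) ∧
      ∀ p : ℕ, p.Prime → 4 ≤ p → ¬ (p : ℤ) ∣ a →
        (orderOf (a : ZMod p) : ℝ) < Real.sqrt p / Real.log p → p ∈ c (Nat.log 2 p) := by
  set T : ℕ → ℕ := fun k => ⌊4 * Real.sqrt ((2 : ℝ) ^ k) / k⌋₊
  set M : ℕ → ℕ := fun k => ∏ n ∈ Finset.Icc 1 (T k), (a ^ n - 1).natAbs
  set C : ℕ := a.natAbs + 1
  have hM0 : ∀ k, M k ≠ 0 := fun k => Finset.prod_ne_zero_iff.mpr fun n hn => by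
    rw [Ne, Int.natAbs_eq_zero, sub_eq_zero]
    intro e
    have h1 := congrArg Int.natAbs e
    rw [Int.natAbs_pow, Int.natAbs_one] at h1
    exact (Nat.one_lt_pow (by have := (Finset.mem_Icc.mp hn).1; omega) (by omega : 1 < a.natAbs)).ne'
      h1
  have hlC : 0 < Real.log (C : ℝ) := Real.log_pos (by exact_mod_cast (by omega : 1 < C))
  refine ⟨fun k => (M k).primeFactors.filter fun q => 2 ^ k ≤ q,
    16 * Real.log C / Real.log 2, by positivity, fun k hk => ?_, fun p hp h4 hpa hlt => ?_⟩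
  · set m := ((M k).primeFactors.filter fun q => 2 ^ k ≤ q).card
    have hle : (2 ^ k) ^ m ≤ C ^ (T k ^ 2) := by
      refine (card_primeFactors_large (hM0 k)).trans ?_
      refine (Finset.prod_le_pow_card _ _ (C ^ T k) fun n hn => ?_).trans (le_of_eq ?_)
      · obtain ⟨hn1, hn2⟩ := Finset.mem_Icc.mp hn
        refine le_trans ?_ (Nat.pow_le_pow_right (by omega) hn2)
        refine (Int.natAbs_sub_le _ _).trans ?_
        rw [Int.natAbs_pow, Int.natAbs_one]
        exact Nat.pow_lt_pow_left (by omega : a.natAbs < C) (by omega)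
      · rw [Nat.card_Icc, Nat.add_sub_cancel, ← pow_mul, sq]
    have hle' : ((k : ℝ) * m) * Real.log 2 ≤ (T k : ℝ) ^ 2 * Real.log C := by
      have h1 : ((2 : ℝ) ^ k) ^ m ≤ (C : ℝ) ^ (T k ^ 2) := by exact_mod_cast hle
      have h2 := Real.log_le_log (by positivity) h1
      rw [← pow_mul, Real.log_pow, Real.log_pow] at h2
      push_cast at h2
      exact h2
    have hkR : (1 : ℝ) ≤ k := by exact_mod_cast hk
    have hT : (T k : ℝ) ^ 2 ≤ 16 * 2 ^ k / (k : ℝ) ^ 2 := by
      refine (pow_le_pow_left₀ (Nat.cast_nonneg _) (Nat.floor_le (by positivity)) 2).trans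
        (le_of_eq ?_)
      rw [div_pow, mul_pow, Real.sq_sqrt (by positivity)]
      norm_num
    have hl2 : (0 : ℝ) < Real.log 2 := Real.log_pos one_lt_two
    refine le_trans (le_mul_of_one_le_left (Nat.cast_nonneg m) hkR) ?_
    rw [div_mul_eq_mul_div, div_div, le_div_iff₀ (by positivity)]
    rw [le_div_iff₀ (by positivity)] at hT
    nlinarith [mul_le_mul_of_nonneg_right hle' (sq_nonneg (k : ℝ)),
      mul_le_mul_of_nonneg_right hT hlC.le]
  · haveI := Fact.mk hp
    set k := Nat.log 2 p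
    have hk : 1 ≤ k := Nat.le_log_of_pow_le one_lt_two (by omega)
    have hp1 : 2 ^ k ≤ p := Nat.pow_log_le_self 2 (by omega)
    have ha0 : (a : ZMod p) ≠ 0 := fun e => hpa ((ZMod.intCast_zmod_eq_zero_iff_dvd _ p).mp e)
    have hn0 : 0 < orderOf (a : ZMod p) := orderOf_pos_iff.mpr
      (isOfFinOrder_iff_pow_eq_one.mpr ⟨p - 1, by omega, ZMod.pow_card_sub_one_eq_one ha0⟩)
    refine Finset.mem_filter.mpr ⟨Nat.mem_primeFactors.mpr ⟨hp, ?_, hM0 k⟩, hp1⟩
    refine dvd_trans ?_ (Finset.dvd_prod_of_mem (f := fun n => (a ^ n - 1).natAbs)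
      (Finset.mem_Icc.mpr ⟨hn0, ?_⟩ : orderOf (a : ZMod p) ∈ Finset.Icc 1 (T k)))
    · rw [← Int.natCast_dvd, ← ZMod.intCast_zmod_eq_zero_iff_dvd]
      push_cast
      rw [pow_orderOf_eq_one, sub_self]
    refine Nat.le_floor (hlt.le.trans ?_)
    have hk0 : (0 : ℝ) < k := by exact_mod_cast hk
    have hp2 : (p : ℝ) ≤ 2 ^ 2 * 2 ^ k := by
      have := Nat.lt_pow_succ_log_self one_lt_two p
      rw [pow_succ, mul_comm] at this
      have h' : (p : ℝ) ≤ 2 * 2 ^ k := by exact_mod_cast this.le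
      nlinarith [pow_pos (two_pos : (0 : ℝ) < 2) k]
    have hl : (k : ℝ) / 2 ≤ Real.log p := by
      refine le_trans ?_ (Real.log_le_log (by positivity)
        (show (2 : ℝ) ^ k ≤ p by exact_mod_cast hp1))
      rw [Real.log_pow, div_eq_mul_inv]
      exact mul_le_mul_of_nonneg_left (by linarith [Real.log_two_gt_d9]) (Nat.cast_nonneg _)
    have hs : Real.sqrt p ≤ 2 * Real.sqrt ((2 : ℝ) ^ k) := by
      refine (Real.sqrt_le_sqrt hp2).trans (le_of_eq ?_)
      rw [Real.sqrt_mul (by positivity), Real.sqrt_sq two_pos.le]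
    refine (div_le_div₀ (by positivity) hs (by positivity) hl).trans (le_of_eq ?_)
    field_simp
    ring

end FA.ReducedGroups

end
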