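import Fermat.Agent.ReducedGroups.Exponent
import Mathlib.NumberTheory.Chebyshev

/-!
# Sets with few members in every dyadic interval have natural density zero among the primes

A set with `O(2 ^ k / k ^ 2)` members in `[2 ^ k, 2 ^ (k+1))` has `O(n / (log n) ^ 2)` up to `n`,
hence `o(π(n))` by Chebyshev.
-/

set_option autoImplicit false
set_option linter.style.haveILetI false

noncomputable section

open Filter Topology

namespace FA.ReducedGroups

/-- `∑ 2 ^ k / k ²` is bounded by a multiple of its last term. -/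
theorem sum_two_pow_div_sq_le {L : ℕ} (hL : 1 ≤ L) :
    ∑ k ∈ Finset.Icc 1 L, (2 : ℝ) ^ k / (k : ℝ) ^ 2 ≤ 8 * 2 ^ L / (L : ℝ) ^ 2 := by
  induction L, hL using Nat.le_induction with
  | base => norm_num
  | succ L hL ih =>
    rcases le_or_gt 4 L with h4 | h4
    · rw [Finset.sum_Icc_succ_top (by omega), Nat.cast_succ]
      refine (add_le_add_left ih _).trans ?_
      have hL4 : (4 : ℝ) ≤ L := by exact_mod_cast h4
      have h := pow_pos (two_pos : (0 : ℝ) < 2) L
      rw [pow_succ (2 : ℝ) L, div_add_div _ _ (by positivity) (by positivity), div_le_div_iff₀ (by positivity)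
        (by positivity)]
      have key : 4 * ((L : ℝ) + 1) ^ 2 ≤ 7 * (L : ℝ) ^ 2 := by nlinarith
      nlinarith [mul_le_mul_of_nonneg_left key (mul_nonneg h.le (sq_nonneg ((L : ℝ) + 1)))]
    · interval_cases L <;> norm_num [Finset.sum_Icc_succ_top]

variable {P : Set ℕ} {c : ℕ → Finset ℕ} {K : ℝ} (hK : 0 ≤ K)
  (hc : ∀ k : ℕ, 1 ≤ k → ((c k).card : ℝ) ≤ K * 2 ^ k / (k : ℝ) ^ 2)
  (hP : ∀ n ∈ P, 4 ≤ n → n ∈ c (Nat.log 2 n))

include hK hc hP

/-- **Such a set has `O(n / (log n) ^ 2)` members up to `n`.** -/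
theorem ncard_le_of_dyadic {n : ℕ} (hn : 2 ≤ n) :
    ({q : ℕ | q ≤ n ∧ q ∈ P}.ncard : ℝ) ≤ (16 * K + 16) * n / Real.log n ^ 2 := by
  classical
  set L := Nat.log 2 n
  have hL : 1 ≤ L := Nat.le_log_of_pow_le one_lt_two (by omega)
  have hsub : {q : ℕ | q ≤ n ∧ q ∈ P} ⊆ ↑(Finset.range 4 ∪ (Finset.Icc 1 L).biUnion c) := by
    rintro q ⟨hqn, hqP⟩
    rw [Finset.coe_union, Set.mem_union, Finset.mem_coe, Finset.mem_range]
    refine or_iff_not_imp_left.mpr fun hq4 => Finset.mem_coe.mpr (Finset.mem_biUnion.mpr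
      ⟨Nat.log 2 q, Finset.mem_Icc.mpr ⟨Nat.le_log_of_pow_le one_lt_two (by omega),
        Nat.log_mono_right hqn⟩, hP q hqP (by omega)⟩)
  have h1 := Set.ncard_le_ncard hsub (Finset.finite_toSet _)
  rw [Set.ncard_coe_finset] at h1
  have h2 : ({q : ℕ | q ≤ n ∧ q ∈ P}.ncard : ℝ) ≤
      4 + ∑ k ∈ Finset.Icc 1 L, ((c k).card : ℝ) := by
    refine (Nat.cast_le.mpr (h1.trans ((Finset.card_union_le _ _).trans
      (Nat.add_le_add_left Finset.card_biUnion_le _)))).trans (le_of_eq ?_)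
    rw [Finset.card_range]; push_cast; rfl
  have hn0 : (0 : ℝ) < n := by exact_mod_cast (show 0 < n by omega)
  have hlog : 0 < Real.log n := Real.log_pos (by exact_mod_cast hn)
  have hpow : (2 : ℝ) ^ L ≤ n := by exact_mod_cast Nat.pow_log_le_self 2 (by omega)
  have hlL : Real.log n ^ 2 ≤ 2 * (L : ℝ) ^ 2 := by
    have h := Real.log_le_log hn0
      (show (n : ℝ) ≤ 2 ^ (L + 1) by exact_mod_cast (Nat.lt_pow_succ_log_self one_lt_two n).le)
    rw [Real.log_pow, Nat.cast_succ] at h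
    have hL1 : (1 : ℝ) ≤ L := by exact_mod_cast hL
    have h' : Real.log n ≤ 1.4 * L := by nlinarith [Real.log_two_lt_d9]
    nlinarith
  have hbase : 4 ≤ 16 * (n : ℝ) / Real.log n ^ 2 := by
    rw [le_div_iff₀ (by positivity)]
    have hs := Real.log_le_sub_one_of_pos (Real.sqrt_pos.mpr hn0)
    rw [Real.log_sqrt hn0.le] at hs
    have := Real.sq_sqrt hn0.le
    nlinarith [Real.sqrt_nonneg (n : ℝ)]
  have hsum : ∑ k ∈ Finset.Icc 1 L, ((c k).card : ℝ) ≤ 16 * K * n / Real.log n ^ 2 := by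
    refine (Finset.sum_le_sum fun k hk => hc k (Finset.mem_Icc.mp hk).1).trans ?_
    simp_rw [mul_div_assoc]
    rw [← Finset.mul_sum, show 16 * K * ((n : ℝ) / Real.log n ^ 2) =
      K * (16 * ((n : ℝ) / Real.log n ^ 2)) by ring]
    refine mul_le_mul_of_nonneg_left ((sum_two_pow_div_sq_le hL).trans ?_) hK
    rw [← mul_div_assoc, div_le_div_iff₀ (by positivity) (by positivity)]
    nlinarith [mul_le_mul hpow hlL (by positivity) hn0.le]
  refine h2.trans ((add_le_add hbase hsum).trans (le_of_eq ?_))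
  ring

/-- **Such a set contains few of the primes.** -/
theorem tendsto_ratio_of_dyadic :
    Tendsto (fun n : ℕ => ({q : ℕ | q ≤ n ∧ q ∈ P}.ncard : ℝ) / Nat.primeCounting n)
      atTop (𝓝 0) := by
  refine squeeze_zero' (Eventually.of_forall fun n => by positivity) ?_
    (((Real.tendsto_log_atTop.comp tendsto_natCast_atTop_atTop).const_div_atTop
      (3 * (16 * K + 16))))
  filter_upwards [eventually_ge_atTop 64] with n hn
  have hn64 : (64 : ℝ) ≤ n := by exact_mod_cast hn
  have hlog : 0 < Real.log n := Real.log_pos (by linarith)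
  have h1 := ncard_le_of_dyadic hK hc hP (show 2 ≤ n by omega)
  have h2 := Chebyshev.pi_ge n
  have h3 : Real.log ((n : ℝ) + 1) ≤ 0.3 * n := by
    have h0 : (0 : ℝ) < n + 1 := by linarith
    have hs := Real.log_le_sub_one_of_pos (Real.sqrt_pos.mpr h0)
    rw [Real.log_sqrt h0.le] at hs
    have hsq := Real.sq_sqrt h0.le
    have : Real.sqrt ((n : ℝ) + 1) ≤ 0.15 * n + 1 := by
      rw [Real.sqrt_le_iff]
      exact ⟨by positivity, by nlinarith⟩
    linarith
  have hl2 := Real.log_two_gt_d9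
  have hpi : (n : ℝ) / (3 * Real.log n) ≤ Nat.primeCounting n := by
    refine le_trans ?_ h2
    rw [div_le_div_iff₀ (by positivity) hlog]
    have hb : (n : ℝ) / 3 ≤ n * Real.log 2 - Real.log (n + 1) := by nlinarith
    nlinarith [mul_le_mul_of_nonneg_right hb hlog.le]
  have hpi0 : 0 < (Nat.primeCounting n : ℝ) := lt_of_lt_of_le (by positivity) hpi
  rw [div_le_iff₀ hpi0]
  refine h1.trans ?_
  calc (16 * K + 16) * n / Real.log n ^ 2
      = 3 * (16 * K + 16) / Real.log n * (n / (3 * Real.log n)) := by field_simp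
    _ ≤ _ := mul_le_mul_of_nonneg_left hpi (by positivity)

end FA.ReducedGroups

end
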