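import Fermat.Agent.ReducedGroups.Exponent
import Mathlib.NumberTheory.Padics.RingHoms

/-!
# Few primes at which a point has small order

If a rational point has order `n` modulo `q` then `q` divides the integer `δ ^ (2 n² + 1) ΨSqₙ(x)`,
which is nonzero for a point of infinite order and at most `C ^ (2 n² + 1)` by the recursion for
the division polynomials. So at most `O(T ^ 3)` primes see an order below `T`.
-/

set_option autoImplicit false
set_option linter.style.haveILetI false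
set_option linter.unusedSectionVars false

noncomputable section

open WeierstrassCurve FA.Frob FA.EC FA.PointDiv Polynomial
open scoped WeierstrassCurve.Affine Classical

namespace FA.ReducedGroups

/-- A rational which times `δ ^ e` is an integer of absolute value at most `C ^ e`. -/
def SizeLE (δ C e : ℕ) (v : ℚ) : Prop :=
  ∃ z : ℤ, (z : ℚ) = (δ : ℚ) ^ e * v ∧ |z| ≤ (C : ℤ) ^ e

section size

variable {δ C e f : ℕ} {v w : ℚ}

theorem SizeLE.mul (hv : SizeLE δ C e v) (hw : SizeLE δ C f w) : SizeLE δ C (e + f) (v * w) := by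
  obtain ⟨z, hz, hz'⟩ := hv
  obtain ⟨t, ht, ht'⟩ := hw
  refine ⟨z * t, by rw [Int.cast_mul, hz, ht, pow_add]; ring, ?_⟩
  rw [abs_mul, pow_add]
  exact mul_le_mul hz' ht' (abs_nonneg _) (by positivity)

theorem SizeLE.mono (hv : SizeLE δ C e v) (hδ : δ ≤ C) (hef : e ≤ f) : SizeLE δ C f v := by
  obtain ⟨z, hz, hz'⟩ := hv
  obtain ⟨j, rfl⟩ := Nat.exists_eq_add_of_le hef
  refine ⟨(δ : ℤ) ^ j * z, by push_cast; rw [hz, pow_add]; ring, ?_⟩
  rw [abs_mul, abs_pow, Nat.abs_cast, pow_add, mul_comm ((C : ℤ) ^ e)]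
  exact mul_le_mul (pow_le_pow_left₀ (by positivity) (by exact_mod_cast hδ) j) hz' (abs_nonneg _)
    (by positivity)

theorem SizeLE.sub (hv : SizeLE δ C e v) (hw : SizeLE δ C e w) (hδ : 2 * δ ≤ C)
    (hef : e + 1 ≤ f) : SizeLE δ C f (v - w) := by
  obtain ⟨z, hz, hz'⟩ := hv
  obtain ⟨t, ht, ht'⟩ := hw
  refine SizeLE.mono ⟨(δ : ℤ) * (z - t), by push_cast; rw [hz, ht, pow_succ]; ring, ?_⟩
    (by omega) hef
  rw [abs_mul, Nat.abs_cast, pow_succ, mul_comm ((C : ℤ) ^ e)]
  refine le_trans (mul_le_mul_of_nonneg_left ((abs_sub z t).trans (add_le_add hz' ht'))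
    (by positivity)) ?_
  rw [← two_mul, ← mul_assoc]
  exact mul_le_mul_of_nonneg_right (by rw [mul_comm]; exact_mod_cast hδ) (by positivity)

/-- Finitely many rationals have size one for suitable bounds. -/
theorem exists_sizeLE_one (s : Finset ℚ) :
    ∃ δ C : ℕ, 0 < δ ∧ 2 * δ ≤ C ∧ 2 ≤ C ∧ ∀ v ∈ s, SizeLE δ C 1 v := by
  set δ := ∏ v ∈ s, v.den
  set C := 2 * δ + 2 + ∑ v ∈ s, v.num.natAbs * δ
  refine ⟨δ, C, Finset.prod_pos fun v _ => v.den_pos, by omega, by omega, fun v hv => ?_⟩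
  obtain ⟨k, hk⟩ : v.den ∣ δ := Finset.dvd_prod_of_mem _ hv
  refine ⟨v.num * k, ?_, ?_⟩
  · rw [pow_one, hk]
    push_cast
    rw [mul_right_comm (v.den : ℚ), mul_comm (v.den : ℚ) v, Rat.mul_den_eq_num]
  · rw [pow_one, abs_mul, Nat.abs_cast, ← Int.natCast_natAbs]
    have h1 : v.num.natAbs * δ ≤ C :=
      (Finset.single_le_sum (f := fun w : ℚ => w.num.natAbs * δ) (fun _ _ => Nat.zero_le _)
        hv).trans (Nat.le_add_left _ _)
    have h2 : k ≤ δ := hk ▸ Nat.le_mul_of_pos_left _ v.den_pos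
    exact_mod_cast (Nat.mul_le_mul_left _ h2).trans h1

/-- **The size of a normalised divisibility sequence** grows like `C ^ (n ^ 2)`. -/
theorem sizeLE_preNormEDS {b c d : ℚ} (hC : 2 * δ ≤ C) (h1 : SizeLE δ C 1 1)
    (hb : SizeLE δ C 1 b) (hc : SizeLE δ C 1 c) (hd : SizeLE δ C 1 d) (n : ℕ) :
    SizeLE δ C (n ^ 2 - 3) (preNormEDS' b c d n) := by
  have hδC : δ ≤ C := by omega
  induction n using normEDSRec' with
  | zero => exact ⟨0, by simp, by simp⟩
  | one => exact ⟨1, by simp, by simp⟩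
  | two => rw [preNormEDS'_two]; exact h1.mono hδC (by norm_num)
  | three => rw [preNormEDS'_three]; exact hc.mono hδC (by norm_num)
  | four => rw [preNormEDS'_four]; exact hd.mono hδC (by norm_num)
  | even m ih =>
    rw [preNormEDS'_even, sq (preNormEDS' b c d (m + 2)), sq (preNormEDS' b c d (m + 4))]
    refine SizeLE.sub
      (((((ih (m + 2) (by omega)).mul (ih (m + 2) (by omega))).mul
        (ih (m + 3) (by omega))).mul (ih (m + 5) (by omega))).mono hδC ?_)
      ((((ih (m + 1) (by omega)).mul (ih (m + 3) (by omega))).mul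
        ((ih (m + 4) (by omega)).mul (ih (m + 4) (by omega)))).mono hδC ?_)
      hC (show (2 * (m + 3)) ^ 2 - 4 + 1 ≤ _ from ?_)
    all_goals ring_nf; omega
  | odd m ih =>
    have hif : ∀ (P : Prop) [Decidable P] (u v : ℚ), SizeLE δ C 1 u → SizeLE δ C 1 v →
        SizeLE δ C 1 (if P then u else v) := fun P _ u v hu hv => by split <;> assumption
    rw [preNormEDS'_odd, pow_three, pow_three]
    refine SizeLE.sub
      ((((ih (m + 4) (by omega)).mul ((ih (m + 2) (by omega)).mul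
        ((ih (m + 2) (by omega)).mul (ih (m + 2) (by omega))))).mul (hif _ _ _ hb h1)).mono hδC ?_)
      ((((ih (m + 1) (by omega)).mul ((ih (m + 3) (by omega)).mul
        ((ih (m + 3) (by omega)).mul (ih (m + 3) (by omega))))).mul (hif _ _ _ h1 hb)).mono hδC ?_)
      hC (show (2 * (m + 2) + 1) ^ 2 - 4 + 1 ≤ _ from ?_)
    all_goals ring_nf; omega

end size

variable (W : WeierstrassCurve ℤ)

/-- **The division polynomials at a rational point** are integers of size `exp (O(n ^ 2))` up to a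
fixed denominator. -/
theorem exists_sizeLE_ΨSq (x : ℚ) :
    ∃ δ C : ℕ, 0 < δ ∧ 2 ≤ C ∧
      ∀ n : ℕ, SizeLE δ C (2 * n ^ 2 + 1) (((ratCurve W).ΨSq n).eval x) := by
  obtain ⟨δ, C, hδ, hC, h2, hs⟩ := exists_sizeLE_one
    {1, (ratCurve W).Ψ₂Sq.eval x, (ratCurve W).Ψ₂Sq.eval x ^ 2, (ratCurve W).Ψ₃.eval x,
      (ratCurve W).preΨ₄.eval x}
  refine ⟨δ, C, hδ, h2, fun n => ?_⟩
  have hpre : ((ratCurve W).preΨ' n).eval x = preNormEDS' ((ratCurve W).Ψ₂Sq.eval x ^ 2)
      ((ratCurve W).Ψ₃.eval x) ((ratCurve W).preΨ₄.eval x) n := by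
    simp [preΨ', ← coe_evalRingHom]
  have h := sizeLE_preNormEDS (b := (ratCurve W).Ψ₂Sq.eval x ^ 2) (c := (ratCurve W).Ψ₃.eval x)
    (d := (ratCurve W).preΨ₄.eval x) hC (hs 1 (by simp)) (hs _ (by simp)) (hs _ (by simp))
    (hs _ (by simp)) n
  rw [← hpre] at h
  rw [ΨSq_ofNat, eval_mul, eval_pow, sq (((ratCurve W).preΨ' n).eval x)]
  refine ((h.mul h).mul (e := (n ^ 2 - 3) + (n ^ 2 - 3)) (f := 1) ?_).mono (by omega) (by omega)
  split
  · exact hs _ (by simp)
  · rw [eval_one]; exact hs _ (by simp)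

variable {W} {x y : ℚ} {q : ℕ} [hq : Fact q.Prime]

/-- A rational prime to `q` as a `q`-adic integer. -/
def ratToPadicInt (x : ℚ) (hx : ¬ q ∣ x.den) : ℤ_[q] := ⟨(x : ℚ_[q]), Padic.norm_rat_le_one hx⟩

theorem toZMod_ratToPadicInt (x : ℚ) (hx : ¬ q ∣ x.den) :
    PadicInt.toZMod (ratToPadicInt x hx) = (x : ZMod q) := by
  have hd : (x.den : ZMod q) ≠ 0 := fun e => hx ((ZMod.natCast_eq_zero_iff _ q).mp e)
  rw [Rat.cast_def, eq_div_iff hd, ← map_natCast PadicInt.toZMod, ← map_mul,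
    ← map_intCast PadicInt.toZMod]
  congr 1
  refine Subtype.ext ?_
  show (x : ℚ_[q]) * _ = _
  push_cast
  exact_mod_cast Rat.mul_den_eq_num x

/-- A rational point modulo a good prime outside its denominators. -/
theorem nonsingular_mod [(ratCurve W).IsElliptic] (hgood : W.IsGoodPrimeFor q) (h : (ratCurve W).toAffine.Nonsingular x y)
    (hx : ¬ q ∣ x.den) (hy : ¬ q ∣ y.den) :
    (W.map (Int.castRingHom (ZMod q))).toAffine.Nonsingular (x : ZMod q) y := by
  haveI := reductionMod_isElliptic W hgood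
  refine Affine.equation_iff_nonsingular.mp ?_
  have h1 := h.1
  rw [Affine.equation_iff] at h1
  have key : (W.map (Int.castRingHom ℤ_[q])).toAffine.Equation (ratToPadicInt x hx)
      (ratToPadicInt y hy) := by
    rw [Affine.equation_iff]
    refine Subtype.ext ?_
    have h2 := congrArg (fun t : ℚ => (t : ℚ_[q])) h1
    simp only [ratCurve, map_a₁, map_a₂, map_a₃, map_a₄, map_a₆] at h2
    simp only [ratToPadicInt, map_a₁, map_a₂, map_a₃, map_a₄, map_a₆, eq_intCast]
    push_cast at h2 ⊢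
    exact h2
  have h3 := key.map (PadicInt.toZMod : ℤ_[q] →+* ZMod q)
  change ((W.map (Int.castRingHom ℤ_[q])).map PadicInt.toZMod).toAffine.Equation _ _ at h3
  rwa [WeierstrassCurve.map_map, RingHom.ext_int (PadicInt.toZMod.comp (Int.castRingHom ℤ_[q]))
    (Int.castRingHom (ZMod q)), toZMod_ratToPadicInt, toZMod_ratToPadicInt] at h3

/-- **A prime at which the point has order dividing `n` divides the integer of level `n`.** -/
theorem dvd_of_nsmul_eq_zero [(ratCurve W).IsElliptic] (hgood : W.IsGoodPrimeFor q) (hx : ¬ q ∣ x.den)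
    {h : (W.map (Int.castRingHom (ZMod q))).toAffine.Nonsingular (x : ZMod q) y} {n : ℕ}
    (hn : n • Affine.Point.some (x : ZMod q) (y : ZMod q) h = 0) {δ e : ℕ} {z : ℤ}
    (hz : (z : ℚ) = (δ : ℚ) ^ e * ((ratCurve W).ΨSq n).eval x) : (q : ℤ) ∣ z := by
  haveI := reductionMod_isElliptic W hgood
  rw [FA.EC.nsmul_eq_zero_iff] at hn
  set X₀ := ratToPadicInt x hx
  set p := W.ΨSq n
  have hq' : (z : ℤ_[q]) = (δ : ℤ_[q]) ^ e * (p.map (Int.castRingHom ℤ_[q])).eval X₀ := by
    refine Subtype.ext ?_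
    have h2 := congrArg (Rat.castHom ℚ_[q]) hz
    rw [map_intCast, map_mul, map_pow, map_natCast, ratCurve, map_ΨSq, eval_map, hom_eval₂,
      RingHom.ext_int ((Rat.castHom ℚ_[q]).comp _) (Int.castRingHom ℚ_[q])] at h2
    rw [eval_map]
    show ((z : ℤ_[q]) : ℚ_[q]) = PadicInt.Coe.ringHom
      ((δ : ℤ_[q]) ^ e * p.eval₂ (Int.castRingHom ℤ_[q]) X₀)
    rw [map_mul, map_pow, map_natCast, hom_eval₂,
      RingHom.ext_int (PadicInt.Coe.ringHom.comp _) (Int.castRingHom ℚ_[q]), PadicInt.coe_intCast]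
    exact h2
  have h3 := congrArg PadicInt.toZMod hq'
  rw [map_intCast, map_mul, eval_map, hom_eval₂, RingHom.ext_int (PadicInt.toZMod.comp _)
    (Int.castRingHom (ZMod q)), toZMod_ratToPadicInt, ← eval_map, ← map_ΨSq, hn, mul_zero] at h3
  exact (ZMod.intCast_zmod_eq_zero_iff_dvd _ q).mp h3

omit hq in
/-- Few primes exceed `2 ^ k` in the prime divisors of a number. -/
theorem card_primeFactors_large {M k : ℕ} (hM : M ≠ 0) :
    (2 ^ k) ^ (M.primeFactors.filter fun q => 2 ^ k ≤ q).card ≤ M := by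
  refine le_trans ?_ ((Finset.prod_le_prod_of_subset_of_one_le' (f := fun q : ℕ => q) (Finset.filter_subset (fun q => 2 ^ k ≤ q) M.primeFactors)
    fun q hq _ => (Nat.prime_of_mem_primeFactors hq).one_le).trans
      (Nat.le_of_dvd (Nat.pos_of_ne_zero hM) (Nat.prod_primeFactors_dvd M)))
  exact Finset.pow_card_le_prod _ _ _ fun q hq => (Finset.mem_filter.mp hq).2

variable (W) in
/-- **The primes of small order** lie in sets with `O(2 ^ k / k ^ 2)` members in `[2 ^ k, 2 ^ (k+1))`. -/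
theorem exists_candidates_order [(ratCurve W).IsElliptic]
    (h : (ratCurve W).toAffine.Nonsingular x y)
    (hP : ∀ n : ℕ, 0 < n → n • Affine.Point.some x y h ≠ 0) :
    ∃ (c : ℕ → Finset ℕ) (K : ℝ), 0 ≤ K ∧
      (∀ k : ℕ, 1 ≤ k → ((c k).card : ℝ) ≤ K * 2 ^ k / (k : ℝ) ^ 2) ∧
      ∀ (q : ℕ) [Fact q.Prime], 4 ≤ q → W.IsGoodPrimeFor q → ¬ q ∣ x.den →
        ∀ h' : (W.map (Int.castRingHom (ZMod q))).toAffine.Nonsingular (x : ZMod q) y,
          (addOrderOf (Affine.Point.some (x : ZMod q) (y : ZMod q) h') : ℝ) <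
              (q : ℝ) ^ (1 / 3 : ℝ) / Real.log q →
            q ∈ c (Nat.log 2 q) := by
  obtain ⟨δ, C, hδ, hC, hsize⟩ := exists_sizeLE_ΨSq W x
  choose z hz hz' using hsize
  have hz0 : ∀ n, 0 < n → z n ≠ 0 := fun n hn e => by
    have e' := hz n
    rw [e, Int.cast_zero, eq_comm, mul_eq_zero] at e'
    exact (e'.resolve_left (pow_ne_zero _ (Nat.cast_ne_zero.mpr hδ.ne')) |>
      (FA.EC.nsmul_eq_zero_iff h n).mpr) |> hP n hn
  set T : ℕ → ℕ := fun k => ⌊4 * (2 : ℝ) ^ ((k : ℝ) / 3) / k⌋₊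
  set M : ℕ → ℕ := fun k => ∏ n ∈ Finset.Icc 1 (T k), (z n).natAbs
  have hM0 : ∀ k, M k ≠ 0 := fun k => Finset.prod_ne_zero_iff.mpr fun n hn =>
    Int.natAbs_ne_zero.mpr (hz0 n (Finset.mem_Icc.mp hn).1)
  have hlC : 0 < Real.log (C : ℝ) := Real.log_pos (by exact_mod_cast hC)
  refine ⟨fun k => (M k).primeFactors.filter fun q => 2 ^ k ≤ q,
    192 * Real.log C / Real.log 2, by positivity, fun k hk => ?_, fun q _ h4 hgood hx h' hlt => ?_⟩
  · set m := ((M k).primeFactors.filter fun q => 2 ^ k ≤ q).card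
    have hle : (2 ^ k) ^ m ≤ C ^ (3 * T k ^ 3) := by
      refine (card_primeFactors_large (hM0 k)).trans ?_
      refine (Finset.prod_le_pow_card _ _ (C ^ (3 * T k ^ 2)) fun n hn => ?_).trans (le_of_eq ?_)
      · obtain ⟨hn1, hn2⟩ := Finset.mem_Icc.mp hn
        have h1 : (z n).natAbs ≤ C ^ (2 * n ^ 2 + 1) := by
          zify
          exact hz' n
        refine h1.trans (Nat.pow_le_pow_right (by omega) ?_)
        have := Nat.pow_le_pow_left hn2 2
        have := Nat.one_le_pow 2 n hn1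
        omega
      · rw [Nat.card_Icc, Nat.add_sub_cancel, ← pow_mul]
        ring_nf
    have hle' : ((k : ℝ) * m) * Real.log 2 ≤ 3 * (T k : ℝ) ^ 3 * Real.log C := by
      have h1 : ((2 : ℝ) ^ k) ^ m ≤ (C : ℝ) ^ (3 * T k ^ 3) := by exact_mod_cast hle
      have h2 := Real.log_le_log (by positivity) h1
      rw [← pow_mul, Real.log_pow, Real.log_pow] at h2
      push_cast at h2
      exact h2
    have hkR : (1 : ℝ) ≤ k := by exact_mod_cast hk
    have hT : (T k : ℝ) ^ 3 ≤ 64 * 2 ^ k / (k : ℝ) ^ 3 := by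
      refine (pow_le_pow_left₀ (Nat.cast_nonneg _) (Nat.floor_le (by positivity)) 3).trans
        (le_of_eq ?_)
      rw [div_pow, mul_pow, ← Real.rpow_natCast ((2 : ℝ) ^ ((k : ℝ) / 3)) 3,
        ← Real.rpow_mul two_pos.le]
      norm_num
    have hl2 : (0 : ℝ) < Real.log 2 := Real.log_pos one_lt_two
    have h3 : (k : ℝ) * m ≤ 192 * Real.log C / Real.log 2 * 2 ^ k / (k : ℝ) ^ 3 := by
      rw [div_mul_eq_mul_div, div_div, le_div_iff₀ (by positivity)]
      rw [le_div_iff₀ (by positivity)] at hT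
      nlinarith [mul_le_mul_of_nonneg_right hle' (pow_nonneg (Nat.cast_nonneg k : (0 : ℝ) ≤ k) 3),
        mul_le_mul_of_nonneg_right hT hlC.le]
    refine le_trans (le_mul_of_one_le_left (Nat.cast_nonneg m) hkR) (h3.trans ?_)
    refine div_le_div_of_nonneg_left (by positivity) (by positivity) ?_
    exact pow_le_pow_right₀ hkR (by norm_num)
  · set n := addOrderOf (Affine.Point.some (x : ZMod q) (y : ZMod q) h') with hn
    have hn0 : 0 < n := addOrderOf_pos _
    set k := Nat.log 2 q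
    have hk : 1 ≤ k := Nat.le_log_of_pow_le one_lt_two (by omega)
    have hq1 : 2 ^ k ≤ q := Nat.pow_log_le_self 2 (by omega)
    have hnT : n ≤ T k := by
      refine Nat.le_floor (hlt.le.trans ?_)
      have hq2 : (q : ℝ) ≤ 2 * 2 ^ k := by
        have := Nat.lt_pow_succ_log_self one_lt_two q
        rw [pow_succ, mul_comm] at this
        exact_mod_cast this.le
      have hl : (k : ℝ) / 2 ≤ Real.log q := by
        refine le_trans ?_ (Real.log_le_log (by positivity)
          (show (2 : ℝ) ^ k ≤ q by exact_mod_cast hq1))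
        rw [Real.log_pow, div_eq_mul_inv]
        exact mul_le_mul_of_nonneg_left (by linarith [Real.log_two_gt_d9]) (Nat.cast_nonneg _)
      have hk0 : (0 : ℝ) < k := by exact_mod_cast hk
      have ht : (q : ℝ) ^ (1 / 3 : ℝ) ≤ 2 * (2 : ℝ) ^ ((k : ℝ) / 3) := by
        refine (Real.rpow_le_rpow (Nat.cast_nonneg _) hq2 (by norm_num)).trans ?_
        rw [Real.mul_rpow two_pos.le (by positivity), ← Real.rpow_natCast 2 k,
          ← Real.rpow_mul two_pos.le, mul_one_div]
        exact mul_le_mul_of_nonneg_right (by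
          conv_rhs => rw [← Real.rpow_one 2]
          exact Real.rpow_le_rpow_of_exponent_le one_le_two (by norm_num)) (by positivity)
      refine (div_le_div₀ (by positivity) ht (by positivity) hl).trans (le_of_eq ?_)
      field_simp
      ring
    have hdvd := dvd_of_nsmul_eq_zero hgood hx (addOrderOf_nsmul_eq_zero _) (hz n)
    refine Finset.mem_filter.mpr ⟨Nat.mem_primeFactors.mpr ⟨Fact.out, ?_, hM0 k⟩, hq1⟩
    exact (Int.natCast_dvd.mp hdvd).trans
      (Finset.dvd_prod_of_mem _ (Finset.mem_Icc.mpr ⟨hn0, hnT⟩))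

end FA.ReducedGroups

end
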