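import Fermat.Agent.ReducedGroups.Exponent

/-!
# Primality from a point of large prime order

If the point `(x, y)` modulo `n` has order divisible by a prime `s > (n^{1/4} + 1)²` modulo every
prime factor of `n`, then the smallest prime factor is not at most `√n`, by Hasse's bound.
-/

set_option autoImplicit false
set_option linter.style.haveILetI false
set_option linter.unusedSectionVars false

noncomputable section

open WeierstrassCurve Polynomial FA.Frob FA.EC
open scoped WeierstrassCurve.Affine Classical Polynomial.Bivariate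

namespace FA.ReducedGroups

variable (W : WeierstrassCurve ℤ) {p : ℕ} [Fact p.Prime]

/-- The discriminant prime to `p` gives an elliptic curve modulo `p`. -/
theorem isElliptic_map_of_not_dvd (h : ¬ (p : ℤ) ∣ W.Δ) :
    (W.map (Int.castRingHom (ZMod p))).IsElliptic :=
  ⟨by
    rw [WeierstrassCurve.map_Δ]
    exact Ne.isUnit fun e => h ((ZMod.intCast_zmod_eq_zero_iff_dvd _ p).mp e)⟩

/-- The equation modulo `p` in terms of divisibility. -/
theorem equation_map_iff (x y : ℤ) :
    (W.map (Int.castRingHom (ZMod p))).toAffine.Equation (x : ZMod p) (y : ZMod p) ↔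
      (p : ℤ) ∣ W.toAffine.polynomial.evalEval x y := by
  rw [Affine.equation_iff', Affine.evalEval_polynomial, ← ZMod.intCast_zmod_eq_zero_iff_dvd]
  simp

/-- The vanishing of a division polynomial modulo `p` in terms of divisibility. -/
theorem eval_ΨSq_map_iff (x : ℤ) (k : ℕ) :
    ((W.map (Int.castRingHom (ZMod p))).ΨSq k).eval (x : ZMod p) = 0 ↔
      (p : ℤ) ∣ (W.ΨSq k).eval x := by
  rw [map_ΨSq, ← eq_intCast (Int.castRingHom (ZMod p)) x, eval_map_apply,
    eq_intCast, ZMod.intCast_zmod_eq_zero_iff_dvd]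

/-- **A prime factor sees a point of order `s`**, so exceeds the bound from Hasse's theorem. -/
theorem le_hasse_of_certificate (hp : ¬ (p : ℤ) ∣ W.Δ) {x y : ℤ}
    (hE : (p : ℤ) ∣ W.toAffine.polynomial.evalEval x y) {m s : ℕ} (hs : s.Prime) (hsm : s ∣ m)
    (hm : (p : ℤ) ∣ (W.ΨSq m).eval x) (hu : ¬ (p : ℤ) ∣ (W.ΨSq ((m / s : ℕ) : ℤ)).eval x) :
    (s : ℝ) ≤ (Real.sqrt p + 1) ^ 2 := by
  haveI := isElliptic_map_of_not_dvd W hp
  set V := W.map (Int.castRingHom (ZMod p))
  have hns : V.toAffine.Nonsingular (x : ZMod p) (y : ZMod p) :=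
    Affine.equation_iff_nonsingular.mp ((equation_map_iff W x y).mpr hE)
  set P : V.toAffine.Point := .some _ _ hns
  have h1 : m • P = 0 := (FA.EC.nsmul_eq_zero_iff hns m).mpr ((eval_ΨSq_map_iff W x m).mpr hm)
  have h2 : (m / s) • P ≠ 0 := fun e =>
    hu ((eval_ΨSq_map_iff W x _).mp ((FA.EC.nsmul_eq_zero_iff hns _).mp e))
  haveI := Fact.mk hs
  have ho : addOrderOf ((m / s) • P) = s := addOrderOf_eq_prime
    (by rw [← mul_nsmul', Nat.mul_div_cancel' hsm, h1]) h2
  have hle : s ≤ Nat.card V.toAffine.Point := ho ▸ Nat.le_of_dvd Nat.card_pos (addOrderOf_dvd_natCard _)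
  have hH := (abs_le.mp (FA.HasseBound.hasse V)).1
  have hs2 := Real.sq_sqrt (Nat.cast_nonneg p : (0 : ℝ) ≤ p)
  calc (s : ℝ) ≤ Nat.card V.toAffine.Point := by exact_mod_cast hle
    _ ≤ _ := by nlinarith

end FA.ReducedGroups

end
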