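import Fermat.Agent.ReducedGroups.MassFormula
import Fermat.Agent.ReducedGroups.Structure

/-!
# Points of order three on the short equations, and their pairs

A point of order three on `y² = x³ + a x + b` is `(3 k², c + 9 k³)` for a unique `(k, c)` with
`a = 6 k c + 27 k⁴`, `b = c² - 27 k⁶`. Two of them with different abscissae need a square root of
`-3` and are then parametrised by the two values of `k`.
-/

set_option autoImplicit false
set_option linter.style.haveILetI false

noncomputable section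

open WeierstrassCurve
open scoped WeierstrassCurve.Affine Classical

namespace FA.ReducedGroups

variable {q : ℕ} [hq : Fact q.Prime]

/-- The coefficients of the curve with flex parameter `(k, c)`. -/
def flexCoeffs (p : ZMod q × ZMod q) : ZMod q × ZMod q :=
  (6 * p.1 * p.2 + 27 * p.1 ^ 4, p.2 ^ 2 - 27 * p.1 ^ 6)

/-- The flex parameters of one equation. -/
def flexFibre (ab : ZMod q × ZMod q) : Finset (ZMod q × ZMod q) :=
  Finset.univ.filter fun p => flexCoeffs p = ab

/-- The flex parameters of nonsingular equations. -/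
def flexParams : Finset (ZMod q × ZMod q) :=
  Finset.univ.filter fun p => flexCoeffs p ∈ FA.BirchMoment.nonsingular q

theorem six_units (h5 : 5 ≤ q) :
    (2 : ZMod q) ≠ 0 ∧ (3 : ZMod q) ≠ 0 ∧ (4 : ZMod q) ≠ 0 ∧ (6 : ZMod q) ≠ 0 ∧
      (27 : ZMod q) ≠ 0 ∧ (12 : ZMod q) ≠ 0 := by
  have h2 : (2 : ZMod q) ≠ 0 := Ring.two_ne_zero (FA.BirchMoment.ringChar_ne_two h5)
  have h3 : (3 : ZMod q) ≠ 0 := by
    exact_mod_cast FA.BirchMoment.natCast_ne_zero_of_five h5 three_pos (by norm_num : 3 < 5)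
  have h4 : (4 : ZMod q) ≠ 0 := by
    rw [show (4 : ZMod q) = 2 * 2 by norm_num]; exact mul_ne_zero h2 h2
  refine ⟨h2, h3, h4, ?_, ?_, ?_⟩
  · rw [show (6 : ZMod q) = 2 * 3 by norm_num]; exact mul_ne_zero h2 h3
  · rw [show (27 : ZMod q) = 3 * (3 * 3) by norm_num]
    exact mul_ne_zero h3 (mul_ne_zero h3 h3)
  · rw [show (12 : ZMod q) = 4 * 3 by norm_num]; exact mul_ne_zero h4 h3

theorem mem_flexParams (h5 : 5 ≤ q) {k c : ZMod q} :
    (k, c) ∈ flexParams ↔ c + 9 * k ^ 3 ≠ 0 ∧ c + 5 * k ^ 3 ≠ 0 := by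
  obtain ⟨-, -, -, -, h27, -⟩ := six_units h5
  simp only [flexParams, FA.BirchMoment.nonsingular, flexCoeffs, Finset.mem_filter,
    Finset.mem_univ, true_and]
  rw [show 4 * (6 * k * c + 27 * k ^ 4) ^ 3 + 27 * (c ^ 2 - 27 * k ^ 6) ^ 2 =
    27 * ((c + 9 * k ^ 3) ^ 3 * (c + 5 * k ^ 3)) by ring]
  simp [h27]

/-- The flex parameters number `(q - 1)²`. -/
theorem card_flexParams (h5 : 5 ≤ q) :
    ((flexParams (q := q)).card : ℤ) = ((q : ℤ) - 1) ^ 2 := by
  obtain ⟨-, -, h4, -, -, -⟩ := six_units h5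
  have e : (flexParams (q := q)).card =
      ∑ k : ZMod q, (({-9 * k ^ 3, -5 * k ^ 3} : Finset (ZMod q))ᶜ).card := by
    rw [← Finset.card_sigma]
    refine Finset.card_bij (fun p _ => (⟨p.1, p.2⟩ : Σ _ : ZMod q, ZMod q)) (fun p hp => ?_)
      (fun p _ p' _ h => by
        simp only [Sigma.mk.injEq, heq_eq_eq] at h; exact Prod.ext h.1 h.2) (fun x hx => ?_)
    · obtain ⟨h9, h5'⟩ := (mem_flexParams h5).mp hp
      simp only [Finset.mem_sigma, Finset.mem_univ, Finset.mem_compl, Finset.mem_insert,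
        Finset.mem_singleton, true_and, not_or]
      exact ⟨fun e => h9 (by rw [e]; ring), fun e => h5' (by rw [e]; ring)⟩
    · obtain ⟨k, c⟩ := x
      simp only [Finset.mem_sigma, Finset.mem_univ, Finset.mem_compl, Finset.mem_insert,
        Finset.mem_singleton, true_and, not_or] at hx
      exact ⟨(k, c), (mem_flexParams h5).mpr ⟨fun e => hx.1 (by linear_combination e),
        fun e => hx.2 (by linear_combination e)⟩, rfl⟩
  have hk : ∀ k : ZMod q, ((({-9 * k ^ 3, -5 * k ^ 3} : Finset (ZMod q))ᶜ).card : ℤ) =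
      ((q : ℤ) - 2) + if k = 0 then 1 else 0 := fun k => by
    rw [Finset.card_compl, ZMod.card, Nat.cast_sub
      (Finset.card_le_univ _ |>.trans_eq (ZMod.card q))]
    rcases eq_or_ne k 0 with rfl | hk
    · simp; ring
    · rw [Finset.card_pair fun e => hk (pow_eq_zero_iff three_ne_zero |>.mp
        ((mul_eq_zero.mp (show (4 : ZMod q) * k ^ 3 = 0 by linear_combination -e)).resolve_left h4)),
        if_neg hk]
      push_cast; ring
  rw [e, Nat.cast_sum, Finset.sum_congr rfl fun k _ => hk k, Finset.sum_add_distrib,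
    Finset.sum_const, Finset.card_univ, ZMod.card, Finset.sum_ite_eq' Finset.univ (0 : ZMod q),
    if_pos (Finset.mem_univ _), nsmul_eq_mul]
  ring

/-- **The flexes are the points killed by three.** -/
theorem natCard_three_torsion_short (h5 : 5 ≤ q) {a b : ZMod q}
    (hab : (a, b) ∈ FA.BirchMoment.nonsingular q) :
    Nat.card {P : (FA.BirchMoment.shortMod a b).toAffine.Point // 3 • P = 0} =
      (flexFibre (a, b)).card + 1 := by
  obtain ⟨h2, h3, -, h6, h27, -⟩ := six_units h5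
  set W := FA.BirchMoment.shortMod a b
  have hΔ := FA.BirchMoment.shortMod_Δ_ne_zero h5 (Finset.mem_filter.mp hab).2
  have hneg : ∀ x y : ZMod q, W.toAffine.negY x y = -y := fun x y => by simp [W, Affine.negY]
  have hfib : ∀ {k c : ZMod q}, (k, c) ∈ flexFibre (a, b) →
      a = 6 * k * c + 27 * k ^ 4 ∧ b = c ^ 2 - 27 * k ^ 6 ∧ c + 9 * k ^ 3 ≠ 0 := fun {k c} h => by
    simp only [flexFibre, flexCoeffs, Finset.mem_filter, Finset.mem_univ, true_and,
      Prod.mk.injEq] at h
    obtain ⟨rfl, rfl⟩ := h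
    exact ⟨rfl, rfl, ((mem_flexParams h5).mp (Finset.mem_filter.mpr ⟨Finset.mem_univ _, hab⟩)).1⟩
  have hne : ∀ {y : ZMod q} (x : ZMod q), y ≠ 0 → y ≠ W.toAffine.negY x y := fun {y} x hy e => by
    rw [hneg] at e
    exact hy ((mul_eq_zero.mp (show (2 : ZMod q) * y = 0 by linear_combination e)).resolve_left h2)
  have hmk : ∀ p ∈ flexFibre (a, b),
      W.toAffine.Nonsingular (3 * p.1 ^ 2) (p.2 + 9 * p.1 ^ 3) := fun p hp => by
    obtain ⟨ea, eb, -⟩ := hfib (k := p.1) (c := p.2) hp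
    refine (Affine.equation_iff_nonsingular_of_Δ_ne_zero hΔ).1 ?_
    rw [Affine.equation_iff]
    simp only [ea, eb]
    ring
  have h3P : ∀ (p : ZMod q × ZMod q) (hp : p ∈ flexFibre (a, b)),
      3 • (Affine.Point.some _ _ (hmk p hp) : W.toAffine.Point) = 0 := fun p hp => by
    obtain ⟨ea, -, hy⟩ := hfib (k := p.1) (c := p.2) hp
    have hy' := hne (3 * p.1 ^ 2) hy
    have hl : W.toAffine.slope (3 * p.1 ^ 2) (3 * p.1 ^ 2) (p.2 + 9 * p.1 ^ 3)
        (p.2 + 9 * p.1 ^ 3) = 3 * p.1 := by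
      rw [Affine.slope_of_Y_ne rfl hy', div_eq_iff (sub_ne_zero.mpr hy'), hneg]
      simp only [W, ea]
      ring
    have e2 := Affine.Point.add_self_of_Y_ne (h₁ := hmk p hp) hy'
    rw [← two_nsmul] at e2
    rw [succ_nsmul, ← eq_neg_iff_add_eq_zero, e2, Affine.Point.neg_some, Affine.Point.some.injEq,
      hl, hneg]
    simp only [W, Affine.addX, Affine.addY, Affine.negAddY, Affine.negY]
    constructor <;> ring
  rw [← Fintype.card_coe, ← Nat.card_eq_fintype_card, ← Finite.card_option]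
  refine (Nat.card_eq_of_bijective (fun o : Option {p // p ∈ flexFibre (a, b)} =>
    match o with
    | none => (⟨0, nsmul_zero 3⟩ : {P : W.toAffine.Point // 3 • P = 0})
    | some p => ⟨_, h3P p.1 p.2⟩) ⟨?_, ?_⟩).symm
  · rintro (_ | p) (_ | p') e <;> simp only [Subtype.mk.injEq] at e
    · rfl
    · exact absurd e.symm (Affine.Point.some_ne_zero _)
    · exact absurd e (Affine.Point.some_ne_zero _)
    · rw [Affine.Point.some.injEq] at e
      obtain ⟨ea, -, hy⟩ := hfib (k := p.1.1) (c := p.1.2) p.2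
      obtain ⟨ea', -, -⟩ := hfib (k := p'.1.1) (c := p'.1.2) p'.2
      have hk : p.1.1 = p'.1.1 := mul_left_cancel₀ (mul_ne_zero h6 hy)
        (show 6 * (p.1.2 + 9 * p.1.1 ^ 3) * p.1.1 = 6 * (p.1.2 + 9 * p.1.1 ^ 3) * p'.1.1 by
          linear_combination (-1 : ZMod q) * ea + ea' + 3 * (p.1.1 ^ 2 * 3 + 3 * p'.1.1 ^ 2) * e.1
            - 6 * p'.1.1 * e.2)
      rw [Subtype.ext (Prod.ext hk (show p.1.2 = p'.1.2 by
        have := e.2; rw [hk] at this; linear_combination this))]
  · rintro ⟨P, hP⟩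
    cases P with
    | zero => exact ⟨none, rfl⟩
    | some x y h =>
      have hy : y ≠ 0 := fun e => by
        have h2P := Affine.Point.add_self_of_Y_eq (h₁ := h)
          (show y = W.toAffine.negY x y by rw [hneg, e, neg_zero])
        rw [← two_nsmul] at h2P
        exact Affine.Point.some_ne_zero h (by rwa [succ_nsmul, h2P, zero_add] at hP)
      have hy' := hne x hy
      have e2 := Affine.Point.add_self_of_Y_ne (h₁ := h) hy'
      rw [← two_nsmul] at e2
      have hP' := hP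
      rw [succ_nsmul, ← eq_neg_iff_add_eq_zero, e2, Affine.Point.neg_some,
        Affine.Point.some.injEq] at hP'
      have hx := hP'.1
      set lam := W.toAffine.slope x x y y with hlam
      rw [Affine.slope_of_Y_ne rfl hy', eq_div_iff (sub_ne_zero.mpr hy'), hneg] at hlam
      simp only [W, Affine.addX] at hx hlam
      have he := (Affine.equation_iff x y).mp h.1
      simp only [W] at he
      obtain ⟨k, hk⟩ : ∃ k, lam = 3 * k := ⟨lam / 3, (mul_div_cancel₀ _ h3).symm⟩
      rw [hk] at hlam hx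
      obtain rfl : x = 3 * k ^ 2 := mul_left_cancel₀ h3 (by linear_combination -hx)
      refine ⟨some ⟨(k, y - 9 * k ^ 3), Finset.mem_filter.mpr ⟨Finset.mem_univ _,
        Prod.ext ?_ ?_⟩⟩, Subtype.ext ?_⟩
      · show 6 * k * (y - 9 * k ^ 3) + 27 * k ^ 4 = a
        linear_combination hlam
      · show (y - 9 * k ^ 3) ^ 2 - 27 * k ^ 6 = b
        linear_combination he - 3 * k ^ 2 * hlam
      · show Affine.Point.some _ _ _ = Affine.Point.some _ _ _
        rw [Affine.Point.some.injEq]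
        exact ⟨rfl, by ring⟩

/-- A nonsingular equation has `0`, `2` or `8` flex parameters. -/
theorem card_flexFibre (h5 : 5 ≤ q) {ab : ZMod q × ZMod q}
    (hab : ab ∈ FA.BirchMoment.nonsingular q) :
    (flexFibre ab).card = 0 ∨ (flexFibre ab).card = 2 ∨ (flexFibre ab).card = 8 := by
  set W := FA.BirchMoment.shortMod ab.1 ab.2
  haveI : W.IsElliptic :=
    ⟨(FA.BirchMoment.shortMod_Δ_ne_zero h5 (Finset.mem_filter.mp hab).2).isUnit⟩
  have hle := natCard_nsmul_eq_zero_le W (n := 3) three_pos (by omega)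
  rw [show Nat.card {P : W.toAffine.Point // 3 • P = 0} = (flexFibre ab).card + 1 from
    natCard_three_torsion_short h5 (a := ab.1) (b := ab.2) hab] at hle
  let H : AddSubgroup W.toAffine.Point := (nsmulAddMonoidHom 3).ker
  have hH : Nat.card H = (flexFibre ab).card + 1 :=
    natCard_three_torsion_short h5 (a := ab.1) (b := ab.2) hab
  haveI : Finite H := Nat.finite_of_card_ne_zero (by omega)
  letI : Module (ZMod 3) H := AddCommGroup.zmodModule (fun x => Subtype.ext x.2)
  haveI : Fact (Nat.Prime 3) := ⟨Nat.prime_three⟩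
  have hpow := Module.natCard_eq_pow_finrank (K := ZMod 3) (V := H)
  rw [hH, Nat.card_zmod] at hpow
  have hr : Module.finrank (ZMod 3) H ≤ 2 := by
    by_contra hr
    have := Nat.pow_le_pow_right three_pos (not_le.mp hr)
    omega
  interval_cases Module.finrank (ZMod 3) H <;> omega

/-- The pairs of flex parameters of one equation with different abscissae. -/
def flexPairsAt (ab : ZMod q × ZMod q) : Finset ((ZMod q × ZMod q) × ZMod q × ZMod q) :=
  (flexFibre ab ×ˢ flexFibre ab).filter fun z => z.1.1 ^ 2 ≠ z.2.1 ^ 2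

/-- There are `n (n - 2)` of them. -/
theorem card_flexPairsAt (h5 : 5 ≤ q) {ab : ZMod q × ZMod q}
    (hab : ab ∈ FA.BirchMoment.nonsingular q) :
    (flexPairsAt ab).card = (flexFibre ab).card * ((flexFibre ab).card - 2) := by
  obtain ⟨h2, -, -, h6, -, -⟩ := six_units h5
  have hmem : ∀ p : ZMod q × ZMod q, p ∈ flexFibre ab ↔
      6 * p.1 * p.2 + 27 * p.1 ^ 4 = ab.1 ∧ p.2 ^ 2 - 27 * p.1 ^ 6 = ab.2 := fun p => by
    simp [flexFibre, flexCoeffs, Prod.ext_iff]
  have hself : ∀ p ∈ flexFibre ab,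
      ((flexFibre ab).filter fun p' => p.1 ^ 2 ≠ p'.1 ^ 2).card = (flexFibre ab).card - 2 := by
    intro p hp
    obtain ⟨ha, hb⟩ := (hmem p).mp hp
    have hp0 : p ≠ (-p.1, -p.2) := fun e => by
      have e1 : p.1 = -p.1 := congrArg Prod.fst e
      have e2 : p.2 = -p.2 := congrArg Prod.snd e
      have k0 : p.1 = 0 := (mul_eq_zero.mp
        (show (2 : ZMod q) * p.1 = 0 by linear_combination e1)).resolve_left h2
      have c0 : p.2 = 0 := (mul_eq_zero.mp
        (show (2 : ZMod q) * p.2 = 0 by linear_combination e2)).resolve_left h2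
      refine (Finset.mem_filter.mp hab).2 ?_
      rw [← ha, ← hb, k0, c0]; ring
    have hset : (flexFibre ab).filter (fun p' => ¬ p.1 ^ 2 ≠ p'.1 ^ 2) =
        {p, (-p.1, -p.2)} := by
      ext ⟨l, d⟩
      simp only [Finset.mem_filter, hmem, not_not, Finset.mem_insert, Finset.mem_singleton]
      constructor
      · rintro ⟨⟨ha', hb'⟩, hsq⟩
        by_cases hk : p.1 = 0
        · obtain rfl : l = 0 := by simpa [hk] using hsq.symm
          rcases sq_eq_sq_iff_eq_or_eq_neg.mp (show d ^ 2 = p.2 ^ 2 by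
            rw [hk] at hb; linear_combination hb' - hb) with e | e
          · exact Or.inl (Prod.ext hk.symm e)
          · exact Or.inr (Prod.ext (by simp [hk]) e)
        · rcases sq_eq_sq_iff_eq_or_eq_neg.mp hsq.symm with e | e
          · refine Or.inl (Prod.ext e (mul_left_cancel₀ (mul_ne_zero h6 hk) ?_))
            rw [e] at ha'; linear_combination ha' - ha
          · refine Or.inr (Prod.ext e (mul_left_cancel₀ (mul_ne_zero h6 hk) ?_))
            rw [e] at ha'; linear_combination ha - ha'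
      · rintro (rfl | e)
        · exact ⟨⟨ha, hb⟩, rfl⟩
        · rw [Prod.mk.injEq] at e
          obtain ⟨rfl, rfl⟩ := e
          exact ⟨⟨by linear_combination ha, by linear_combination hb⟩, by ring⟩
    have := Finset.card_filter_add_card_filter_not (s := flexFibre ab)
      (fun p' => p.1 ^ 2 ≠ p'.1 ^ 2)
    rw [hset, Finset.card_pair hp0] at this
    omega
  rw [flexPairsAt, Finset.card_filter, Finset.sum_product,
    Finset.sum_congr rfl fun p hp => (Finset.card_filter _ _).symm.trans (hself p hp),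
    Finset.sum_const, smul_eq_mul]

/-- The triples parametrising the pairs. -/
def flexTriples : Finset (ZMod q × ZMod q × ZMod q) :=
  Finset.univ.filter fun t =>
    t.1 ^ 2 = -3 ∧ t.2.1 ^ 2 ≠ t.2.2 ^ 2 ∧ 3 * t.2.1 + t.1 * t.2.2 ≠ 0 ∧ t.2.1 + t.1 * t.2.2 ≠ 0

/-- **The pairs are parametrised by the triples.** -/
theorem sum_card_flexPairsAt (h5 : 5 ≤ q) :
    ∑ ab ∈ FA.BirchMoment.nonsingular q, (flexPairsAt ab).card =
      (flexTriples (q := q)).card := by
  obtain ⟨h2, h3, -, -, -, -⟩ := six_units h5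
  set f : ZMod q × ZMod q × ZMod q → (ZMod q × ZMod q) × ZMod q × ZMod q := fun t =>
    ((t.2.1, (-9 * t.2.1 * (t.2.1 ^ 2 + t.2.2 ^ 2) +
        3 * t.1 * t.2.2 * (t.2.1 ^ 2 - t.2.2 ^ 2)) / 2),
      (t.2.2, (-9 * t.2.2 * (t.2.1 ^ 2 + t.2.2 ^ 2) +
        3 * t.1 * t.2.1 * (t.2.1 ^ 2 - t.2.2 ^ 2)) / 2)) with hf
  rw [← Finset.card_sigma]
  symm
  refine Finset.card_bij (fun t _ => (⟨flexCoeffs (f t).1, f t⟩ :
    Σ _ : ZMod q × ZMod q, (ZMod q × ZMod q) × ZMod q × ZMod q)) (fun t ht => ?_)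
    (fun t ht t' ht' e => ?_) (fun z hz => ?_)
  · obtain ⟨η, k, l⟩ := t
    simp only [flexTriples, Finset.mem_filter, Finset.mem_univ, true_and] at ht
    obtain ⟨hη, hkl, hA, hB⟩ := ht
    have hδ : k ^ 2 - l ^ 2 ≠ 0 := sub_ne_zero.mpr hkl
    set c := (-9 * k * (k ^ 2 + l ^ 2) + 3 * η * l * (k ^ 2 - l ^ 2)) / 2 with hc
    have hc' : 2 * c = -9 * k * (k ^ 2 + l ^ 2) + 3 * η * l * (k ^ 2 - l ^ 2) :=
      mul_div_cancel₀ _ h2
    set d := (-9 * l * (k ^ 2 + l ^ 2) + 3 * η * k * (k ^ 2 - l ^ 2)) / 2 with hd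
    have hd' : 2 * d = -9 * l * (k ^ 2 + l ^ 2) + 3 * η * k * (k ^ 2 - l ^ 2) :=
      mul_div_cancel₀ _ h2
    have hp : (k, c) ∈ flexParams := (mem_flexParams h5).mpr
      ⟨fun e => mul_ne_zero (mul_ne_zero h3 hδ) hA
          (by linear_combination 2 * e - hc'),
        fun e => pow_ne_zero 3 hB (by linear_combination 2 * e - hc' + (3 * k * l ^ 2 + η * l ^ 3) * hη)⟩
    have heq : flexCoeffs (l, d) = flexCoeffs (k, c) := by
      refine Prod.ext (mul_left_cancel₀ h2 ?_) (mul_left_cancel₀ (mul_ne_zero h2 h2) ?_)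
      · show 2 * (6 * l * d + 27 * l ^ 4) = 2 * (6 * k * c + 27 * k ^ 4)
        linear_combination 6 * l * hd' - 6 * k * hc'
      · show 2 * 2 * (d ^ 2 - 27 * l ^ 6) = 2 * 2 * (c ^ 2 - 27 * k ^ 6)
        linear_combination (2 * d + (-9 * l * (k ^ 2 + l ^ 2) + 3 * η * k * (k ^ 2 - l ^ 2))) * hd'
          - (2 * c + (-9 * k * (k ^ 2 + l ^ 2) + 3 * η * l * (k ^ 2 - l ^ 2))) * hc'
          + 9 * (k ^ 2 - l ^ 2) ^ 3 * hη
    simp only [hf, Finset.mem_sigma, flexPairsAt, flexFibre, Finset.mem_filter, Finset.mem_product,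
      Finset.mem_univ, true_and, ← hc, ← hd]
    exact ⟨(Finset.mem_filter.mp hp).2, heq, hkl⟩
  · obtain ⟨η, k, l⟩ := t
    obtain ⟨η', k', l'⟩ := t'
    simp only [hf, Sigma.mk.injEq, heq_eq_eq, Prod.mk.injEq] at e
    obtain ⟨-, ⟨rfl, ec⟩, rfl, ed⟩ := e
    have hkl := (Finset.mem_filter.mp ht).2.2.1
    obtain rfl : η = η' := by
      rcases eq_or_ne l 0 with rfl | hl
      · have hk : k ≠ 0 := fun e => hkl (by simp [e])
        refine mul_left_cancel₀ (mul_ne_zero (mul_ne_zero h3 hk) (sub_ne_zero.mpr hkl)) ?_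
        linear_combination (div_left_inj' h2).mp ed
      · refine mul_left_cancel₀ (mul_ne_zero (mul_ne_zero h3 hl) (sub_ne_zero.mpr hkl)) ?_
        linear_combination (div_left_inj' h2).mp ec
    rfl
  · obtain ⟨ab, ⟨k, c⟩, l, d⟩ := z
    simp only [Finset.mem_sigma, flexPairsAt, flexFibre, Finset.mem_filter, Finset.mem_product,
      Finset.mem_univ, true_and] at hz
    obtain ⟨hns, ⟨hkc, hld⟩, hkl⟩ := hz
    have hp : (k, c) ∈ flexParams := Finset.mem_filter.mpr ⟨Finset.mem_univ _, hkc ▸ hns⟩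
    obtain ⟨h9, h55⟩ := (mem_flexParams h5).mp hp
    rw [← hkc] at hld
    simp only [flexCoeffs, Prod.mk.injEq] at hld
    obtain ⟨ea, eb⟩ := hld
    have hδ : k ^ 2 - l ^ 2 ≠ 0 := sub_ne_zero.mpr hkl
    obtain ⟨η, hη⟩ : ∃ η, 3 * (k ^ 2 - l ^ 2) ^ 2 * η = 2 * (k * d - l * c) :=
      ⟨2 * (k * d - l * c) / (3 * (k ^ 2 - l ^ 2) ^ 2),
        mul_div_cancel₀ _ (mul_ne_zero h3 (pow_ne_zero 2 hδ))⟩
    have hsum : 2 * (k * c - l * d) = 9 * (l ^ 4 - k ^ 4) :=
      mul_left_cancel₀ h3 (by linear_combination -ea)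
    have hc' : 2 * c = -9 * k * (k ^ 2 + l ^ 2) + 3 * η * l * (k ^ 2 - l ^ 2) :=
      mul_left_cancel₀ hδ (by linear_combination k * hsum - l * hη)
    have hd' : 2 * d = -9 * l * (k ^ 2 + l ^ 2) + 3 * η * k * (k ^ 2 - l ^ 2) :=
      mul_left_cancel₀ hδ (by linear_combination l * hsum - k * hη)
    have hη2 : η ^ 2 = -3 := by
      refine mul_left_cancel₀ (mul_ne_zero (mul_ne_zero h3 h3) (pow_ne_zero 3 hδ)) ?_
      linear_combination 4 * eb
        - (2 * d + (-9 * l * (k ^ 2 + l ^ 2) + 3 * η * k * (k ^ 2 - l ^ 2))) * hd'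
        + (2 * c + (-9 * k * (k ^ 2 + l ^ 2) + 3 * η * l * (k ^ 2 - l ^ 2))) * hc'
    refine ⟨(η, k, l), ?_, ?_⟩
    · simp only [flexTriples, Finset.mem_filter, Finset.mem_univ, true_and]
      refine ⟨hη2, hkl, fun e => h9 (mul_left_cancel₀ h2 ?_), fun e => h55 (mul_left_cancel₀ h2 ?_)⟩
      · linear_combination hc' + 3 * (k ^ 2 - l ^ 2) * e
      · linear_combination hc' + (k + η * l) ^ 2 * e - (3 * k * l ^ 2 + η * l ^ 3) * hη2
    · have hc'' : (-9 * k * (k ^ 2 + l ^ 2) + 3 * η * l * (k ^ 2 - l ^ 2)) / 2 = c := by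
        rw [← hc', mul_div_cancel_left₀ _ h2]
      have hd'' : (-9 * l * (k ^ 2 + l ^ 2) + 3 * η * k * (k ^ 2 - l ^ 2)) / 2 = d := by
        rw [← hd', mul_div_cancel_left₀ _ h2]
      simp only [hf, hc'', hd'', hkc]

/-- `-3` is a square exactly for `q ≡ 1 (mod 3)`. -/
theorem exists_sq_eq_neg_three_iff (h5 : 5 ≤ q) : (∃ η : ZMod q, η ^ 2 = -3) ↔ q % 3 = 1 := by
  obtain ⟨h2, h3, -, -, -, h12⟩ := six_units h5
  constructor
  · rintro ⟨η, hη⟩
    obtain ⟨w, hw⟩ : ∃ w, 2 * w = η - 1 := ⟨(η - 1) / 2, mul_div_cancel₀ _ h2⟩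
    have hw3 : w ^ 3 = 1 := mul_left_cancel₀ (pow_ne_zero 3 h2)
      (by linear_combination (4 * w ^ 2 + 2 * w * (η - 1) + (η - 1) ^ 2) * hw + (η - 3) * hη)
    have hw1 : w ≠ 1 := fun e => h12 (by
      rw [e] at hw; linear_combination hη + (η + 3) * hw)
    have hord : orderOf w = 3 := by
      rcases (Nat.dvd_prime Nat.prime_three).mp (orderOf_dvd_of_pow_eq_one hw3) with e | e
      · exact absurd (orderOf_eq_one_iff.mp e) hw1
      · exact e
    have hw0 : w ≠ 0 := fun e => by simp [e] at hw3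
    have hd : 3 ∣ q - 1 := hord ▸ ZMod.orderOf_dvd_card_sub_one hw0
    have := hq.out.one_lt
    omega
  · intro h
    have hd : 3 ∣ Fintype.card (ZMod q)ˣ := by
      rw [ZMod.card_units]; have := hq.out.one_lt; omega
    haveI : Fact (Nat.Prime 3) := ⟨Nat.prime_three⟩
    obtain ⟨u, hu⟩ := exists_prime_orderOf_dvd_card 3 hd
    have hu3 : (u : ZMod q) ^ 3 = 1 := by
      rw [← Units.val_pow_eq_pow_val, ← hu, pow_orderOf_eq_one, Units.val_one]
    have hu1 : (u : ZMod q) ≠ 1 := fun e => by simp [Units.val_eq_one.mp e] at hu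
    have h0 : (u : ZMod q) ^ 2 + u + 1 = 0 :=
      (mul_eq_zero.mp (show ((u : ZMod q) - 1) * ((u : ZMod q) ^ 2 + u + 1) = 0 by
        linear_combination hu3)).resolve_left (sub_ne_zero.mpr hu1)
    exact ⟨2 * u + 1, by linear_combination 4 * h0⟩

/-- No triples without a root of `-3`, else `2 (q - 1) (q - 3)`. -/
theorem card_flexTriples (h5 : 5 ≤ q) :
    ((flexTriples (q := q)).card : ℤ) =
      if q % 3 = 1 then 2 * ((q : ℤ) - 1) * ((q : ℤ) - 3) else 0 := by
  obtain ⟨h2, h3, h4, -, -, h12⟩ := six_units h5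
  split_ifs with h
  swap
  · rw [Finset.card_eq_zero.mpr (Finset.eq_empty_of_forall_notMem fun t ht => h
      ((exists_sq_eq_neg_three_iff h5).mp ⟨t.1, (Finset.mem_filter.mp ht).2.1⟩)), Nat.cast_zero]
  obtain ⟨η, hη⟩ := (exists_sq_eq_neg_three_iff h5).mpr h
  set S : ZMod q → ZMod q → Finset (ZMod q) := fun e l =>
    ({l, -l, -(e * l) / 3, -(e * l)} : Finset (ZMod q))ᶜ
  have hS : ∀ e : ZMod q, e ^ 2 = -3 → ∀ l, ((S e l).card : ℤ) =
      ((q : ℤ) - 4) + if l = 0 then 3 else 0 := fun e he l => by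
    have he1 : e - 1 ≠ 0 ∧ e + 1 ≠ 0 ∧ e - 3 ≠ 0 ∧ e + 3 ≠ 0 ∧ e ≠ 0 :=
      ⟨fun x => h4 (by linear_combination he - (e + 1) * x),
        fun x => h4 (by linear_combination he - (e - 1) * x),
        fun x => h12 (by linear_combination he - (e + 3) * x),
        fun x => h12 (by linear_combination he - (e - 3) * x),
        fun x => h3 (by linear_combination he - e * x)⟩
    simp only [S]
    rw [Finset.card_compl, ZMod.card, Nat.cast_sub
      (Finset.card_le_univ _ |>.trans_eq (ZMod.card q))]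
    rcases eq_or_ne l 0 with rfl | hl
    · simp; ring
    · have h3' := div_mul_cancel₀ (-(e * l)) h3
      rw [Finset.card_insert_of_notMem, Finset.card_insert_of_notMem,
        Finset.card_pair, if_neg hl]
      · push_cast; ring
      · intro x
        refine mul_ne_zero (mul_ne_zero h2 he1.2.2.2.2) hl ?_
        linear_combination 3 * x - h3'
      · simp only [Finset.mem_insert, Finset.mem_singleton, not_or]
        exact ⟨fun x => mul_ne_zero he1.2.2.1 hl (by linear_combination 3 * x + h3'),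
          fun x => mul_ne_zero he1.1 hl (by linear_combination x)⟩
      · simp only [Finset.mem_insert, Finset.mem_singleton, not_or]
        exact ⟨fun x => mul_ne_zero h2 hl (by linear_combination x),
          fun x => mul_ne_zero he1.2.2.2.1 hl (by linear_combination 3 * x + h3'),
          fun x => mul_ne_zero he1.2.1 hl (by linear_combination x)⟩
  have e : (flexTriples (q := q)).card =
      ∑ e ∈ ({η, -η} : Finset (ZMod q)), ∑ l : ZMod q, (S e l).card := by
    simp_rw [← Finset.card_sigma]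
    refine Finset.card_bij (fun t _ =>
      (⟨t.1, t.2.2, t.2.1⟩ : Σ _ : ZMod q, Σ _ : ZMod q, ZMod q)) (fun t ht => ?_)
      (fun t _ t' _ e => by
        simp only [Sigma.mk.injEq, heq_eq_eq] at e
        exact Prod.ext e.1 (Prod.ext e.2.2 e.2.1)) (fun x hx => ?_)
    · obtain ⟨e, k, l⟩ := t
      simp only [flexTriples, Finset.mem_filter, Finset.mem_univ, true_and] at ht
      obtain ⟨he, hkl, hA, hB⟩ := ht
      have := sq_eq_sq_iff_eq_or_eq_neg.mp (he.trans hη.symm)
      simp only [S, Finset.mem_sigma, Finset.mem_univ, Finset.mem_compl, Finset.mem_insert,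
        Finset.mem_singleton, true_and, not_or]
      exact ⟨this, fun x => hkl (by rw [x]), fun x => hkl (by rw [x]; ring),
        fun x => hA (by rw [x, mul_div_cancel₀ _ h3]; ring), fun x => hB (by rw [x]; ring)⟩
    · obtain ⟨e, l, k⟩ := x
      simp only [S, Finset.mem_sigma, Finset.mem_univ, Finset.mem_compl, Finset.mem_insert,
        Finset.mem_singleton, true_and, not_or] at hx
      obtain ⟨he, hk1, hk2, hk3, hk4⟩ := hx
      refine ⟨(e, k, l), Finset.mem_filter.mpr ⟨Finset.mem_univ _,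
        by rcases he with rfl | rfl <;> linear_combination hη,
        fun x => (sq_eq_sq_iff_eq_or_eq_neg.mp x).elim hk1 hk2,
        fun x => hk3 ((eq_div_iff h3).mpr (by linear_combination x)),
        fun x => hk4 (by linear_combination x)⟩, rfl⟩
  have hne : η ≠ -η := fun x => by
    have : η = 0 := (mul_eq_zero.mp
      (show (2 : ZMod q) * η = 0 by linear_combination x)).resolve_left h2
    exact h3 (by rw [this] at hη; linear_combination hη)
  rw [e, Finset.sum_pair hne]
  push_cast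
  rw [Finset.sum_congr rfl fun l _ => hS η hη l,
    Finset.sum_congr rfl fun l _ => hS (-η) (by linear_combination hη) l]
  simp only [Finset.sum_add_distrib, Finset.sum_const, Finset.card_univ, ZMod.card, nsmul_eq_mul,
    Finset.sum_ite_eq' Finset.univ (0 : ZMod q), Finset.mem_univ, if_true]
  ring

end FA.ReducedGroups

end
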