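import Mathlib

/-!
# The primes of the homogeneous cyclotomic values

For coprime `a > b ≥ 1` a prime of `b^φ(n) Φ_n(a/b)` modulo which `a/b` has order below `n` is the
largest prime of `n` and divides that value once, and the value exceeds it.
-/

set_option autoImplicit false
set_option linter.style.haveILetI false

noncomputable section

open Polynomial

namespace FA.ReducedGroups

/-- `b ^ φ(n) Φ_n(a / b)`. -/
def homCyclotomic (a b n : ℕ) : ℤ := ((cyclotomic n ℤ).scaleRoots (b : ℤ)).eval (a : ℤ)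

/-- The value at a ring where `a = b r`. -/
theorem cast_homCyclotomic {R : Type*} [CommRing R] {a b n : ℕ} {r : R}
    (h : (b : R) * r = a) :
    ((homCyclotomic a b n : ℤ) : R) = (b : R) ^ n.totient * (cyclotomic n R).eval r := by
  rw [homCyclotomic, ← eq_intCast (Int.castRingHom R), ← eval₂_at_apply, eq_intCast,
    Int.cast_natCast, ← h,
    show (b : R) = Int.castRingHom R (b : ℤ) by rw [eq_intCast, Int.cast_natCast],
    scaleRoots_eval₂_mul, natDegree_cyclotomic, ← eval_map, map_cyclotomic]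

/-- `(a ^ d - b ^ d) H_n ∣ a ^ n - b ^ n` for a proper divisor `d` of `n`. -/
theorem sub_mul_homCyclotomic_dvd (a b : ℕ) {d n : ℕ} (hd : d ∈ n.properDivisors) :
    ((a : ℤ) ^ d - (b : ℤ) ^ d) * homCyclotomic a b n ∣ (a : ℤ) ^ n - (b : ℤ) ^ n := by
  have key : ∀ j : ℕ, j ≠ 0 → ((X ^ j - 1 : ℤ[X]).scaleRoots (b : ℤ)).eval (a : ℤ) =
      (a : ℤ) ^ j - (b : ℤ) ^ j := fun j hj => by
    have e : (X ^ j - 1 : ℤ[X]).scaleRoots (b : ℤ) = X ^ j - C ((b : ℤ) ^ j) := by
      ext i
      rw [coeff_scaleRoots, ← C_1, natDegree_X_pow_sub_C, coeff_sub, coeff_sub, coeff_X_pow,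
        coeff_C, coeff_C]
      rcases eq_or_ne i 0 with rfl | hi
      · simp [hj.symm]
      · rcases eq_or_ne i j with rfl | hij
        · simp [hi]
        · simp [hi, hij]
    rw [e, eval_sub, eval_pow, eval_X, eval_C]
  have hd' := Nat.mem_properDivisors.mp hd
  have hd0 : d ≠ 0 := fun e => by
    subst e
    have := Nat.eq_zero_of_zero_dvd hd'.1
    omega
  have h := map_dvd (evalRingHom (a : ℤ)) (scaleRoots_dvd _ _ (r := (b : ℤ))
    (X_pow_sub_one_mul_cyclotomic_dvd_X_pow_sub_one_of_dvd ℤ hd))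
  rw [mul_scaleRoots_of_noZeroDivisors, map_mul] at h
  simp only [coe_evalRingHom] at h
  rwa [key d hd0, key n (by omega)] at h

/-- A prime dividing the value divides neither `a` nor `b`. -/
theorem not_dvd_of_dvd_homCyclotomic {a b n p : ℕ} (hp : p.Prime) (hab : a.Coprime b)
    (hd : (p : ℤ) ∣ homCyclotomic a b n) : ¬ p ∣ b := by
  intro hb
  haveI := Fact.mk hp
  have hb0 : Int.castRingHom (ZMod p) (b : ℤ) = 0 := by
    rw [eq_intCast, Int.cast_natCast, ZMod.natCast_eq_zero_iff]; exact hb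
  have e : ((homCyclotomic a b n : ℤ) : ZMod p) = 0 :=
    (ZMod.intCast_zmod_eq_zero_iff_dvd _ p).mpr hd
  rw [homCyclotomic, ← eq_intCast (Int.castRingHom (ZMod p)), ← eval₂_at_apply, ← eval_map,
    map_scaleRoots _ _ _ (by simp [(cyclotomic.monic n ℤ).leadingCoeff]), hb0, scaleRoots_zero,
    map_cyclotomic, natDegree_cyclotomic, (cyclotomic.monic n (ZMod p)).leadingCoeff, one_smul,
    eval_pow, eval_X, eq_intCast, Int.cast_natCast] at e
  have ha := (ZMod.natCast_eq_zero_iff a p).mp (eq_zero_of_pow_eq_zero e)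
  exact hp.ne_one (Nat.dvd_one.mp (hab ▸ Nat.dvd_gcd ha hb))

/-- **The primes of the value**: either `a / b` has order `n`, or `p ∣ n` and every other prime of
`n` is smaller, the order being the part of `n` prime to `p`. -/
theorem order_cases {a b n p : ℕ} [hp : Fact p.Prime] (hab : a.Coprime b) (hn : 0 < n)
    (hd : (p : ℤ) ∣ homCyclotomic a b n) :
    ∃ k m : ℕ, n = p ^ k * m ∧ ¬ p ∣ m ∧ orderOf ((a : ZMod p) / b) = m ∧ 0 < m ∧ m < p := by
  have hb : (b : ZMod p) ≠ 0 := fun e =>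
    not_dvd_of_dvd_homCyclotomic hp.out hab hd ((ZMod.natCast_eq_zero_iff b p).mp e)
  obtain ⟨k, m, hm, hnm⟩ := Nat.exists_eq_pow_mul_and_not_dvd hn.ne' p hp.out.ne_one
  have hm0 : 0 < m := Nat.pos_of_ne_zero fun e => hm (e ▸ dvd_zero p)
  haveI : NeZero (m : ZMod p) := ⟨fun e => hm ((ZMod.natCast_eq_zero_iff m p).mp e)⟩
  have hroot : (cyclotomic (p ^ k * m) (ZMod p)).IsRoot ((a : ZMod p) / b) := by
    have e : ((homCyclotomic a b n : ℤ) : ZMod p) = 0 :=
      (ZMod.intCast_zmod_eq_zero_iff_dvd _ p).mpr hd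
    rw [cast_homCyclotomic (mul_div_cancel₀ (a : ZMod p) hb)] at e
    rw [← hnm]
    exact (mul_eq_zero.mp e).resolve_left (pow_ne_zero _ hb)
  have ho := (isRoot_cyclotomic_prime_pow_mul_iff_of_charP.mp hroot).eq_orderOf.symm
  refine ⟨k, m, hnm, hm, ho, hm0, ?_⟩
  have ha : (a : ZMod p) / b ≠ 0 := fun e => by
    rw [e, orderOf_zero] at ho
    omega
  exact (ho ▸ Nat.le_of_dvd (by have := hp.out.two_le; omega)
    (ZMod.orderOf_dvd_card_sub_one ha)).trans_lt (Nat.sub_lt hp.out.pos one_pos)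

/-- **A prime of `n` divides the value at most once.** -/
theorem sq_not_dvd_homCyclotomic {a b n p k m : ℕ} [hp : Fact p.Prime] (hab : a.Coprime b)
    (hba : b < a) (hn : 3 ≤ n) (hnm : n = p ^ (k + 1) * m)
    (ho : orderOf ((a : ZMod p) / b) = m) (hlt : m < p) (hm0 : 0 < m) :
    ¬ (p : ℤ) ^ 2 ∣ homCyclotomic a b n := by
  intro hsq
  have hpb : ¬ p ∣ b := not_dvd_of_dvd_homCyclotomic hp.out hab
    ((dvd_pow_self _ two_ne_zero).trans hsq)
  have hb : (b : ZMod p) ≠ 0 := fun e => hpb ((ZMod.natCast_eq_zero_iff b p).mp e)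
  set d := p ^ k * m with hd
  have hnd : n = d * p := by rw [hnm, pow_succ, hd]; ring
  have hd0 : 0 < d := Nat.mul_pos (pow_pos hp.out.pos _) hm0
  have hdn : d ∈ n.properDivisors := Nat.mem_properDivisors.mpr
    ⟨⟨p, hnd⟩, hnd ▸ lt_mul_of_one_lt_right hd0 hp.out.one_lt⟩
  set A : ℤ := (a : ℤ) ^ d
  set B : ℤ := (b : ℤ) ^ d
  have hAB : A - B ≠ 0 := sub_ne_zero.mpr
    (pow_lt_pow_left₀ (by exact_mod_cast hba) (Int.natCast_nonneg b) hd0.ne').ne'
  have hdvd : homCyclotomic a b n ∣ ∑ i ∈ Finset.range p, A ^ i * B ^ (p - 1 - i) := by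
    have h := sub_mul_homCyclotomic_dvd a b hdn
    rw [show (a : ℤ) ^ n = A ^ p by rw [hnd, pow_mul],
      show (b : ℤ) ^ n = B ^ p by rw [hnd, pow_mul], ← geom_sum₂_mul A B p, mul_comm (∑ _ ∈ _, _)] at h
    exact (mul_dvd_mul_iff_left hAB).mp h
  have hs := hsq.trans hdvd
  obtain ⟨c, hc⟩ : (p : ℤ) ∣ A - B := by
    rw [← ZMod.intCast_zmod_eq_zero_iff_dvd]
    push_cast [A, B]
    have e : ((a : ZMod p) / b) ^ d = 1 := by
      rw [← orderOf_dvd_iff_pow_eq_one, ho]
      exact dvd_mul_left m _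
    rw [div_pow, div_eq_one_iff_eq (pow_ne_zero _ hb)] at e
    rw [e, sub_self]
  rcases hp.out.eq_two_or_odd' with rfl | hodd
  · obtain rfl : m = 1 := by omega
    obtain ⟨j, rfl⟩ : ∃ j, k = j + 1 := ⟨k - 1, by rcases k with _ | k <;> simp at hnm ⊢; omega⟩
    rw [Finset.sum_range_succ, Finset.sum_range_one] at hs
    have h2a : ¬ 2 ∣ a := fun he => by
      rw [(ZMod.natCast_eq_zero_iff a 2).mpr he, zero_div, orderOf_zero] at ho
      omega
    have hodd : ∀ x : ℕ, ¬ 2 ∣ x → ∃ r : ℤ, (x : ℤ) ^ d = (2 * r + 1) ^ 2 := fun x hx => by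
      obtain ⟨r, hr⟩ := (((Int.odd_coe_nat x).mpr
        (Nat.not_even_iff_odd.mp fun h => hx h.two_dvd)).pow : Odd ((x : ℤ) ^ 2 ^ j))
      exact ⟨r, by rw [← hr, ← pow_mul, ← pow_succ]; simp [hd]⟩
    obtain ⟨r, hr⟩ := hodd a h2a
    obtain ⟨s, hs'⟩ := hodd b hpb
    obtain ⟨t, ht⟩ := hs
    simp only [A, B, hr, hs', pow_zero, pow_one, one_mul, Nat.reduceSub] at ht
    push_cast at ht
    ring_nf at ht
    omega
  · have h1 := odd_sq_dvd_geom_sum₂_sub (R := ℤ) (a := B) (b := c) hodd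
    rw [show B + p * c = A by rw [← hc]; ring] at h1
    have h2 : (p : ℤ) ^ 2 ∣ p * B ^ (p - 1) := by simpa using dvd_sub hs h1
    rw [sq, mul_dvd_mul_iff_left (by exact_mod_cast hp.out.ne_zero)] at h2
    exact hpb (Int.natCast_dvd_natCast.mp
      ((Nat.prime_iff_prime_int.mp hp.out).dvd_of_dvd_pow
        ((Nat.prime_iff_prime_int.mp hp.out).dvd_of_dvd_pow h2)))

/-- `p ≤ 2 ^ (p - 1)`. -/
theorem le_two_pow_sub_one {p : ℕ} (hp : 1 ≤ p) : p ≤ 2 ^ (p - 1) := by
  have := Nat.lt_two_pow_self (n := p - 1)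
  omega

/-- In `ℝ` the value is `b ^ φ(n) Φ_n(a / b)`. -/
theorem homCyclotomic_real {a b n : ℕ} (hb : 0 < b) :
    ((homCyclotomic a b n : ℤ) : ℝ) =
      (b : ℝ) ^ n.totient * (cyclotomic n ℝ).eval ((a : ℝ) / b) :=
  cast_homCyclotomic (mul_div_cancel₀ _ (Nat.cast_ne_zero.mpr hb.ne'))

/-- The value exceeds `(a - b) ^ φ(n)`. -/
theorem sub_pow_totient_lt_homCyclotomic {a b n : ℕ} (hb : 0 < b) (hba : b < a) (hn : 2 ≤ n) :
    ((a - b : ℕ) : ℤ) ^ n.totient < homCyclotomic a b n := by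
  have hbR : (0 : ℝ) < b := Nat.cast_pos.mpr hb
  have h1 : 1 < (a : ℝ) / b := (one_lt_div hbR).mpr (by exact_mod_cast hba)
  have h := mul_lt_mul_of_pos_left (sub_one_pow_totient_lt_cyclotomic_eval hn h1)
    (pow_pos hbR n.totient)
  rw [← homCyclotomic_real hb, ← mul_pow, mul_sub, mul_div_cancel₀ _ hbR.ne', mul_one,
    ← Nat.cast_sub hba.le] at h
  exact_mod_cast h

/-- Removing powers of a prime of the index. -/
theorem cyclotomic_real_prime_pow_mul {p m : ℕ} (hp : p.Prime) (c : ℝ) : ∀ j : ℕ,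
    (cyclotomic (p ^ (j + 1) * m) ℝ).eval c = (cyclotomic (p * m) ℝ).eval (c ^ p ^ j)
  | 0 => by simp
  | j + 1 => by
    rw [pow_succ p (j + 1), mul_right_comm, ← cyclotomic_expand_eq_cyclotomic hp
      ((dvd_pow_self p (Nat.succ_ne_zero j)).mul_right m) ℝ, expand_eval,
      cyclotomic_real_prime_pow_mul hp (c ^ p) j, ← pow_mul, ← pow_succ']

/-- `p (2 b + 1) + b ^ p < (b + 1) ^ p` but for `p = 3`, `b = 1`. -/
theorem succ_pow_sub_pow_gt {b p : ℕ} (hb : 1 ≤ b) (hp : 3 ≤ p) (h31 : ¬ (p = 3 ∧ b = 1)) :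
    p * (2 * b + 1) + b ^ p < (b + 1) ^ p := by
  rcases Nat.lt_or_ge 3 p with h4 | h3
  · induction p, h4 using Nat.le_induction with
    | base => nlinarith [Nat.one_le_pow 3 b hb, Nat.one_le_pow 2 b hb]
    | succ q hq ih =>
      have := ih (by omega) (by omega)
      have h1 : 1 ≤ q * b := Nat.one_le_iff_ne_zero.mpr (mul_ne_zero (by omega) (by omega))
      have h2 : 1 ≤ b ^ q := Nat.one_le_pow _ _ hb
      rw [pow_succ, pow_succ]
      nlinarith
  · obtain rfl : p = 3 := by omega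
    have : 2 ≤ b := by omega
    nlinarith

/-- **The value exceeds the non-primitive prime.** -/
theorem lt_homCyclotomic {a b n p k m : ℕ} [hp : Fact p.Prime] (hb : 0 < b) (hba : b < a)
    (hn : 3 ≤ n) (h26 : ¬ (a = 2 ∧ b = 1 ∧ n = 6)) (hnm : n = p ^ (k + 1) * m)
    (hm : ¬ p ∣ m) (ho : orderOf ((a : ZMod p) / b) = m) (hlt : m < p) (hm0 : 0 < m) :
    (p : ℤ) < homCyclotomic a b n := by
  have hpp : p.Prime := hp.out
  have hφ : p - 1 ≤ (p * m).totient := Nat.le_of_dvd (Nat.totient_pos.mpr (Nat.mul_pos hpp.pos hm0))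
    (Nat.totient_prime hpp ▸ Nat.totient_dvd_of_dvd (dvd_mul_right p m))
  have big : ∀ c d : ℕ, 0 < d → d + 2 ≤ c → (p : ℤ) < homCyclotomic c d (p * m) := by
    intro c d hd hcd
    refine lt_of_le_of_lt ?_ (sub_pow_totient_lt_homCyclotomic hd (by omega)
      (le_trans hpp.two_le (Nat.le_mul_of_pos_right p hm0)))
    have : p ≤ (c - d) ^ (p * m).totient :=
      (le_two_pow_sub_one hpp.one_le).trans ((Nat.pow_le_pow_left (by omega) _).trans
        (Nat.pow_le_pow_right (by omega) hφ))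
    exact_mod_cast this
  rcases Nat.eq_zero_or_pos k with rfl | hk
  · rw [zero_add, pow_one] at hnm
    by_cases h1 : b + 2 ≤ a
    · exact hnm ▸ big a b hb h1
    obtain rfl : a = b + 1 := by omega
    have hp2 : p ≠ 2 := by
      rintro rfl
      omega
    have hp3 : 3 ≤ p := by have := hpp.two_le; omega
    have h31 : ¬ (p = 3 ∧ b = 1) ∨ n = 3 ∧ b = 1 := by
      refine or_iff_not_imp_left.mpr fun h => ?_
      obtain ⟨rfl, rfl⟩ := not_not.mp h
      refine ⟨?_, rfl⟩
      have : m ≠ 2 := fun e => h26 ⟨rfl, rfl, by omega⟩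
      omega
    rcases h31 with h31 | ⟨hn3, rfl⟩
    · have hbR : (0 : ℝ) < b := Nat.cast_pos.mpr hb
      set r : ℝ := ((b + 1 : ℕ) : ℝ) / b with hr
      have hr1 : 1 < r := (one_lt_div hbR).mpr (by exact_mod_cast b.lt_succ_self)
      have hexp := congrArg (fun P => P.eval r) (cyclotomic_expand_eq_cyclotomic_mul hpp hm ℝ)
      simp only [expand_eval, eval_mul, mul_comm m p, ← hnm] at hexp
      have htot : n.totient + m.totient = p * m.totient := by
        rw [hnm, Nat.totient_mul (hpp.coprime_iff_not_dvd.mpr hm), Nat.totient_prime hpp,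
          Nat.sub_one_mul, Nat.sub_add_cancel (Nat.le_mul_of_pos_left _ hpp.pos)]
      have hlo := sub_one_pow_totient_le_cyclotomic_eval (one_lt_pow₀ hr1 hpp.ne_zero) m
      have hup := cyclotomic_eval_le_add_one_pow_totient hr1 m
      have hpos : 0 ≤ (cyclotomic m ℝ).eval r := cyclotomic_nonneg m hr1.le
      set v : ℤ := homCyclotomic (b + 1) b n
      by_contra hle
      push Not at hle
      have hv : (b : ℝ) ^ n.totient * (cyclotomic n ℝ).eval r ≤ p := by
        rw [← homCyclotomic_real hb]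
        exact_mod_cast hle
      have hlow : (((b : ℝ) + 1) ^ p - (b : ℝ) ^ p) ^ m.totient ≤
          p * (2 * (b : ℝ) + 1) ^ m.totient := by
        calc (((b : ℝ) + 1) ^ p - (b : ℝ) ^ p) ^ m.totient
            = ((b : ℝ) ^ p * (r ^ p - 1)) ^ m.totient := by
              rw [hr, div_pow, mul_sub, mul_div_cancel₀ _ (pow_ne_zero _ hbR.ne')]
              push_cast
              ring
          _ ≤ (b : ℝ) ^ (p * m.totient) * (cyclotomic m ℝ).eval (r ^ p) := by
              rw [mul_pow, ← pow_mul]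
              exact mul_le_mul_of_nonneg_left hlo (by positivity)
          _ = ((b : ℝ) ^ n.totient * (cyclotomic n ℝ).eval r) *
                ((b : ℝ) ^ m.totient * (cyclotomic m ℝ).eval r) := by
              rw [← htot, pow_add, hexp]; ring
          _ ≤ p * (2 * (b : ℝ) + 1) ^ m.totient := by
              refine mul_le_mul hv ?_ (mul_nonneg (by positivity) hpos) (Nat.cast_nonneg p)
              calc (b : ℝ) ^ m.totient * (cyclotomic m ℝ).eval r
                  ≤ (b : ℝ) ^ m.totient * (r + 1) ^ m.totient :=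
                    mul_le_mul_of_nonneg_left hup (by positivity)
                _ = (2 * (b : ℝ) + 1) ^ m.totient := by
                    rw [← mul_pow, hr, mul_add, mul_div_cancel₀ _ hbR.ne']
                    push_cast
                    ring
      have hgap : (p : ℝ) * (2 * b + 1) < ((b : ℝ) + 1) ^ p - (b : ℝ) ^ p := by
        have h := succ_pow_sub_pow_gt (b := b) hb hp3 h31
        have h' : ((p * (2 * b + 1) + b ^ p : ℕ) : ℝ) < (((b + 1) ^ p : ℕ) : ℝ) := Nat.cast_lt.mpr h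
        push_cast at h'
        linarith
      have h2 := pow_lt_pow_left₀ hgap (by positivity) (Nat.totient_pos.mpr hm0).ne'
      have h3 : (p : ℝ) * (2 * (b : ℝ) + 1) ^ m.totient ≤
          ((p : ℝ) * (2 * b + 1)) ^ m.totient := by
        rw [mul_pow]
        exact mul_le_mul_of_nonneg_right (le_self_pow₀ (by exact_mod_cast hpp.one_le)
          (Nat.totient_pos.mpr hm0).ne') (by positivity)
      linarith
    · obtain rfl : p = 3 := by
        have : p ∣ 3 := ⟨m, by omega⟩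
        exact (Nat.prime_dvd_prime_iff_eq hpp Nat.prime_three).mp this
      rw [hn3, homCyclotomic, Nat.cast_one, scaleRoots_one, cyclotomic_three]
      norm_num
  · have h := big (a ^ p ^ k) (b ^ p ^ k) (pow_pos hb _) ?_
    · refine lt_of_lt_of_eq h ?_
      have hn' : n.totient = p ^ k * (p * m).totient := by
        rw [hnm, Nat.totient_mul ((hpp.coprime_iff_not_dvd.mpr hm).pow_left _),
          Nat.totient_prime_pow_succ hpp, Nat.totient_mul (hpp.coprime_iff_not_dvd.mpr hm),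
          Nat.totient_prime hpp]
        ring
      refine Int.cast_injective (α := ℝ) ?_
      rw [homCyclotomic_real (pow_pos hb _), homCyclotomic_real hb, hn', hnm,
        cyclotomic_real_prime_pow_mul hpp, pow_mul, div_pow]
      push_cast
      rfl
    · have h2 : 2 ≤ p ^ k := hpp.two_le.trans (Nat.le_self_pow hk.ne' p)
      have hpow : (b + 1) ^ p ^ k ≤ a ^ p ^ k := Nat.pow_le_pow_left hba _
      obtain ⟨j, hj⟩ := Nat.exists_eq_add_of_le h2
      rw [hj, pow_add, pow_add] at hpow ⊢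
      have : b ^ j ≤ (b + 1) ^ j := Nat.pow_le_pow_left b.le_succ j
      have : 1 ≤ b ^ j := Nat.one_le_pow _ _ hb
      nlinarith

end FA.ReducedGroups

end
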